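/-
Project S36 (Carayol), cell [GLUE] (helper3): IDEAL ARITHMETIC AT A MULTIPLE POINT (prefix `s36g_`).

`R` a commutative ring, `𝔫` an ideal (the maximal ideal of the local ring of a closed point of the
special fibre), `u j` (`j : ι`, `ι` finite) the local equations of the branches (= vertical
components) through the point, PAIRWISE TRANSVERSAL: `𝔫 ≤ (u i, u j)` for `i ≠ j`; `e j` the
multiplicities, `π = unit · ∏ u j ^ e j`.

* `s36g_crt`              : abstract Chinese remainder theorem "modulo a conductor": if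
                            `𝔞 ≤ I j ⊔ ⨅_{k ≠ j} I k` for all `j`, every family `z j ∈ 𝔞` is
                            simultaneously congruent to ONE `w` modulo the `I j`.
* `s36g_crt_transversal`  : for transversal branches this applies to `I j = (u j ^ e j)` and
                            `𝔞 = 𝔫 ^ K`, `K ≥ e j * ∑_{k ≠ j} e k`.
* `s36g_glue_core`        : THE GLUING LEMMA, fraction-free form.  `q` a prime with `π ∣ q`;
                            `e₀ = x / y` with `x ≡ a j y mod u j` (the "branch values" `a j` of `e₀`)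
                            and `a j ≡ a₀ mod 𝔫` (the branch values AGREE AT THE POINT).  Then for
                            `Q = q ^ k` large there is `w ≡ a j ^ Q mod u j ^ e j` with
                            `π ∣ x ^ Q - w y ^ Q`, i.e. `e₀ ^ Q ≡ w` modulo `π` at every branch.
  This is the precise form of: "at a planar ordinary triple point equality of the three branch
  values is NOT sufficient for gluing (`δ = 3 > 2`); the extra condition dies after a `q`-power".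
-/
import Mathlib

set_option autoImplicit false

namespace Fermat.Agent.S36

open Finset

section Ideals

variable {R : Type*} [CommRing R]

theorem s36g_sup_mul_sup_le (I J J' : Ideal R) : (I ⊔ J) * (I ⊔ J') ≤ I ⊔ J * J' := by
  rw [Ideal.sup_mul, Ideal.mul_sup, Ideal.mul_sup]
  refine sup_le (sup_le ?_ ?_) (sup_le ?_ le_sup_right)
  · exact le_sup_of_le_left Ideal.mul_le_left
  · exact le_sup_of_le_left Ideal.mul_le_left
  · exact le_sup_of_le_left Ideal.mul_le_right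

theorem s36g_sup_pow_le (I J : Ideal R) (n : ℕ) : (I ⊔ J) ^ n ≤ I ^ n ⊔ J := by
  induction n with
  | zero => simp
  | succ n ih =>
    calc (I ⊔ J) ^ (n + 1) = (I ⊔ J) ^ n * (I ⊔ J) := pow_succ _ _
      _ ≤ (I ^ n ⊔ J) * (I ⊔ J) := Ideal.mul_mono_left ih
      _ ≤ I ^ (n + 1) ⊔ J := by
        rw [Ideal.sup_mul, Ideal.mul_sup, Ideal.mul_sup, pow_succ]
        refine sup_le (sup_le le_sup_left ?_) (sup_le ?_ ?_)
        · exact le_sup_of_le_right Ideal.mul_le_right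
        · exact le_sup_of_le_right Ideal.mul_le_left
        · exact le_sup_of_le_right Ideal.mul_le_left

theorem s36g_prod_sup_pow_le {ι : Type*} [DecidableEq ι] (s : Finset ι) (I : Ideal R)
    (J : ι → Ideal R) (e : ι → ℕ) :
    ∏ k ∈ s, (I ⊔ J k) ^ e k ≤ I ⊔ ∏ k ∈ s, J k ^ e k := by
  induction s using Finset.induction_on with
  | empty => simp
  | insert a s ha ih =>
    rw [Finset.prod_insert ha, Finset.prod_insert ha]
    have h1 : (I ⊔ J a) ^ e a ≤ I ⊔ J a ^ e a := by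
      have := s36g_sup_pow_le (J a) I (e a)
      rwa [sup_comm I, sup_comm I]
    exact (Ideal.mul_mono h1 ih).trans (s36g_sup_mul_sup_le _ _ _)

/-- transversality of the branch `u j` to the branches `u k`, `k ∈ s`: a power of `𝔫` lies in
`(u j ^ e j) + (∏_{k ∈ s} u k ^ e k)`. -/
theorem s36g_pow_le_of_transversal {ι : Type*} [DecidableEq ι] (s : Finset ι) (𝔫 : Ideal R)
    (u : ι → R) (e : ι → ℕ) (j : ι)
    (h : ∀ k ∈ s, 𝔫 ≤ Ideal.span {u j} ⊔ Ideal.span {u k}) :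
    𝔫 ^ (e j * ∑ k ∈ s, e k) ≤
      Ideal.span {u j ^ e j} ⊔ Ideal.span {∏ k ∈ s, u k ^ e k} := by
  have h1 : 𝔫 ^ (∑ k ∈ s, e k) ≤ Ideal.span {u j} ⊔ Ideal.span {∏ k ∈ s, u k ^ e k} := by
    rw [← Finset.prod_pow_eq_pow_sum]
    calc ∏ k ∈ s, 𝔫 ^ e k ≤ ∏ k ∈ s, (Ideal.span {u j} ⊔ Ideal.span {u k}) ^ e k :=
          Finset.prod_le_prod' fun k hk => Ideal.pow_right_mono (h k hk) _
      _ ≤ Ideal.span {u j} ⊔ ∏ k ∈ s, Ideal.span {u k} ^ e k := s36g_prod_sup_pow_le _ _ _ _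
      _ = Ideal.span {u j} ⊔ Ideal.span {∏ k ∈ s, u k ^ e k} := by
          congr 1
          rw [← Ideal.prod_span_singleton]
          exact Finset.prod_congr rfl fun k _ => Ideal.span_singleton_pow _ _
  calc 𝔫 ^ (e j * ∑ k ∈ s, e k) = (𝔫 ^ (∑ k ∈ s, e k)) ^ e j := by rw [mul_comm, pow_mul]
    _ ≤ (Ideal.span {u j} ⊔ Ideal.span {∏ k ∈ s, u k ^ e k}) ^ e j := Ideal.pow_right_mono h1 _
    _ ≤ Ideal.span {u j} ^ e j ⊔ Ideal.span {∏ k ∈ s, u k ^ e k} := s36g_sup_pow_le _ _ _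
    _ = Ideal.span {u j ^ e j} ⊔ Ideal.span {∏ k ∈ s, u k ^ e k} := by
        rw [Ideal.span_singleton_pow]

/-- **Chinese remainder theorem modulo a conductor.** -/
theorem s36g_crt {ι : Type*} [Fintype ι] [DecidableEq ι] (I : ι → Ideal R) (𝔞 : Ideal R)
    (h : ∀ j, 𝔞 ≤ I j ⊔ ⨅ k ∈ (Finset.univ : Finset ι).erase j, I k) (z : ι → R)
    (hz : ∀ j, z j ∈ 𝔞) : ∃ w : R, ∀ j, w - z j ∈ I j := by
  have hdec : ∀ j, ∃ r ∈ I j, ∃ s ∈ ⨅ k ∈ (Finset.univ : Finset ι).erase j, I k, r + s = z j :=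
    fun j => Submodule.mem_sup.1 (h j (hz j))
  choose r hr s hs hrs using hdec
  refine ⟨∑ j, s j, fun j => ?_⟩
  have hsplit : ∑ k, s k = s j + ∑ k ∈ (Finset.univ : Finset ι).erase j, s k := by
    rw [Finset.add_sum_erase _ _ (Finset.mem_univ j)]
  have : ∑ k, s k - z j = ∑ k ∈ (Finset.univ : Finset ι).erase j, s k - r j := by
    rw [hsplit, ← hrs j]; ring
  rw [this]
  refine (I j).sub_mem ((I j).sum_mem fun k hk => ?_) (hr j)
  have hk' : j ∈ (Finset.univ : Finset ι).erase k :=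
    Finset.mem_erase.2 ⟨(Finset.ne_of_mem_erase hk).symm, Finset.mem_univ j⟩
  have := hs k
  simp only [Submodule.mem_iInf] at this
  exact this j hk'

/-- **CRT at a point with pairwise transversal branches.** -/
theorem s36g_crt_transversal {ι : Type*} [Fintype ι] [DecidableEq ι] (𝔫 : Ideal R) (u : ι → R)
    (e : ι → ℕ) (htr : ∀ i j, i ≠ j → 𝔫 ≤ Ideal.span {u i} ⊔ Ideal.span {u j}) (K : ℕ)
    (hK : ∀ j, e j * ∑ k ∈ (Finset.univ : Finset ι).erase j, e k ≤ K) (z : ι → R)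
    (hz : ∀ j, z j ∈ 𝔫 ^ K) : ∃ w : R, ∀ j, w - z j ∈ Ideal.span {u j ^ e j} := by
  refine s36g_crt (fun j => Ideal.span {u j ^ e j}) (𝔫 ^ K) (fun j => ?_) z hz
  calc 𝔫 ^ K ≤ 𝔫 ^ (e j * ∑ k ∈ (Finset.univ : Finset ι).erase j, e k) :=
        Ideal.pow_le_pow_right (hK j)
    _ ≤ Ideal.span {u j ^ e j} ⊔
          Ideal.span {∏ k ∈ (Finset.univ : Finset ι).erase j, u k ^ e k} :=
        s36g_pow_le_of_transversal _ 𝔫 u e j fun k hk => htr j k (Finset.ne_of_mem_erase hk).symm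
    _ ≤ _ := by
        refine sup_le_sup_left ?_ _
        rw [Ideal.span_singleton_le_iff_mem]
        simp only [Submodule.mem_iInf]
        intro k hk
        rw [Ideal.mem_span_singleton]
        exact Finset.dvd_prod_of_mem (fun k => u k ^ e k) hk

end Ideals

section Frobenius

variable {R : Type*} [CommRing R]

theorem s36g_add_pow_prime_pow {q : ℕ} (hq : q.Prime) (x y : R) (k : ℕ) :
    ∃ r : R, (x + y) ^ q ^ k = x ^ q ^ k + y ^ q ^ k + (q : R) * r := by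
  obtain ⟨r, hr⟩ := exists_add_pow_prime_pow_eq hq x y k
  exact ⟨x * y * r, by rw [hr]; ring⟩

/-- `(1 + n)^Q ≡ 1` modulo `π` when `π ∣ q` and `π ∣ n^Q`. -/
theorem s36g_one_add_pow {q : ℕ} (hq : q.Prime) {π : R} (hqπ : π ∣ (q : R)) (n : R) (k : ℕ)
    (hn : π ∣ n ^ q ^ k) : π ∣ (1 + n) ^ q ^ k - 1 := by
  obtain ⟨r, hr⟩ := s36g_add_pow_prime_pow hq 1 n k
  have : (1 + n) ^ q ^ k - 1 = n ^ q ^ k + (q : R) * r := by rw [hr, one_pow]; ring
  rw [this]
  exact dvd_add hn (Dvd.dvd.mul_right hqπ r)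

/-- **THE GLUING LEMMA (fraction-free form).** -/
theorem s36g_glue_core {ι : Type*} [Fintype ι] [DecidableEq ι] {q : ℕ} (hq : q.Prime) (π : R)
    (hqπ : π ∣ (q : R)) (𝔫 : Ideal R) (u : ι → R) (e : ι → ℕ)
    (hπu : ∀ j, u j ^ e j ∣ π) (hinf : ∀ z : R, (∀ j, u j ^ e j ∣ z) → π ∣ z)
    (htr : ∀ i j, i ≠ j → 𝔫 ≤ Ideal.span {u i} ⊔ Ideal.span {u j})
    (x y : R) (a : ι → R) (a0 : R) (hxa : ∀ j, u j ∣ x - a j * y) (haa : ∀ j, a j - a0 ∈ 𝔫)
    (k : ℕ) (hK : ∀ j, e j * ∑ i ∈ (Finset.univ : Finset ι).erase j, e i ≤ q ^ k)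
    (he : ∀ j, e j ≤ q ^ k) :
    ∃ w : R, (∀ j, u j ^ e j ∣ w - a j ^ q ^ k) ∧ π ∣ x ^ q ^ k - w * y ^ q ^ k := by
  set Q := q ^ k with hQ
  -- the differences `n j = a j - a0`
  have hz : ∀ j, (a j - a0) ^ Q ∈ 𝔫 ^ Q := fun j => Ideal.pow_mem_pow (haa j) Q
  obtain ⟨w0, hw0⟩ := s36g_crt_transversal 𝔫 u e htr Q hK (fun j => (a j - a0) ^ Q) hz
  have hqu : ∀ j, u j ^ e j ∣ (q : R) := fun j => (hπu j).trans hqπ
  have hw : ∀ j, u j ^ e j ∣ a0 ^ Q + w0 - a j ^ Q := by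
    intro j
    obtain ⟨r, hr⟩ := s36g_add_pow_prime_pow hq a0 (a j - a0) k
    have h1 : a j ^ Q = a0 ^ Q + (a j - a0) ^ Q + (q : R) * r := by
      rw [← hr]; congr 1; ring
    have h2 : a0 ^ Q + w0 - a j ^ Q = (w0 - (a j - a0) ^ Q) - (q : R) * r := by
      rw [h1]; ring
    rw [h2]
    exact dvd_sub (Ideal.mem_span_singleton.1 (hw0 j)) (Dvd.dvd.mul_right (hqu j) r)
  refine ⟨a0 ^ Q + w0, hw, hinf _ fun j => ?_⟩
  obtain ⟨t, ht⟩ := hxa j
  obtain ⟨r, hr⟩ := s36g_add_pow_prime_pow hq (a j * y) (u j * t) k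
  have hx : x = a j * y + u j * t := by rw [← ht]; ring
  have h3 : x ^ Q - (a0 ^ Q + w0) * y ^ Q =
      u j ^ Q * t ^ Q + (q : R) * r - (a0 ^ Q + w0 - a j ^ Q) * y ^ Q := by
    rw [hx, hr]; ring
  rw [h3]
  refine dvd_sub (dvd_add ?_ (Dvd.dvd.mul_right (hqu j) r)) (Dvd.dvd.mul_right (hw j) _)
  exact Dvd.dvd.mul_right (pow_dvd_pow (u j) (he j)) _

end Frobenius

end Fermat.Agent.S36
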