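/-
Project S36 (Carayol), cell [GLUE] (helper3): BRANCH VALUES AND THE GLUING LEMMA AT A CLOSED POINT
(prefix `s36g_`).

`R` a domain with fraction field `F` (`R = B_𝔫`, the local ring of a chart at a closed point of the
special fibre).  For a prime `𝔮` of `R` (a BRANCH = a vertical prime through the point):

* `s36g_MemM 𝔮 z`          : `z ∈ 𝔮 R_𝔮` (the maximal ideal of the local ring of the branch);
                             `z ≡ z' mod 𝔮` is written `s36g_MemM 𝔮 (z - z')`;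
* a BRANCH VALUE of `g ∈ F` along `𝔮` is an `a ∈ R` with `s36g_MemM 𝔮 (g - a)`; it is unique modulo
  `𝔮` (`s36g_branch_value_unique`), multiplicative (`s36g_memM_mul_sub`, `s36g_memM_pow_sub`);
* **(G1) existence** `s36g_exists_branch_value` : if `R / 𝔮` is integrally closed (the branch is
  smooth at the point), `g` a unit at `𝔮` and `ω gᵐ ≡ 1 mod 𝔮` with `ω ∈ Rˣ`, then `g` has a branch
  value along `𝔮`;
* **(G1) independence** `s36g_root_unique` : two local factorisations `ω gᵐ = ω' g'ᵐ` differ by a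
  unit of `R` (`R` integrally closed): `g' = t g`, so the tuple of branch values is well defined up
  to ONE common scalar;
* **(G2) THE GLUING LEMMA** `s36g_glue_local` : `R` factorial, `π ~ ∏ u j ^ e j` with pairwise
  transversal prime elements `u j`, `π ∣ q`; if the branch values `a j` of `g` AGREE AT THE POINT
  (`a j - a₀ ∈ 𝔫`) then for `Q = q ^ k` large: `g = x / y` with `x, y` prime to all `u j` and
  `π ∣ x ^ Q - w y ^ Q` for a `w ≡ a j ^ Q mod u j ^ e j`.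
-/
import Mathlib
import Fermat.Agent.SS.Local.Height1
import Fermat.Agent.S36.Glue.Crt

set_option autoImplicit false
set_option linter.unusedSectionVars false

namespace Fermat.Agent.S36

open Fermat.Agent.SS

section MemM

variable {R : Type*} [CommRing R] [IsDomain R] {F : Type*} [Field F] [Algebra R F]
  [IsFractionRing R F]

/-- `z ∈ 𝔮 R_𝔮` -/
def s36g_MemM (𝔮 : Ideal R) (z : F) : Prop :=
  ∃ b s : R, b ∈ 𝔮 ∧ s ∉ 𝔮 ∧ z * algebraMap R F s = algebraMap R F b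

variable (𝔮 : Ideal R) [h𝔮 : 𝔮.IsPrime]

omit [IsDomain R] [IsFractionRing R F] in
theorem s36g_memM_zero : s36g_MemM 𝔮 (0 : F) :=
  ⟨0, 1, 𝔮.zero_mem, fun h => h𝔮.ne_top ((Ideal.eq_top_iff_one _).2 h), by simp⟩

omit [IsDomain R] [IsFractionRing R F] in
theorem s36g_memM_of_mem {b : R} (hb : b ∈ 𝔮) : s36g_MemM 𝔮 (algebraMap R F b) :=
  ⟨b, 1, hb, fun h => h𝔮.ne_top ((Ideal.eq_top_iff_one _).2 h), by simp⟩

theorem s36g_memM_algebraMap_iff {r : R} : s36g_MemM 𝔮 (algebraMap R F r) ↔ r ∈ 𝔮 := by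
  constructor
  · rintro ⟨b, s, hb, hs, h⟩
    have h2 : r * s = b := by
      apply IsFractionRing.injective R F
      rw [map_mul, h]
    have : r * s ∈ 𝔮 := h2 ▸ hb
    exact (h𝔮.mem_or_mem this).resolve_right hs
  · exact s36g_memM_of_mem 𝔮

omit [IsDomain R] [IsFractionRing R F] in
theorem s36g_memM_add {z w : F} (hz : s36g_MemM 𝔮 z) (hw : s36g_MemM 𝔮 w) :
    s36g_MemM 𝔮 (z + w) := by
  obtain ⟨b, s, hb, hs, h⟩ := hz
  obtain ⟨b', s', hb', hs', h'⟩ := hw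
  refine ⟨b * s' + b' * s, s * s', 𝔮.add_mem (𝔮.mul_mem_right _ hb) (𝔮.mul_mem_right _ hb'),
    fun hm => (h𝔮.mem_or_mem hm).elim hs hs', ?_⟩
  simp only [map_add, map_mul, ← h, ← h']
  ring

omit [IsDomain R] [IsFractionRing R F] in
theorem s36g_memM_neg {z : F} (hz : s36g_MemM 𝔮 z) : s36g_MemM 𝔮 (-z) := by
  obtain ⟨b, s, hb, hs, h⟩ := hz
  exact ⟨-b, s, 𝔮.neg_mem hb, hs, by rw [neg_mul, h, map_neg]⟩

omit [IsDomain R] [IsFractionRing R F] in
theorem s36g_memM_sub {z w : F} (hz : s36g_MemM 𝔮 z) (hw : s36g_MemM 𝔮 w) :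
    s36g_MemM 𝔮 (z - w) := by
  rw [sub_eq_add_neg]
  exact s36g_memM_add 𝔮 hz (s36g_memM_neg 𝔮 hw)

omit [IsDomain R] [IsFractionRing R F] in
/-- `𝔮 R_𝔮` is an ideal of `R_𝔮`. -/
theorem s36g_memM_mul_memAt {z w : F} (hz : s36g_MemM 𝔮 z) (hw : ssl_MemAt F 𝔮 w) :
    s36g_MemM 𝔮 (z * w) := by
  obtain ⟨b, s, hb, hs, h⟩ := hz
  obtain ⟨a, s', hs', h'⟩ := hw
  refine ⟨b * a, s * s', 𝔮.mul_mem_right _ hb, fun hm => (h𝔮.mem_or_mem hm).elim hs hs', ?_⟩
  simp only [map_mul, ← h, ← h']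
  ring

omit [IsDomain R] [IsFractionRing R F] in
theorem s36g_memAt_of_memM {z : F} (hz : s36g_MemM 𝔮 z) : ssl_MemAt F 𝔮 z := by
  obtain ⟨b, s, -, hs, h⟩ := hz
  exact ⟨b, s, hs, h⟩

/-- an element congruent to an element of `R_𝔮` lies in `R_𝔮`. -/
theorem s36g_memAt_of_sub {z w : F} (h : s36g_MemM 𝔮 (z - w)) (hw : ssl_MemAt F 𝔮 w) :
    ssl_MemAt F 𝔮 z := by
  have : z = (z - w) + w := by ring
  rw [this]
  exact ssl_memAt_add 𝔮 (s36g_memAt_of_memM 𝔮 h) hw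

/-- congruences multiply. -/
theorem s36g_memM_mul_sub {z z' w w' : F} (hz : s36g_MemM 𝔮 (z - z')) (hw : s36g_MemM 𝔮 (w - w'))
    (hz' : ssl_MemAt F 𝔮 z') (hw' : ssl_MemAt F 𝔮 w') : s36g_MemM 𝔮 (z * w - z' * w') := by
  have : z * w - z' * w' = (z - z') * w + (w - w') * z' := by ring
  rw [this]
  exact s36g_memM_add 𝔮 (s36g_memM_mul_memAt 𝔮 hz (s36g_memAt_of_sub 𝔮 hw hw'))
    (s36g_memM_mul_memAt 𝔮 hw hz')

theorem s36g_memM_pow_sub {z z' : F} (hz : s36g_MemM 𝔮 (z - z')) (hz' : ssl_MemAt F 𝔮 z')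
    (n : ℕ) : s36g_MemM 𝔮 (z ^ n - z' ^ n) := by
  induction n with
  | zero => simp only [pow_zero, sub_self]; exact s36g_memM_zero 𝔮
  | succ n ih =>
    rw [pow_succ, pow_succ]
    refine s36g_memM_mul_sub 𝔮 ih hz ?_ hz'
    clear ih
    induction n with
    | zero => rw [pow_zero]; exact ⟨1, 1, fun h => h𝔮.ne_top ((Ideal.eq_top_iff_one _).2 h), by simp⟩
    | succ n ih => rw [pow_succ]; exact ssl_memAt_mul 𝔮 ih hz'

/-- a branch value is unique modulo `𝔮`. -/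
theorem s36g_branch_value_unique {g : F} {a a' : R} (h : s36g_MemM 𝔮 (g - algebraMap R F a))
    (h' : s36g_MemM 𝔮 (g - algebraMap R F a')) : a - a' ∈ 𝔮 := by
  rw [← s36g_memM_algebraMap_iff (F := F) 𝔮]
  have : algebraMap R F (a - a') = (g - algebraMap R F a') - (g - algebraMap R F a) := by
    rw [map_sub]; ring
  rw [this]
  exact s36g_memM_sub 𝔮 h' h

/-- fraction form of a congruence: `g = x / y`, `g ≡ a mod 𝔮` ⟹ `x - a y ∈ 𝔮`. -/
theorem s36g_mem_of_memM_frac {g : F} {x y a : R} (hxy : g * algebraMap R F y = algebraMap R F x)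
    (h : s36g_MemM 𝔮 (g - algebraMap R F a)) : x - a * y ∈ 𝔮 := by
  obtain ⟨b, s, hb, hs, hbs⟩ := h
  have h2 : (x - a * y) * s = b * y := by
    apply IsFractionRing.injective R F
    simp only [map_mul, map_sub, ← hbs, ← hxy]
    ring
  have : (x - a * y) * s ∈ 𝔮 := h2 ▸ 𝔮.mul_mem_right _ hb
  exact (h𝔮.mem_or_mem this).resolve_right hs

omit [IsDomain R] [IsFractionRing R F] in
/-- converse. -/
theorem s36g_memM_of_mem_frac {g : F} {x y a : R} (hxy : g * algebraMap R F y = algebraMap R F x)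
    (hy : y ∉ 𝔮) (h : x - a * y ∈ 𝔮) : s36g_MemM 𝔮 (g - algebraMap R F a) :=
  ⟨x - a * y, y, h, hy, by rw [sub_mul, hxy, map_sub, map_mul]⟩

end MemM

section G1

variable {R : Type*} [CommRing R] [IsDomain R] {F : Type*} [Field F] [Algebra R F]
  [IsFractionRing R F]

/-- **(G1) existence of the branch value.** -/
theorem s36g_exists_branch_value (𝔮 : Ideal R) [h𝔮 : 𝔮.IsPrime] [IsIntegrallyClosed (R ⧸ 𝔮)]
    {m : ℕ} (hm : 0 < m) {g : F} (hg : ssl_UnitAt F 𝔮 g) (ω : Rˣ)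
    (h1 : s36g_MemM 𝔮 (algebraMap R F (ω : R) * g ^ m - 1)) :
    ∃ a : R, a ∉ 𝔮 ∧ s36g_MemM 𝔮 (g - algebraMap R F a) := by
  obtain ⟨x, y, hx, hy, hxy⟩ := hg
  -- `ω xᵐ - yᵐ ∈ 𝔮`
  have hym : y ^ m ∉ 𝔮 := fun h => hy (h𝔮.mem_of_pow_mem m h)
  have hfrac : (algebraMap R F (ω : R) * g ^ m) * algebraMap R F (y ^ m) =
      algebraMap R F ((ω : R) * x ^ m) := by
    rw [map_mul, map_pow, map_pow, ← hxy]; ring
  have h2 : (ω : R) * x ^ m - 1 * y ^ m ∈ 𝔮 :=
    s36g_mem_of_memM_frac 𝔮 hfrac (by rwa [map_one])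
  rw [one_mul] at h2
  -- pass to the quotient domain
  let Rb := R ⧸ 𝔮
  let Kb := FractionRing Rb
  have hyb : (Ideal.Quotient.mk 𝔮 y : Rb) ≠ 0 := by
    rw [Ne, Ideal.Quotient.eq_zero_iff_mem]; exact hy
  have hybK : algebraMap Rb Kb (Ideal.Quotient.mk 𝔮 y) ≠ 0 :=
    (map_ne_zero_iff _ (IsFractionRing.injective Rb Kb)).2 hyb
  set ξ : Kb := algebraMap Rb Kb (Ideal.Quotient.mk 𝔮 x) / algebraMap Rb Kb (Ideal.Quotient.mk 𝔮 y)
    with hξ
  have hrel : (Ideal.Quotient.mk 𝔮 (ω : R) : Rb) * (Ideal.Quotient.mk 𝔮 x) ^ m =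
      (Ideal.Quotient.mk 𝔮 y) ^ m := by
    rw [← map_pow, ← map_pow, ← map_mul, ← sub_eq_zero, ← map_sub,
      Ideal.Quotient.eq_zero_iff_mem]
    exact h2
  have hωinv : (Ideal.Quotient.mk 𝔮 ((ω⁻¹ : Rˣ) : R) : Rb) * Ideal.Quotient.mk 𝔮 (ω : R) = 1 := by
    rw [← map_mul, ← Units.val_mul, inv_mul_cancel, Units.val_one, map_one]
  have hξm : ξ ^ m = algebraMap Rb Kb (Ideal.Quotient.mk 𝔮 ((ω⁻¹ : Rˣ) : R)) := by
    have h3 : (Ideal.Quotient.mk 𝔮 x : Rb) ^ m =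
        Ideal.Quotient.mk 𝔮 ((ω⁻¹ : Rˣ) : R) * (Ideal.Quotient.mk 𝔮 y) ^ m := by
      rw [← hrel, ← mul_assoc, hωinv, one_mul]
    have h6 : algebraMap Rb Kb (Ideal.Quotient.mk 𝔮 x) ^ m =
        algebraMap Rb Kb (Ideal.Quotient.mk 𝔮 ((ω⁻¹ : Rˣ) : R)) *
          algebraMap Rb Kb (Ideal.Quotient.mk 𝔮 y) ^ m := by
      rw [← map_pow (algebraMap Rb Kb), h3, map_mul, map_pow]
    have h7 : algebraMap Rb Kb (Ideal.Quotient.mk 𝔮 y) ^ m ≠ 0 := pow_ne_zero m hybK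
    rw [hξ, div_pow, h6, mul_div_assoc, div_self h7, mul_one]
  have hint : IsIntegral Rb (ξ ^ m) := by rw [hξm]; exact isIntegral_algebraMap
  obtain ⟨ab, hab⟩ := IsIntegrallyClosed.exists_algebraMap_eq_of_isIntegral_pow (K := Kb) hm hint
  obtain ⟨a, rfl⟩ := Ideal.Quotient.mk_surjective ab
  have h4 : (Ideal.Quotient.mk 𝔮 a : Rb) * Ideal.Quotient.mk 𝔮 y = Ideal.Quotient.mk 𝔮 x := by
    apply IsFractionRing.injective Rb Kb
    rw [map_mul, hab, hξ, div_mul_cancel₀ _ hybK]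
  have h5 : x - a * y ∈ 𝔮 := by
    rw [← Ideal.Quotient.eq_zero_iff_mem, map_sub, map_mul, h4, sub_self]
  refine ⟨a, fun ha => hx ?_, s36g_memM_of_mem_frac 𝔮 hxy hy h5⟩
  have : x = (x - a * y) + a * y := by ring
  rw [this]
  exact 𝔮.add_mem h5 (𝔮.mul_mem_right _ ha)

/-- **(G1) independence of the choices**: two `m`-th roots modulo units differ by a unit. -/
theorem s36g_root_unique [IsIntegrallyClosed R] {m : ℕ} (hm : 0 < m) {g g' : F} (hg : g ≠ 0)
    (ω ω' : Rˣ) (h : algebraMap R F (ω : R) * g ^ m = algebraMap R F (ω' : R) * g' ^ m) :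
    ∃ t : Rˣ, g' = algebraMap R F (t : R) * g := by
  have hω0 : algebraMap R F (ω : R) ≠ 0 := ssl_algebraMap_ne_zero ω.ne_zero
  have hω'0 : algebraMap R F (ω' : R) ≠ 0 := ssl_algebraMap_ne_zero ω'.ne_zero
  have hg'0 : g' ≠ 0 := by
    rintro rfl
    rw [zero_pow hm.ne', mul_zero] at h
    exact (mul_ne_zero hω0 (pow_ne_zero m hg)) h
  have hinv : ∀ (υ : Rˣ), algebraMap R F ((υ⁻¹ : Rˣ) : R) = (algebraMap R F (υ : R))⁻¹ := by
    intro υ
    have h1 : algebraMap R F (υ : R) * algebraMap R F ((υ⁻¹ : Rˣ) : R) = 1 := by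
      rw [← map_mul, ← Units.val_mul, mul_inv_cancel, Units.val_one, map_one]
    exact eq_inv_of_mul_eq_one_right h1
  -- `t = g' / g`, `tᵐ = ω / ω'`
  have ht : (g' / g) ^ m = algebraMap R F ((ω * ω'⁻¹ : Rˣ) : R) := by
    rw [Units.val_mul, map_mul, hinv, div_pow]
    have : g ^ m ≠ 0 := pow_ne_zero m hg
    field_simp
    rw [mul_comm (g' ^ m), ← h]; ring
  have ht' : (g / g') ^ m = algebraMap R F ((ω' * ω⁻¹ : Rˣ) : R) := by
    rw [Units.val_mul, map_mul, hinv, div_pow]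
    have : g' ^ m ≠ 0 := pow_ne_zero m hg'0
    field_simp
    rw [mul_comm (g ^ m), h]; ring
  obtain ⟨t, ht1⟩ := IsIntegrallyClosed.exists_algebraMap_eq_of_isIntegral_pow (R := R) (K := F) hm
    (x := g' / g) (by rw [ht]; exact isIntegral_algebraMap)
  obtain ⟨t', ht2⟩ := IsIntegrallyClosed.exists_algebraMap_eq_of_isIntegral_pow (R := R) (K := F) hm
    (x := g / g') (by rw [ht']; exact isIntegral_algebraMap)
  have htt : t * t' = 1 := by
    apply IsFractionRing.injective R F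
    rw [map_mul, ht1, ht2, map_one]
    field_simp
  refine ⟨⟨t, t', htt, by rw [mul_comm]; exact htt⟩, ?_⟩
  show g' = algebraMap R F t * g
  rw [ht1]
  field_simp

end G1

section G2

variable {R : Type*} [CommRing R] [IsDomain R] [UniqueFactorizationMonoid R] {F : Type*} [Field F]
  [Algebra R F] [IsFractionRing R F]

/-- divisibility by pairwise non-associated prime powers implies divisibility by the product. -/
theorem s36g_prod_dvd {ι : Type*} [Fintype ι] (u : ι → R) (e : ι → ℕ)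
    (hu : ∀ j, Prime (u j)) (hna : ∀ i j, i ≠ j → ¬ Associated (u i) (u j)) (z : R)
    (hz : ∀ j, u j ^ e j ∣ z) : ∏ j, u j ^ e j ∣ z := by
  refine Finset.prod_dvd_of_isRelPrime ?_ (fun j _ => hz j)
  intro i _ j _ hij
  show IsRelPrime (u i ^ e i) (u j ^ e j)
  refine IsRelPrime.pow ?_
  rw [(hu i).irreducible.isRelPrime_iff_not_dvd,
    (hu i).irreducible.dvd_irreducible_iff_associated (hu j).irreducible]
  exact hna i j hij

/-- **(G2) THE GLUING LEMMA at a closed point with pairwise transversal branches.** -/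
theorem s36g_glue_local {ι : Type*} [Fintype ι] [DecidableEq ι] {q : ℕ} (hq : q.Prime) {π : R}
    (hqπ : π ∣ (q : R)) (𝔫 : Ideal R) (u : ι → R) (e : ι → ℕ) (hu : ∀ j, Prime (u j))
    (hna : ∀ i j, i ≠ j → ¬ Associated (u i) (u j)) (hπ : Associated π (∏ j, u j ^ e j))
    (htr : ∀ i j, i ≠ j → 𝔫 ≤ Ideal.span {u i} ⊔ Ideal.span {u j})
    {g : F} (hg : ∀ j, ssl_UnitAt F (Ideal.span {u j}) g) (a : ι → R) (a0 : R)
    (hga : ∀ j, s36g_MemM (Ideal.span {u j}) (g - algebraMap R F (a j)))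
    (haa : ∀ j, a j - a0 ∈ 𝔫) (k : ℕ)
    (hK : ∀ j, e j * ∑ i ∈ (Finset.univ : Finset ι).erase j, e i ≤ q ^ k)
    (he : ∀ j, e j ≤ q ^ k) :
    ∃ w z x y : R, (∀ j, ¬ u j ∣ x) ∧ (∀ j, ¬ u j ∣ y) ∧
      g * algebraMap R F y = algebraMap R F x ∧ (∀ j, u j ^ e j ∣ w - a j ^ q ^ k) ∧
      x ^ q ^ k - w * y ^ q ^ k = π * z := by
  obtain ⟨x, ⟨y, hy0⟩, hrel, hmk⟩ := IsFractionRing.exists_reduced_fraction R g
  have hxy : g * algebraMap R F y = algebraMap R F x := by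
    rw [← hmk]; exact IsLocalization.mk'_spec F x ⟨y, hy0⟩
  have hprime : ∀ j, (Ideal.span {u j}).IsPrime := fun j =>
    (Ideal.span_singleton_prime (hu j).ne_zero).2 (hu j)
  -- the reduced fraction is prime to every `u j`
  have hboth : ∀ j, ¬ u j ∣ x ∧ ¬ u j ∣ y := by
    intro j
    obtain ⟨x', y', hx', hy', h'⟩ := hg j
    rw [Ideal.mem_span_singleton] at hx' hy'
    have hcross : x * y' = x' * y := by
      apply IsFractionRing.injective R F
      rw [map_mul, map_mul, ← hxy, ← h']; ring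
    have hnu : ¬ IsUnit (u j) := (hu j).not_isUnit
    constructor
    · intro hx
      have h1 : u j ∣ x' * y := hcross ▸ Dvd.dvd.mul_right hx y'
      have h2 : u j ∣ y := ((hu j).dvd_or_dvd h1).resolve_left hx'
      exact hnu (hrel hx h2)
    · intro hy
      have h1 : u j ∣ x * y' := hcross.symm ▸ Dvd.dvd.mul_left hy x'
      have h2 : u j ∣ x := ((hu j).dvd_or_dvd h1).resolve_right hy'
      exact hnu (hrel h2 hy)
  have hxa : ∀ j, u j ∣ x - a j * y := by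
    intro j
    have := hprime j
    exact Ideal.mem_span_singleton.1 (s36g_mem_of_memM_frac (Ideal.span {u j}) hxy (hga j))
  have hπu : ∀ j, u j ^ e j ∣ π :=
    fun j => (Finset.dvd_prod_of_mem (fun j => u j ^ e j) (Finset.mem_univ j)).trans hπ.symm.dvd
  have hinf : ∀ z : R, (∀ j, u j ^ e j ∣ z) → π ∣ z :=
    fun z hz => hπ.dvd.trans (s36g_prod_dvd u e hu hna z hz)
  obtain ⟨w, hw, z, hz⟩ := s36g_glue_core hq π hqπ 𝔫 u e hπu hinf htr x y a a0 hxa haa k hK he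
  exact ⟨w, z, x, y, fun j => (hboth j).1, fun j => (hboth j).2, hxy, hw, hz⟩

end G2

end Fermat.Agent.S36
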