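/-
Project S36 (Carayol), cell [GLUE-MAIN] (helper3): FROM THE GLOBAL VERTICAL VALUATIONS TO THE
BRANCHES AT A POINT (prefix `s36g_`).

`B ⊆ F0` a chart, `𝔫` a prime of `B`, `R = ssl_locSub F0 𝔫 = B_𝔫`.  A vertical valuation subring
`V` of `F0` with `P := 𝔪(V) ∩ B` and `B_P = V`; `u ∈ R` a prime element (a BRANCH at the point).

* `s36g_memM_of_nonunits` : if `(u) ∩ B = P` then `z ∈ 𝔪(V) ⟹ s36g_MemM (u) z`;
* `s36g_span_eq_of_le`    : in a factorial domain a nonzero prime contained in `(u)` is `(u)`;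
* `s36g_exists_link`      : if every prime of `B` containing `ϖ` contains one of the primes `P i`
  (helper24's `s36tp_Hyp.P_le_of_mem`), `R` is factorial and `u ∣ ϖ`, then `(u) ∩ B = P i` for
  some `i`.
-/
import Mathlib
import Fermat.Agent.SS.Local.Chart
import Fermat.Agent.S36.Glue.Local

set_option autoImplicit false
set_option linter.unusedSectionVars false

namespace Fermat.Agent.S36

open Fermat.Agent.SS

universe v

section UFD

variable {R : Type*} [CommRing R] [IsDomain R] [UniqueFactorizationMonoid R]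

/-- in a factorial domain, a nonzero prime ideal contained in a principal prime `(u)` equals it. -/
theorem s36g_span_eq_of_le {u : R} (hu : Prime u) (𝔭 : Ideal R) [h𝔭 : 𝔭.IsPrime] (h0 : 𝔭 ≠ ⊥)
    (hle : 𝔭 ≤ Ideal.span {u}) : 𝔭 = Ideal.span {u} := by
  refine le_antisymm hle ?_
  obtain ⟨p, hp𝔭, hp⟩ := Ideal.IsPrime.exists_mem_prime_of_ne_bot h𝔭 h0
  have hup : u ∣ p := Ideal.mem_span_singleton.1 (hle hp𝔭)
  obtain ⟨c, hc⟩ := hup
  rcases hp.irreducible.isUnit_or_isUnit hc with h | h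
  · exact absurd h hu.not_isUnit
  · rw [Ideal.span_le, Set.singleton_subset_iff]
    obtain ⟨w, rfl⟩ := h
    have : u = p * (↑w⁻¹ : R) := by rw [hc, mul_assoc, Units.mul_inv, mul_one]
    rw [this]
    exact 𝔭.mul_mem_right _ hp𝔭

end UFD

section Link

variable {A0 : Type*} [CommRing A0] {F0 : Type v} [Field F0] [Algebra A0 F0]
variable {B : Subalgebra A0 F0} [IsFractionRing B F0]
variable (𝔫 : Ideal B) [h𝔫 : 𝔫.IsPrime]

/-- the coercion to `F0` of the image in `B_𝔫` of an element of the chart. -/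
theorem s36g_coe_algebraMap (b : B) :
    ((algebraMap B (ssl_locSub F0 𝔫) b : ssl_locSub F0 𝔫) : F0) = (b : F0) := rfl

/-- **the dictionary**: `𝔪(V) ⊆ 𝔮 R_𝔮` when `𝔮 ∩ B = 𝔪(V) ∩ B` and `B_P = V`. -/
theorem s36g_memM_of_nonunits' (V : ValuationSubring F0) (P : Ideal B)
    (hBV : ∀ b : B, (b : F0) ∈ V) (hP : ∀ b : B, b ∈ P ↔ (b : F0) ∈ V.nonunits)
    (hV : ∀ z ∈ V, ∃ t : B, t ∉ P ∧ (t : F0) * z ∈ B)
    (𝔮 : Ideal (ssl_locSub F0 𝔫))
    (hcomap : 𝔮.comap (algebraMap B (ssl_locSub F0 𝔫)) = P)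
    {z : F0} (hz : z ∈ V.nonunits) : s36g_MemM 𝔮 z := by
  obtain ⟨t, ht, htz⟩ := hV z (ValuationSubring.nonunits_subset hz)
  have hbP : (⟨(t : F0) * z, htz⟩ : B) ∈ P := by
    rw [hP]
    show (t : F0) * z ∈ V.nonunits
    rw [ValuationSubring.mem_nonunits_iff] at hz ⊢
    rw [map_mul]
    have hb' : V.valuation (t : F0) ≤ 1 := (V.valuation_le_one_iff _).mpr (hBV t)
    calc V.valuation (t : F0) * V.valuation z ≤ 1 * V.valuation z := mul_le_mul_left hb' _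
      _ = V.valuation z := one_mul _
      _ < 1 := hz
  refine ⟨algebraMap B (ssl_locSub F0 𝔫) ⟨(t : F0) * z, htz⟩, algebraMap B (ssl_locSub F0 𝔫) t,
    ?_, ?_, ?_⟩
  · have : (⟨(t : F0) * z, htz⟩ : B) ∈
        𝔮.comap (algebraMap B (ssl_locSub F0 𝔫)) := by rw [hcomap]; exact hbP
    exact this
  · intro h
    apply ht
    rw [← hcomap]
    exact h
  · show z * (t : F0) = (t : F0) * z
    ring

/-- **the dictionary**: `𝔪(V) ⊆ (u) R_(u)` when `(u) ∩ B = 𝔪(V) ∩ B` and `B_P = V`. -/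
theorem s36g_memM_of_nonunits (V : ValuationSubring F0) (P : Ideal B)
    (hBV : ∀ b : B, (b : F0) ∈ V) (hP : ∀ b : B, b ∈ P ↔ (b : F0) ∈ V.nonunits)
    (hV : ∀ z ∈ V, ∃ t : B, t ∉ P ∧ (t : F0) * z ∈ B)
    (u : ssl_locSub F0 𝔫)
    (hcomap : (Ideal.span {u}).comap (algebraMap B (ssl_locSub F0 𝔫)) = P)
    {z : F0} (hz : z ∈ V.nonunits) : s36g_MemM (Ideal.span {u}) z :=
  s36g_memM_of_nonunits' 𝔫 V P hBV hP hV _ hcomap hz

variable [IsNoetherianRing B] [IsIntegrallyClosed B]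

/-- **the link at a point with a smallest vertical prime** (no factoriality): if `QC` is a prime of
`B_𝔫` containing `ϖ` and contained in every prime containing `ϖ`, then `QC ∩ B` is one of the
vertical primes `P i`. -/
theorem s36g_exists_link_min {ι : Type*} (P : ι → Ideal B) (hPp : ∀ i, (P i).IsPrime) (ϖ : B)
    (hϖP : ∀ i, ϖ ∈ P i) (hPle : ∀ Q : Ideal B, Q.IsPrime → ϖ ∈ Q → ∃ i, P i ≤ Q)
    (QC : Ideal (ssl_locSub F0 𝔫)) [hQC : QC.IsPrime]
    (hϖQ : algebraMap B (ssl_locSub F0 𝔫) ϖ ∈ QC)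
    (hmin : ∀ 𝔮 : Ideal (ssl_locSub F0 𝔫), 𝔮.IsPrime →
      algebraMap B (ssl_locSub F0 𝔫) ϖ ∈ 𝔮 → QC ≤ 𝔮) :
    ∃ i, QC.comap (algebraMap B (ssl_locSub F0 𝔫)) = P i := by
  set Q := QC.comap (algebraMap B (ssl_locSub F0 𝔫)) with hQ
  have hQp : Q.IsPrime := Ideal.comap_isPrime _ _
  obtain ⟨i, hi⟩ := hPle Q hQp hϖQ
  refine ⟨i, le_antisymm ?_ hi⟩
  have := hPp i
  have hQ𝔫 : Q ≤ 𝔫 := by
    intro b hb
    by_contra hb𝔫
    have hunit : IsUnit (algebraMap B (ssl_locSub F0 𝔫) b) := ssl_loc_isUnit 𝔫 hb𝔫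
    exact hQC.ne_top (Ideal.eq_top_of_isUnit_mem _ hb hunit)
  have hdisj : Disjoint (𝔫.primeCompl : Set B) (P i : Set B) := by
    rw [Set.disjoint_left]
    intro b hb hbP
    exact hb (hQ𝔫 (hi hbP))
  have hmapp : ((P i).map (algebraMap B (ssl_locSub F0 𝔫))).IsPrime :=
    IsLocalization.isPrime_of_isPrime_disjoint 𝔫.primeCompl (ssl_locSub F0 𝔫) (P i) (hPp i) hdisj
  have hle : QC ≤ (P i).map (algebraMap B (ssl_locSub F0 𝔫)) :=
    hmin _ hmapp (Ideal.mem_map_of_mem _ (hϖP i))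
  calc Q ≤ ((P i).map (algebraMap B (ssl_locSub F0 𝔫))).comap
        (algebraMap B (ssl_locSub F0 𝔫)) := Ideal.comap_mono hle
    _ = P i := IsLocalization.comap_map_of_isPrime_disjoint 𝔫.primeCompl (ssl_locSub F0 𝔫)
        (hPp i) hdisj

/-- **the link at a one-branch point**: `(u) ∩ B` is one of the vertical primes `P i`. -/
theorem s36g_exists_link [UniqueFactorizationMonoid (ssl_locSub F0 𝔫)] {ι : Type*}
    (P : ι → Ideal B) (hPp : ∀ i, (P i).IsPrime) (ϖ : B) (hϖ0 : ϖ ≠ 0) (hϖP : ∀ i, ϖ ∈ P i)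
    (hPle : ∀ Q : Ideal B, Q.IsPrime → ϖ ∈ Q → ∃ i, P i ≤ Q)
    (u : ssl_locSub F0 𝔫) (hu : Prime u) (huϖ : u ∣ algebraMap B (ssl_locSub F0 𝔫) ϖ) :
    ∃ i, (Ideal.span {u}).comap (algebraMap B (ssl_locSub F0 𝔫)) = P i := by
  have hprime : (Ideal.span {u}).IsPrime := (Ideal.span_singleton_prime hu.ne_zero).2 hu
  set Q := (Ideal.span {u}).comap (algebraMap B (ssl_locSub F0 𝔫)) with hQ
  have hQp : Q.IsPrime := Ideal.comap_isPrime _ _
  have hϖQ : ϖ ∈ Q := by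
    show algebraMap B (ssl_locSub F0 𝔫) ϖ ∈ Ideal.span {u}
    exact Ideal.mem_span_singleton.2 huϖ
  obtain ⟨i, hi⟩ := hPle Q hQp hϖQ
  refine ⟨i, ?_⟩
  have := hPp i
  -- `Q ≤ 𝔫`
  have hQ𝔫 : Q ≤ 𝔫 := by
    intro b hb
    by_contra hb𝔫
    have hunit : IsUnit (algebraMap B (ssl_locSub F0 𝔫) b) := ssl_loc_isUnit 𝔫 hb𝔫
    exact hprime.ne_top (Ideal.eq_top_of_isUnit_mem _ hb hunit)
  have hdisj : Disjoint (𝔫.primeCompl : Set B) (P i : Set B) := by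
    rw [Set.disjoint_left]
    intro b hb hbP
    exact hb (hQ𝔫 (hi hbP))
  have hmapp : ((P i).map (algebraMap B (ssl_locSub F0 𝔫))).IsPrime :=
    IsLocalization.isPrime_of_isPrime_disjoint 𝔫.primeCompl (ssl_locSub F0 𝔫) (P i) (hPp i) hdisj
  have hmap0 : (P i).map (algebraMap B (ssl_locSub F0 𝔫)) ≠ ⊥ := by
    intro h0
    have h1 : algebraMap B (ssl_locSub F0 𝔫) ϖ ∈ (P i).map (algebraMap B (ssl_locSub F0 𝔫)) :=
      Ideal.mem_map_of_mem _ (hϖP i)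
    rw [h0, Ideal.mem_bot] at h1
    apply hϖ0
    have h2 : ((algebraMap B (ssl_locSub F0 𝔫) ϖ : ssl_locSub F0 𝔫) : F0) = 0 := by rw [h1]; rfl
    exact Subtype.ext h2
  have hmaple : (P i).map (algebraMap B (ssl_locSub F0 𝔫)) ≤ Ideal.span {u} := by
    rw [Ideal.map_le_iff_le_comap]; exact hi
  have hmapeq := s36g_span_eq_of_le hu _ hmap0 hmaple
  rw [hQ, ← hmapeq]
  exact IsLocalization.comap_map_of_isPrime_disjoint 𝔫.primeCompl (ssl_locSub F0 𝔫) (hPp i) hdisj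

end Link

end Fermat.Agent.S36
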