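/-
Project S36 (Carayol), cell [GLUE] (helper3): LOCAL DATA, THE NORM RELATION (G3)+(G4) AND THE
POINTWISE ALGEBRA (G5) (prefix `s36g_`).

`R` a factorial noetherian normal domain (`R = B_𝔫` at a closed point), `F = Frac R`.

* `s36g_unitAt_of_memM_sub` : `z ≡ a mod 𝔮`, `a ∉ 𝔮` ⟹ `z` is a unit at `𝔮`;
* `s36g_local_data` : **existence of the local data**.  `π ~ ∏ u j ^ e j` (`e j ≥ 1`), the branches
  `R / (u j)` integrally closed, `m ∣` all horizontal orders of `f` (`hdiv`, = `ssl_hdiv_of_places`)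
  and `f ≡ 1` along every branch: `f = ω gᵐ` with `ω ∈ Rˣ`, `g` a unit along every branch, with
  branch values `a j` (`g ≡ a j mod u j`), and `ω (a j)ᵐ ≡ 1 mod u j`;
* `s36g_rel` : **(G3)+(G4), the norm relation at a point.**  `N : F →* F` (a norm followed by the
  inclusion), `f = ω gᵐ`, `N ω ∈ Rˣ`, `N f = c hᵐ` (`c ∈ Rˣ`), `h ≡ ν_X` along the branch `X`,
  `h ≡ ν_Y` along `Y`, `N g ≡ n_X` along `X`, `N g ≡ n_Y` along `Y`:  `n_X ν_Y ≡ n_Y ν_X mod 𝔫`.
  (In the application `n_X ≡ a_A a_C^(q-1)`, `n_Y ≡ a_B^q` by the norm-residue formulas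
  `s36nr_norm_two_surj`, `s36nr_norm_insep` and the surjectivity of `R_Q → R_P / 𝔭`.)
* `s36g_g5` : **(G5) pointwise**: in a domain, the two relations
  `a c^(q-1) ν_V = b^q ν_F` (from `N₁`) and `a^q ν'_U = b c^(q-1) ν'_G` (from `N₂`) give
  `a^d X = b^d Y` and `c^d Z = b^d W`, `d = (q-1)(q+1)`, with
  `X = (ν_V ν'_U)^(q-1)`, `Y = (ν_F ν'_G)^(q-1)`, `Z = ν_V^q ν'_G`, `W = ν_F^q ν'_U` INDEPENDENT OF THE
  POINT: after the power `q² - 1` the gluing datum is a coboundary (vertex potentials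
  `X W, Y W, Z Y` on the components `A, B, C`).
-/
import Mathlib
import Fermat.Agent.S35.Toric.SFDLocal
import Fermat.Agent.S36.Glue.Local

set_option autoImplicit false
set_option linter.unusedSectionVars false

namespace Fermat.Agent.S36

open Fermat.Agent.SS Fermat.Agent.S35

section UnitAt

variable {R : Type*} [CommRing R] [IsDomain R] {F : Type*} [Field F] [Algebra R F]
  [IsFractionRing R F]

/-- an element congruent to a unit is a unit. -/
theorem s36g_unitAt_of_memM_sub (𝔮 : Ideal R) [h𝔮 : 𝔮.IsPrime] {z : F} {a : R} (ha : a ∉ 𝔮)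
    (h : s36g_MemM 𝔮 (z - algebraMap R F a)) : ssl_UnitAt F 𝔮 z := by
  obtain ⟨b, s, hb, hs, hbs⟩ := h
  refine ⟨b + a * s, s, fun hmem => ?_, hs, ?_⟩
  · have : a * s ∈ 𝔮 := by
      have h2 : a * s = (b + a * s) - b := by ring
      rw [h2]; exact 𝔮.sub_mem hmem hb
    exact (h𝔮.mem_or_mem this).elim ha hs
  · rw [map_add, map_mul, ← hbs]; ring

end UnitAt

section Data

variable {R : Type*} [CommRing R] [IsDomain R] [IsNoetherianRing R] [IsIntegrallyClosed R]
  [UniqueFactorizationMonoid R] {F : Type*} [Field F] [Algebra R F] [IsFractionRing R F]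

/-- **existence of the local data at a closed point.** -/
theorem s36g_local_data {ι : Type*} [Fintype ι] (π : R) (u : ι → R) (e : ι → ℕ)
    (hu : ∀ j, Prime (u j)) (he : ∀ j, e j ≠ 0) (hπ : Associated π (∏ j, u j ^ e j))
    (hsm : ∀ j, IsIntegrallyClosed (R ⧸ Ideal.span {u j})) (m : ℕ) (hm : 0 < m) {f : F}
    (hf : f ≠ 0)
    (hdiv : ∀ 𝔮 : Ideal R, ssl_Horiz π 𝔮 → ∃ G : F, G ≠ 0 ∧ ssl_UnitAt F 𝔮 (f / G ^ m))
    (hf1 : ∀ j, s36g_MemM (Ideal.span {u j}) (f - 1)) :
    ∃ (ω : Rˣ) (g : F) (a : ι → R), f = algebraMap R F (ω : R) * g ^ m ∧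
      (∀ j, ssl_UnitAt F (Ideal.span {u j}) g) ∧
      (∀ j, s36g_MemM (Ideal.span {u j}) (g - algebraMap R F (a j))) ∧
      (∀ j, (ω : R) * a j ^ m - 1 ∈ Ideal.span {u j}) := by
  have hprime : ∀ j, (Ideal.span {u j}).IsPrime := fun j =>
    (Ideal.span_singleton_prime (hu j).ne_zero).2 (hu j)
  have hunit : ∀ j, ssl_UnitAt F (Ideal.span {u j}) f := by
    intro j
    have := hprime j
    refine s36g_unitAt_of_memM_sub (Ideal.span {u j}) (a := 1)
      (fun h => (hprime j).ne_top ((Ideal.eq_top_iff_one _).2 h)) ?_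
    rw [map_one]; exact hf1 j
  -- every prime divisor of `π` is associated to some `u j`
  have hassoc : ∀ p : R, Prime p → p ∣ π → ∃ j, Associated p (u j) := by
    intro p hp hpπ
    have h1 : p ∣ ∏ j, u j ^ e j := hpπ.trans hπ.dvd
    obtain ⟨j, -, hj⟩ := (Prime.dvd_finsetProd_iff hp _).1 h1
    have h2 : p ∣ u j := hp.dvd_of_dvd_pow hj
    exact ⟨j, (hp.irreducible.dvd_irreducible_iff_associated (hu j).irreducible).1 h2⟩
  have hvert : ∀ p : R, Prime p → p ∣ π → ssl_UnitAt F (Ideal.span {p}) f := by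
    intro p hp hpπ
    obtain ⟨j, hj⟩ := hassoc p hp hpπ
    rw [Ideal.span_singleton_eq_span_singleton.2 hj]
    exact hunit j
  obtain ⟨g, hg0, hgv, ω, hfg⟩ := tori_sfd_local π m hf hdiv hvert
  have hujπ : ∀ j, u j ∣ π := by
    intro j
    have h1 : u j ∣ u j ^ e j := dvd_pow_self _ (he j)
    exact (h1.trans (Finset.dvd_prod_of_mem (fun j => u j ^ e j) (Finset.mem_univ j))).trans
      hπ.symm.dvd
  have hgu : ∀ j, ssl_UnitAt F (Ideal.span {u j}) g := fun j => hgv (u j) (hu j) (hujπ j)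
  have hex : ∀ j, ∃ a : R, a ∉ Ideal.span {u j} ∧
      s36g_MemM (Ideal.span {u j}) (g - algebraMap R F a) := by
    intro j
    have := hprime j
    have := hsm j
    exact s36g_exists_branch_value (Ideal.span {u j}) hm (hgu j) ω (by rw [← hfg]; exact hf1 j)
  choose a ha hga using hex
  refine ⟨ω, g, a, hfg, hgu, hga, fun j => ?_⟩
  have := hprime j
  rw [← s36g_memM_algebraMap_iff (F := F) (Ideal.span {u j})]
  -- `ω a^m - 1 = (f - 1) - ω (g^m - a^m)`
  have h1 : algebraMap R F ((ω : R) * a j ^ m - 1) =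
      (f - 1) - (g ^ m - algebraMap R F (a j) ^ m) * algebraMap R F (ω : R) := by
    rw [hfg, map_sub, map_mul, map_pow, map_one]; ring
  rw [h1]
  refine s36g_memM_sub _ (hf1 j) (s36g_memM_mul_memAt _ ?_ (ssl_memAt_algebraMap _ _))
  exact s36g_memM_pow_sub _ (hga j) (ssl_memAt_algebraMap _ _) m

end Data

section Rel

variable {R : Type*} [CommRing R] [IsDomain R] [IsIntegrallyClosed R]
  {F : Type*} [Field F] [Algebra R F] [IsFractionRing R F]

/-- **(G3)+(G4): the norm relation at a point.** -/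
theorem s36g_rel (𝔫 PX PY : Ideal R) [hPX : PX.IsPrime] [hPY : PY.IsPrime] (hX : PX ≤ 𝔫)
    (hY : PY ≤ 𝔫) (N : F →* F) {m : ℕ} (hm : 0 < m) {f g h : F} (ω c υ : Rˣ)
    (hfg : f = algebraMap R F (ω : R) * g ^ m)
    (hNf : N f = algebraMap R F (c : R) * h ^ m)
    (hNω : N (algebraMap R F (ω : R)) = algebraMap R F (υ : R)) (hh0 : h ≠ 0)
    {νX νY nX nY : R} (hhX : s36g_MemM PX (h - algebraMap R F νX))
    (hhY : s36g_MemM PY (h - algebraMap R F νY))
    (hNX : s36g_MemM PX (N g - algebraMap R F nX))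
    (hNY : s36g_MemM PY (N g - algebraMap R F nY)) :
    nX * νY - nY * νX ∈ 𝔫 := by
  have h1 : algebraMap R F (c : R) * h ^ m = algebraMap R F (υ : R) * (N g) ^ m := by
    rw [← hNf, hfg, map_mul, map_pow, hNω]
  obtain ⟨t, ht⟩ := s36g_root_unique hm hh0 c υ h1
  -- `t ν` is a branch value of `N g` along each branch
  have key : ∀ (P : Ideal R) [P.IsPrime] {ν n : R}, s36g_MemM P (h - algebraMap R F ν) →
      s36g_MemM P (N g - algebraMap R F n) → n - (t : R) * ν ∈ P := by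
    intro P _ ν n hν hn
    have h2 : s36g_MemM P (N g - algebraMap R F ((t : R) * ν)) := by
      have : N g - algebraMap R F ((t : R) * ν) = (h - algebraMap R F ν) * algebraMap R F (t : R) := by
        rw [ht, map_mul]; ring
      rw [this]
      exact s36g_memM_mul_memAt P hν (ssl_memAt_algebraMap P _)
    exact s36g_branch_value_unique P hn h2
  have hx := hX (key PX hhX hNX)
  have hy := hY (key PY hhY hNY)
  have : nX * νY - nY * νX = (nX - (t : R) * νX) * νY - (nY - (t : R) * νY) * νX := by ring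
  rw [this]
  exact 𝔫.sub_mem (𝔫.mul_mem_right _ hx) (𝔫.mul_mem_right _ hy)

end Rel

section G5

variable {k : Type*} [CommRing k] [IsDomain k]

/-- **(G5), pointwise**: the two norm relations make the gluing datum of `f ^ (q² - 1)` a
coboundary with vertex potentials independent of the point.  (`q = p + 1`.) -/
theorem s36g_g5 (p : ℕ) {a b c νF νV νG νU : k} (hb : b ≠ 0) (hc : c ≠ 0) (hνF : νF ≠ 0)
    (hνV : νV ≠ 0)
    (hα : a * c ^ p * νV = b ^ (p + 1) * νF)
    (hβ : a ^ (p + 1) * νU = b * c ^ p * νG) :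
    a ^ (p * (p + 2)) * (νV * νU) ^ p = b ^ (p * (p + 2)) * (νF * νG) ^ p ∧
      c ^ (p * (p + 2)) * (νV ^ (p + 1) * νG) = b ^ (p * (p + 2)) * (νF ^ (p + 1) * νU) := by
  -- (*) `a^(q+1) ν_V ν_U = b^(q+1) ν_F ν_G`
  have hstar : a ^ (p + 2) * (νV * νU) = b ^ (p + 2) * (νF * νG) := by
    have h1 : c ^ p * (a ^ (p + 2) * (νV * νU)) = c ^ p * (b ^ (p + 2) * (νF * νG)) := by
      calc c ^ p * (a ^ (p + 2) * (νV * νU)) = (a * c ^ p * νV) * (a ^ (p + 1) * νU) := by ring
        _ = (b ^ (p + 1) * νF) * (b * c ^ p * νG) := by rw [hα, hβ]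
        _ = c ^ p * (b ^ (p + 2) * (νF * νG)) := by ring
    exact mul_left_cancel₀ (pow_ne_zero p hc) h1
  constructor
  · calc a ^ (p * (p + 2)) * (νV * νU) ^ p = (a ^ (p + 2) * (νV * νU)) ^ p := by ring
      _ = (b ^ (p + 2) * (νF * νG)) ^ p := by rw [hstar]
      _ = b ^ (p * (p + 2)) * (νF * νG) ^ p := by ring
  · -- raise (α) to the power `q + 1` and use (*)
    have h2 : (a * c ^ p * νV) ^ (p + 2) = (b ^ (p + 1) * νF) ^ (p + 2) := by rw [hα]
    have h3 : (b ^ (p + 2) * νF * νV) * (c ^ (p * (p + 2)) * (νV ^ (p + 1) * νG)) =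
        (b ^ (p + 2) * νF * νV) * (b ^ (p * (p + 2)) * (νF ^ (p + 1) * νU)) := by
      calc (b ^ (p + 2) * νF * νV) * (c ^ (p * (p + 2)) * (νV ^ (p + 1) * νG))
          = (b ^ (p + 2) * (νF * νG)) * (c ^ (p * (p + 2)) * νV ^ (p + 2)) := by ring
        _ = (a ^ (p + 2) * (νV * νU)) * (c ^ (p * (p + 2)) * νV ^ (p + 2)) := by rw [hstar]
        _ = (a * c ^ p * νV) ^ (p + 2) * (νV * νU) := by ring
        _ = (b ^ (p + 1) * νF) ^ (p + 2) * (νV * νU) := by rw [h2]
        _ = (b ^ (p + 2) * νF * νV) * (b ^ (p * (p + 2)) * (νF ^ (p + 1) * νU)) := by ring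
    exact mul_left_cancel₀ (mul_ne_zero (mul_ne_zero (pow_ne_zero _ hb) hνF) hνV) h3

end G5

end Fermat.Agent.S36
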