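/-
Project S36 (Carayol), cell [GLUE-MAIN] (helper3): THE NORM-RESIDUE FORMULAS AT A TRIPLE POINT FROM
THE VALUATION-LEVEL NORM CONGRUENCES (prefix `s36g_`).

`R` a domain with fraction field `F` (the local ring of a chart at a triple point), `u` a prime
element of `R` (a branch), `V` a valuation subring of `F` (the vertical valuation of the component
carrying the branch).

* `s36g_Link u V`           : `R_(u) = V` (three element-wise clauses) and the dictionary
                              `s36g_MemM (u) z ↔ z ∈ 𝔪(V)`, `ssl_MemAt ↔ z ∈ V`, `ssl_UnitAt ↔` unit;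
* `s36g_link_of_comap`      : the link from chart-level data (`(u) ∩ B = P`, `P = 𝔪(V) ∩ B`, `B_P = V`);
* `s36g_exists_of_birational`, `s36g_surj_of_birational` : `R ⊆ S` integral, `R / 𝔭` integrally
                              closed, `κ(P) = κ(𝔭)` ⟹ `R → S / P` is onto;
* `s36g_norm_unit`          : norms of units of `R` are units of `R` (`R` integral over an
                              integrally closed `R₁ ⊆ K₁`);
* `s36g_ic_quot_of_span_pair` : `𝔪 = (a, b)`, `a` prime ⟹ `R / (a)` is integrally closed;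
* **`s36g_hNR_of_val`**     : the norm-residue formula `hNR1` / `hNR2` of `s36g_tri_local` at the
                              point from the valuation-level congruences (nB)/(nA) and (nC1)/(nC2)
                              (helper15's `s36nx_nA_val`, `s36nx_nC_val`) and the surjectivities.
-/
import Mathlib
import Fermat.Agent.S36.Glue.Link
import Fermat.Agent.S36.Glue.Rel

set_option autoImplicit false
set_option linter.unusedSectionVars false

namespace Fermat.Agent.S36

open Fermat.Agent.SS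

section LinkDef

variable {R : Type*} [CommRing R] [IsDomain R] {F : Type*} [Field F] [Algebra R F]
  [IsFractionRing R F]

/-- **`R_(u) = V`**: the branch `u` of `R` carries the valuation `V`. -/
structure s36g_Link (u : R) (V : ValuationSubring F) : Prop where
  le : ∀ r : R, algebraMap R F r ∈ V
  mem : ∀ r : R, r ∈ Ideal.span {u} ↔ algebraMap R F r ∈ V.nonunits
  loc : ∀ z ∈ V, ∃ r s : R, s ∉ Ideal.span {u} ∧ z * algebraMap R F s = algebraMap R F r

variable {u : R} {V : ValuationSubring F}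

theorem s36g_Link.unit_of_not_mem (h : s36g_Link u V) {s : R} (hs : s ∉ Ideal.span {u}) :
    (algebraMap R F s)⁻¹ ∈ V := by
  have h1 : algebraMap R F s ∉ V.nonunits := fun hc => hs ((h.mem s).2 hc)
  rw [ValuationSubring.mem_nonunits_iff_or] at h1
  push Not at h1
  exact h1.2

theorem s36g_Link.ne_zero_of_not_mem (h : s36g_Link u V) {s : R} (hs : s ∉ Ideal.span {u}) :
    algebraMap R F s ≠ 0 := by
  intro h0
  apply hs
  have : s = 0 := by
    apply IsFractionRing.injective R F
    rw [h0, map_zero]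
  rw [this]; exact Ideal.zero_mem _

/-- `z ∈ (u) R_(u) ↔ z ∈ 𝔪(V)` -/
theorem s36g_Link.memM_iff (h : s36g_Link u V) {z : F} :
    s36g_MemM (Ideal.span {u}) z ↔ z ∈ V.nonunits := by
  constructor
  · rintro ⟨b, s, hb, hs, hbs⟩
    have hs0 := h.ne_zero_of_not_mem hs
    have hz : z = algebraMap R F b * (algebraMap R F s)⁻¹ := by
      rw [← hbs, mul_assoc, mul_inv_cancel₀ hs0, mul_one]
    rw [hz, ValuationSubring.mem_nonunits_iff, map_mul]
    have h1 : V.valuation (algebraMap R F b) < 1 :=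
      (ValuationSubring.mem_nonunits_iff V).1 ((h.mem b).1 hb)
    have h2 : V.valuation (algebraMap R F s)⁻¹ ≤ 1 :=
      (V.valuation_le_one_iff _).2 (h.unit_of_not_mem hs)
    calc V.valuation (algebraMap R F b) * V.valuation (algebraMap R F s)⁻¹
        ≤ V.valuation (algebraMap R F b) * 1 := mul_le_mul_right h2 _
      _ = V.valuation (algebraMap R F b) := mul_one _
      _ < 1 := h1
  · intro hz
    obtain ⟨r, s, hs, hrs⟩ := h.loc z (ValuationSubring.nonunits_subset hz)
    refine ⟨r, s, (h.mem r).2 ?_, hs, hrs⟩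
    rw [← hrs, ValuationSubring.mem_nonunits_iff, map_mul]
    have h1 : V.valuation z < 1 := (ValuationSubring.mem_nonunits_iff V).1 hz
    have h2 : V.valuation (algebraMap R F s) ≤ 1 := (V.valuation_le_one_iff _).2 (h.le s)
    calc V.valuation z * V.valuation (algebraMap R F s) ≤ V.valuation z * 1 := mul_le_mul_right h2 _
      _ = V.valuation z := mul_one _
      _ < 1 := h1

/-- `z ∈ R_(u) ↔ z ∈ V` -/
theorem s36g_Link.memAt_iff (h : s36g_Link u V) {z : F} :
    ssl_MemAt F (Ideal.span {u}) z ↔ z ∈ V := by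
  constructor
  · rintro ⟨a, s, hs, has⟩
    have hs0 := h.ne_zero_of_not_mem hs
    have hz : z = algebraMap R F a * (algebraMap R F s)⁻¹ := by
      rw [← has, mul_assoc, mul_inv_cancel₀ hs0, mul_one]
    rw [hz]
    exact V.mul_mem _ _ (h.le a) (h.unit_of_not_mem hs)
  · intro hz
    obtain ⟨r, s, hs, hrs⟩ := h.loc z hz
    exact ⟨r, s, hs, hrs⟩

/-- a unit of `R_(u)` lies in `V`, together with its inverse. -/
theorem s36g_Link.mem_of_unitAt (h : s36g_Link u V) {z : F}
    (hz : ssl_UnitAt F (Ideal.span {u}) z) : z ∈ V ∧ z⁻¹ ∈ V := by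
  obtain ⟨a, s, ha, hs, has⟩ := hz
  have hs0 := h.ne_zero_of_not_mem hs
  have ha0 := h.ne_zero_of_not_mem ha
  have hz : z = algebraMap R F a * (algebraMap R F s)⁻¹ := by
    rw [← has, mul_assoc, mul_inv_cancel₀ hs0, mul_one]
  refine ⟨?_, ?_⟩
  · rw [hz]; exact V.mul_mem _ _ (h.le a) (h.unit_of_not_mem hs)
  · rw [hz, mul_inv, inv_inv]; exact V.mul_mem _ _ (h.unit_of_not_mem ha) (h.le s)

end LinkDef

universe v

section LinkChart

variable {A0 : Type*} [CommRing A0] {F0 : Type v} [Field F0] [Algebra A0 F0]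
variable {B : Subalgebra A0 F0} [IsFractionRing B F0] [IsNoetherianRing B] [IsIntegrallyClosed B]
variable (𝔫 : Ideal B) [h𝔫 : 𝔫.IsPrime]

/-- **the link from chart-level data**: `P = 𝔪(V) ∩ B`, `B_P = V`, `(u) ∩ B = P`. -/
theorem s36g_link_of_comap (V : ValuationSubring F0) (P : Ideal B)
    (hBV : ∀ b : B, (b : F0) ∈ V) (hP : ∀ b : B, b ∈ P ↔ (b : F0) ∈ V.nonunits)
    (hV : ∀ z ∈ V, ∃ t : B, t ∉ P ∧ (t : F0) * z ∈ B)
    (u : ssl_locSub F0 𝔫) (hu : Prime u)
    (hcomap : (Ideal.span {u}).comap (algebraMap B (ssl_locSub F0 𝔫)) = P) :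
    s36g_Link (F := F0) u V := by
  have hprime : (Ideal.span {u}).IsPrime := (Ideal.span_singleton_prime hu.ne_zero).2 hu
  -- `P ≤ 𝔫`
  have hP𝔫 : P ≤ 𝔫 := by
    intro b hb
    by_contra hb𝔫
    have hunit : IsUnit (algebraMap B (ssl_locSub F0 𝔫) b) := ssl_loc_isUnit 𝔫 hb𝔫
    have : b ∈ (Ideal.span {u}).comap (algebraMap B (ssl_locSub F0 𝔫)) := by rw [hcomap]; exact hb
    exact hprime.ne_top (Ideal.eq_top_of_isUnit_mem _ this hunit)
  -- elements of `B ∖ 𝔫` are units of `V`
  have hinv : ∀ s : B, s ∉ 𝔫 → ((s : F0))⁻¹ ∈ V := by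
    intro s hs
    have h1 : (s : F0) ∉ V.nonunits := fun hc => hs (hP𝔫 ((hP s).2 hc))
    rw [ValuationSubring.mem_nonunits_iff_or] at h1
    push Not at h1
    exact h1.2
  have hne : ∀ s : B, s ∉ 𝔫 → (s : F0) ≠ 0 := by
    intro s hs h0
    apply hs
    have : s = 0 := Subtype.ext h0
    rw [this]; exact 𝔫.zero_mem
  refine ⟨?_, ?_, ?_⟩
  · intro r
    obtain ⟨a, s, hs, has⟩ := (ssl_mem_loc 𝔫).1 r.2
    have hr : (r : F0) = (a : F0) * ((s : F0))⁻¹ := by
      rw [← has, mul_assoc, mul_inv_cancel₀ (hne s hs), mul_one]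
    show (r : F0) ∈ V
    rw [hr]
    exact V.mul_mem _ _ (hBV a) (hinv s hs)
  · intro r
    obtain ⟨a, s, hs, has⟩ := (ssl_mem_loc 𝔫).1 r.2
    have hs0 := hne s hs
    have hr : (r : F0) = (a : F0) * ((s : F0))⁻¹ := by
      rw [← has, mul_assoc, mul_inv_cancel₀ hs0, mul_one]
    have hsu : IsUnit (algebraMap B (ssl_locSub F0 𝔫) s) := ssl_loc_isUnit 𝔫 hs
    have heq : r * algebraMap B (ssl_locSub F0 𝔫) s = algebraMap B (ssl_locSub F0 𝔫) a :=
      Subtype.ext has
    have h1 : r ∈ Ideal.span {u} ↔ a ∈ P := by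
      rw [← hcomap, Ideal.mem_comap, ← heq]
      exact (Ideal.mul_unit_mem_iff_mem _ hsu).symm
    rw [h1, hP a]
    show (a : F0) ∈ V.nonunits ↔ (r : F0) ∈ V.nonunits
    have hsV : V.valuation (s : F0) = 1 := by
      refine le_antisymm ((V.valuation_le_one_iff _).2 (hBV s)) ?_
      have h2 : V.valuation ((s : F0))⁻¹ ≤ 1 := (V.valuation_le_one_iff _).2 (hinv s hs)
      rw [map_inv₀] at h2
      have h3 : V.valuation (s : F0) ≠ 0 := (Valuation.ne_zero_iff _).2 hs0
      exact (inv_le_one₀ (zero_lt_iff.2 h3)).1 h2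
    rw [ValuationSubring.mem_nonunits_iff, ValuationSubring.mem_nonunits_iff, ← has, map_mul, hsV,
      mul_one]
  · intro z hz
    obtain ⟨t, ht, htz⟩ := hV z hz
    refine ⟨algebraMap B (ssl_locSub F0 𝔫) ⟨(t : F0) * z, htz⟩, algebraMap B (ssl_locSub F0 𝔫) t,
      ?_, ?_⟩
    · intro h
      apply ht
      rw [← hcomap]
      exact h
    · show z * (t : F0) = (t : F0) * z
      ring

end LinkChart

section Birational

/-- domain-level core: an integral element of `T ⊇ k` which is a fraction of elements of `k` lies in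
`k`, when `k` is integrally closed. -/
theorem s36g_exists_of_birational {k T : Type*} [CommRing k] [IsDomain k] [IsIntegrallyClosed k]
    [CommRing T] [IsDomain T] [Algebra k T] (hinj : Function.Injective (algebraMap k T)) {s : T}
    (hs : IsIntegral k s) {r1 r2 : k} (hr2 : r2 ≠ 0)
    (h : algebraMap k T r2 * s = algebraMap k T r1) : ∃ r : k, algebraMap k T r = s := by
  let K := FractionRing k
  let L := FractionRing T
  haveI : IsScalarTower k T L := inferInstance
  haveI : FaithfulSMul k L := by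
    rw [faithfulSMul_iff_algebraMap_injective, IsScalarTower.algebraMap_eq k T L]
    exact (IsFractionRing.injective T L).comp hinj
  letI : Algebra K L := FractionRing.liftAlgebra k L
  haveI : IsScalarTower k K L := FractionRing.isScalarTower_liftAlgebra k L
  have hr2K : algebraMap k K r2 ≠ 0 :=
    (map_ne_zero_iff _ (IsFractionRing.injective k K)).2 hr2
  set x : K := algebraMap k K r1 / algebraMap k K r2 with hx
  have hxs : algebraMap K L x = algebraMap T L s := by
    have hr2L : algebraMap K L (algebraMap k K r2) ≠ 0 :=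
      (map_ne_zero_iff _ (algebraMap K L).injective).2 hr2K
    rw [hx, map_div₀, div_eq_iff hr2L, ← IsScalarTower.algebraMap_apply k K L,
      ← IsScalarTower.algebraMap_apply k K L, IsScalarTower.algebraMap_apply k T L,
      IsScalarTower.algebraMap_apply k T L, ← h, map_mul]
    ring
  have hint : IsIntegral k (algebraMap K L x) := by
    rw [hxs]; exact hs.map (IsScalarTower.toAlgHom k T L)
  have hintx : IsIntegral k x := (isIntegral_algebraMap_iff (algebraMap K L).injective).1 hint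
  obtain ⟨y, hy⟩ := IsIntegrallyClosed.isIntegral_iff.1 hintx
  refine ⟨y, ?_⟩
  have h1 : y * r2 = r1 := by
    apply IsFractionRing.injective k K
    rw [map_mul, hy, hx, div_mul_cancel₀ _ hr2K]
  have h2 : algebraMap k T r2 * algebraMap k T y = algebraMap k T r2 * s := by
    rw [h, ← h1, map_mul, mul_comm]
  have hr2T : algebraMap k T r2 ≠ 0 := (map_ne_zero_iff _ hinj).2 hr2
  exact mul_left_cancel₀ hr2T h2

/-- **`R → S / P` is onto** when `S` is integral over `R`, `R / 𝔭` is integrally closed and the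
residue field of `P` is that of `𝔭 = P ∩ R`. -/
theorem s36g_surj_of_birational {R S : Type*} [CommRing R] [CommRing S] [Algebra R S]
    [Algebra.IsIntegral R S] (𝔭 : Ideal R) [𝔭.IsPrime] (P : Ideal S) [P.IsPrime] [P.LiesOver 𝔭]
    [IsIntegrallyClosed (R ⧸ 𝔭)]
    (hbir : ∀ s : S, ∃ r1 r2 : R, r2 ∉ 𝔭 ∧ algebraMap R S r2 * s - algebraMap R S r1 ∈ P) (s : S) :
    ∃ r : R, s - algebraMap R S r ∈ P := by
  obtain ⟨r1, r2, hr2, h⟩ := hbir s
  have hinj : Function.Injective (algebraMap (R ⧸ 𝔭) (S ⧸ P)) :=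
    FaithfulSMul.algebraMap_injective _ _
  have hs : IsIntegral (R ⧸ 𝔭) (Ideal.Quotient.mk P s) := Algebra.IsIntegral.isIntegral _
  have hr2' : Ideal.Quotient.mk 𝔭 r2 ≠ 0 := by
    rwa [Ne, Ideal.Quotient.eq_zero_iff_mem]
  have h' : algebraMap (R ⧸ 𝔭) (S ⧸ P) (Ideal.Quotient.mk 𝔭 r2) * Ideal.Quotient.mk P s =
      algebraMap (R ⧸ 𝔭) (S ⧸ P) (Ideal.Quotient.mk 𝔭 r1) := by
    rw [Ideal.Quotient.algebraMap_mk_of_liesOver, Ideal.Quotient.algebraMap_mk_of_liesOver,
      ← map_mul, Ideal.Quotient.eq]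
    exact h
  obtain ⟨rbar, hrbar⟩ := s36g_exists_of_birational hinj hs hr2' h'
  obtain ⟨r, rfl⟩ := Ideal.Quotient.mk_surjective rbar
  refine ⟨r, ?_⟩
  rw [Ideal.Quotient.algebraMap_mk_of_liesOver] at hrbar
  exact (Ideal.Quotient.eq).1 hrbar.symm

end Birational

section NormUnit

/-- **norms of units are units**: `R₁ ⊆ K₁` integrally closed with fraction field `K₁`, `R` a ring
inside `F ⊇ K₁` containing `R₁` and integral over it; then `N_{F/K₁}` maps `Rˣ` to `Rˣ`. -/
theorem s36g_norm_unit {R1 K1 F R : Type*} [CommRing R1] [IsDomain R1] [IsIntegrallyClosed R1]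
    [Field K1] [Algebra R1 K1] [IsFractionRing R1 K1] [Field F] [Algebra K1 F] [Algebra R1 F]
    [IsScalarTower R1 K1 F] [CommRing R] [Algebra R F]
    (hRinj : Function.Injective (algebraMap R F))
    (hR1 : ∀ r : R1, ∃ r' : R, algebraMap R F r' = algebraMap R1 F r)
    (hint : ∀ x : R, IsIntegral R1 (algebraMap R F x)) (ω : Rˣ) :
    ∃ υ : Rˣ, algebraMap K1 F (Algebra.norm K1 (algebraMap R F (ω : R))) =
      algebraMap R F (υ : R) := by
  have key : ∀ x : R, ∃ r : R, algebraMap K1 F (Algebra.norm K1 (algebraMap R F x)) =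
      algebraMap R F r := by
    intro x
    have h1 : IsIntegral R1 (Algebra.norm K1 (algebraMap R F x)) :=
      Algebra.isIntegral_norm K1 (hint x)
    obtain ⟨a, ha⟩ := IsIntegrallyClosed.isIntegral_iff.1 h1
    obtain ⟨r, hr⟩ := hR1 a
    exact ⟨r, by rw [hr, ← ha, ← IsScalarTower.algebraMap_apply]⟩
  obtain ⟨r, hr⟩ := key (ω : R)
  obtain ⟨r', hr'⟩ := key ((ω⁻¹ : Rˣ) : R)
  have hmul : r * r' = 1 := by
    apply hRinj
    have e1 : algebraMap R F (ω : R) * algebraMap R F ((ω⁻¹ : Rˣ) : R) = 1 := by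
      rw [← map_mul, Units.mul_inv, map_one]
    rw [map_mul, ← hr, ← hr', ← map_mul (algebraMap K1 F), ← map_mul (Algebra.norm K1), e1,
      map_one, map_one, map_one]
  exact ⟨⟨r, r', hmul, by rw [mul_comm]; exact hmul⟩, hr⟩

end NormUnit

section ICQuot

open IsLocalRing

/-- `𝔪 = (a, b)` with `a` prime ⟹ `R / (a)` is integrally closed (a discrete valuation ring or a
field: its maximal ideal is generated by the class of `b`). -/
theorem s36g_ic_quot_of_span_pair {R : Type*} [CommRing R] [IsDomain R] [IsLocalRing R]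
    [IsNoetherianRing R] {a b : R} (ha : Prime a) (hmax : maximalIdeal R = Ideal.span {a, b}) :
    IsIntegrallyClosed (R ⧸ Ideal.span {a}) := by
  have hprime : (Ideal.span {a} : Ideal R).IsPrime := (Ideal.span_singleton_prime ha.ne_zero).2 ha
  haveI : IsDomain (R ⧸ Ideal.span {a}) := Ideal.Quotient.isDomain _
  haveI : IsLocalRing (R ⧸ Ideal.span {a}) :=
    IsLocalRing.of_surjective' (Ideal.Quotient.mk (Ideal.span {a})) Ideal.Quotient.mk_surjective
  have hprinc : (maximalIdeal (R ⧸ Ideal.span {a})).IsPrincipal := by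
    refine ⟨⟨Ideal.Quotient.mk _ b, ?_⟩⟩
    apply le_antisymm
    · intro x hx
      obtain ⟨r, rfl⟩ := Ideal.Quotient.mk_surjective x
      have hr : r ∈ maximalIdeal R := by
        rw [mem_maximalIdeal, mem_nonunits_iff]
        intro hu
        exact (mem_maximalIdeal _).1 hx (hu.map _)
      rw [hmax, Ideal.mem_span_pair] at hr
      obtain ⟨c, d, rfl⟩ := hr
      show _ ∈ Ideal.span {Ideal.Quotient.mk (Ideal.span {a}) b}
      rw [Ideal.mem_span_singleton]
      refine ⟨Ideal.Quotient.mk _ d, ?_⟩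
      rw [map_add, map_mul, map_mul]
      have : Ideal.Quotient.mk (Ideal.span {a}) a = 0 :=
        Ideal.Quotient.eq_zero_iff_mem.2 (Ideal.mem_span_singleton_self a)
      rw [this, mul_zero, zero_add, mul_comm]
    · show Ideal.span {Ideal.Quotient.mk (Ideal.span {a}) b} ≤ _
      rw [Ideal.span_le, Set.singleton_subset_iff]
      show _ ∈ maximalIdeal _
      rw [mem_maximalIdeal, mem_nonunits_iff]
      intro hu
      obtain ⟨c, hc⟩ := hu.exists_right_inv
      obtain ⟨c, rfl⟩ := Ideal.Quotient.mk_surjective c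
      rw [← map_mul, ← map_one (Ideal.Quotient.mk (Ideal.span {a})), Ideal.Quotient.eq] at hc
      have hb : b ∈ maximalIdeal R := by rw [hmax]; exact Ideal.subset_span (by simp)
      have ha' : Ideal.span {a} ≤ maximalIdeal R := by
        rw [hmax]; exact Ideal.span_mono (by simp)
      have h1 : (1 : R) ∈ maximalIdeal R := by
        have : (1 : R) = b * c - (b * c - 1) := by ring
        rw [this]
        exact Ideal.sub_mem _ (Ideal.mul_mem_right _ _ hb) (ha' hc)
      exact (Ideal.ne_top_iff_one _).1 (maximalIdeal.isMaximal R).ne_top h1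
  have htfae : (maximalIdeal (R ⧸ Ideal.span {a})).IsPrincipal →
      (IsIntegrallyClosed (R ⧸ Ideal.span {a}) ∧ ∀ P : Ideal (R ⧸ Ideal.span {a}), P ≠ ⊥ →
        P.IsPrime → P = maximalIdeal (R ⧸ Ideal.span {a})) :=
    ((tfae_of_isNoetherianRing_of_isLocalRing_of_isDomain (R ⧸ Ideal.span {a})).out 4 3).1
  exact (htfae hprinc).1

end ICQuot

section HNR

variable {R : Type*} [CommRing R] [IsDomain R] {F : Type*} [Field F] [Algebra R F]
  [IsFractionRing R F]

theorem s36g_nonunits_add (V : ValuationSubring F) {a b : F} (ha : a ∈ V.nonunits)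
    (hb : b ∈ V.nonunits) : a + b ∈ V.nonunits := by
  rw [ValuationSubring.mem_nonunits_iff] at ha hb ⊢
  exact Valuation.map_add_lt _ ha hb

theorem s36g_nonunits_mul_mem (V : ValuationSubring F) {a b : F} (ha : a ∈ V.nonunits)
    (hb : b ∈ V) : a * b ∈ V.nonunits := by
  rw [ValuationSubring.mem_nonunits_iff] at ha ⊢
  rw [map_mul]
  have hb' : V.valuation b ≤ 1 := (V.valuation_le_one_iff b).mpr hb
  calc V.valuation a * V.valuation b ≤ V.valuation a * 1 := mul_le_mul_right hb' _
    _ = V.valuation a := mul_one _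
    _ < 1 := ha

/-- **THE NORM-RESIDUE FORMULA AT A TRIPLE POINT** from the valuation-level congruences.
Branches `X` (multiplicity one, `f = 1` over the lower curve), `C` (multiplicity `p`, over the same
lower component as `X`), `Y` (purely inseparable of degree `p + 1` over its image).  For `g` with
branch values `aX, aY, aC`:  `N g ≡ aX · aC ^ p` along `X` and `N g ≡ aY ^ (p + 1)` along `Y`, the
values being taken at the point. -/
theorem s36g_hNR_of_val (𝔪 : Ideal R) {uX uY uC : R} (hpX : Prime uX) (hpY : Prime uY)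
    (hpC : Prime uC) {VX VY VC : ValuationSubring F}
    (lX : s36g_Link uX VX) (lY : s36g_Link uY VY) (lC : s36g_Link uC VC)
    (huX : uX ∈ 𝔪) (huC : uC ∈ 𝔪) (N : F →* F) (K1 : Subfield F) (hNK : ∀ x, N x ∈ K1)
    (hXC : ∀ z ∈ K1, z ∈ VC.nonunits → z ∈ VX.nonunits) (p : ℕ)
    (hnC : ∀ x : F, x ∈ VX → x ∈ VC → ∀ r ∈ K1, r ∈ VX → x - r ∈ VX.nonunits →
      N x - r * x ^ p ∈ VC.nonunits)
    (hnY : ∀ x : F, x ∈ VY → N x - x ^ (p + 1) ∈ VY.nonunits)
    (hsX : ∀ s : R, ∃ r : R, algebraMap R F r ∈ K1 ∧ s - r ∈ Ideal.span {uX})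
    (hsC : ∀ s : R, ∃ r : R, algebraMap R F r ∈ K1 ∧ s - r ∈ Ideal.span {uC})
    {g : F} {aX aY aC : R}
    (hgX : ssl_UnitAt F (Ideal.span {uX}) g) (hgY : ssl_UnitAt F (Ideal.span {uY}) g)
    (hgC : ssl_UnitAt F (Ideal.span {uC}) g)
    (hX : s36g_MemM (Ideal.span {uX}) (g - algebraMap R F aX))
    (hY : s36g_MemM (Ideal.span {uY}) (g - algebraMap R F aY))
    (hC : s36g_MemM (Ideal.span {uC}) (g - algebraMap R F aC)) :
    ∃ nX nY : R, s36g_MemM (Ideal.span {uX}) (N g - algebraMap R F nX) ∧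
      nX - aX * aC ^ p ∈ 𝔪 ∧
      s36g_MemM (Ideal.span {uY}) (N g - algebraMap R F nY) ∧ nY - aY ^ (p + 1) ∈ 𝔪 := by
  have hprX : (Ideal.span {uX}).IsPrime := (Ideal.span_singleton_prime hpX.ne_zero).2 hpX
  have hprY : (Ideal.span {uY}).IsPrime := (Ideal.span_singleton_prime hpY.ne_zero).2 hpY
  have hprC : (Ideal.span {uC}).IsPrime := (Ideal.span_singleton_prime hpC.ne_zero).2 hpC
  have hleX : Ideal.span {uX} ≤ 𝔪 := by rw [Ideal.span_le, Set.singleton_subset_iff]; exact huX
  have hleC : Ideal.span {uC} ≤ 𝔪 := by rw [Ideal.span_le, Set.singleton_subset_iff]; exact huC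
  obtain ⟨rX, hrXK, hrX⟩ := hsX aX
  obtain ⟨rC, hrCK, hrC⟩ := hsC aC
  have hgVX := (lX.mem_of_unitAt hgX).1
  have hgVC := (lC.mem_of_unitAt hgC).1
  have hgVY := (lY.mem_of_unitAt hgY).1
  -- `g ≡ rX` along `X`, `g ≡ rC` along `C`
  have hX' : s36g_MemM (Ideal.span {uX}) (g - algebraMap R F rX) := by
    have e : g - algebraMap R F rX = (g - algebraMap R F aX) + algebraMap R F (aX - rX) := by
      rw [map_sub]; ring
    rw [e]
    exact s36g_memM_add _ hX (s36g_memM_of_mem _ hrX)
  have hC' : s36g_MemM (Ideal.span {uC}) (g - algebraMap R F rC) := by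
    have e : g - algebraMap R F rC = (g - algebraMap R F aC) + algebraMap R F (aC - rC) := by
      rw [map_sub]; ring
    rw [e]
    exact s36g_memM_add _ hC (s36g_memM_of_mem _ hrC)
  -- (nC)
  have h1 : N g - algebraMap R F rX * g ^ p ∈ VC.nonunits :=
    hnC g hgVX hgVC _ hrXK (lX.le rX) (lX.memM_iff.1 hX')
  have h2 : g ^ p - algebraMap R F rC ^ p ∈ VC.nonunits :=
    lC.memM_iff.1 (s36g_memM_pow_sub _ hC' (ssl_memAt_algebraMap _ _) p)
  have h3 : N g - algebraMap R F (rX * rC ^ p) ∈ VC.nonunits := by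
    have e : N g - algebraMap R F (rX * rC ^ p) = (N g - algebraMap R F rX * g ^ p) +
        (g ^ p - algebraMap R F rC ^ p) * algebraMap R F rX := by
      rw [map_mul, map_pow]; ring
    rw [e]
    exact s36g_nonunits_add VC h1 (s36g_nonunits_mul_mem VC h2 (lC.le rX))
  have h4 : N g - algebraMap R F (rX * rC ^ p) ∈ K1 := by
    rw [map_mul, map_pow]
    exact K1.sub_mem (hNK g) (K1.mul_mem hrXK (K1.pow_mem hrCK p))
  have h5 : s36g_MemM (Ideal.span {uX}) (N g - algebraMap R F (rX * rC ^ p)) :=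
    lX.memM_iff.2 (hXC _ h4 h3)
  -- (nY)
  have h6 : s36g_MemM (Ideal.span {uY}) (N g - g ^ (p + 1)) := lY.memM_iff.2 (hnY g hgVY)
  have h7 : s36g_MemM (Ideal.span {uY}) (g ^ (p + 1) - algebraMap R F aY ^ (p + 1)) :=
    s36g_memM_pow_sub _ hY (ssl_memAt_algebraMap _ _) (p + 1)
  refine ⟨rX * rC ^ p, aY ^ (p + 1), h5, ?_, ?_, ?_⟩
  · have e : rX * rC ^ p - aX * aC ^ p = -(aX - rX) * rC ^ p - aX * (aC ^ p - rC ^ p) := by ring
    rw [e]
    refine 𝔪.sub_mem (𝔪.mul_mem_right _ (𝔪.neg_mem (hleX hrX))) (𝔪.mul_mem_left _ (hleC ?_))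
    exact Ideal.mem_of_dvd _ (sub_dvd_pow_sub_pow _ _ _) hrC
  · have e : N g - algebraMap R F (aY ^ (p + 1)) =
        (N g - g ^ (p + 1)) + (g ^ (p + 1) - algebraMap R F aY ^ (p + 1)) := by
      rw [map_pow]; ring
    rw [e]
    exact s36g_memM_add _ h6 h7
  · rw [sub_self]; exact 𝔪.zero_mem

end HNR

end Fermat.Agent.S36
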