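/-
Project S36 (Carayol), cell [GLUE] (helper3): THE SEMILOCAL GAUSS RING OF A NORMAL CHART AND THE
COMPONENTS NOT THROUGH A POINT (prefix `s36g_`).

`B ⊆ F0` a noetherian integrally closed chart, `ϖ` the image of `π ∈ A0`, `sfc_S B ϖ` the nonzero
non-zero-divisors modulo `ϖ`, `sfc_O B ϖ = S⁻¹ B`.

* `s36g_mem_S_of_avoid` : a nonzero element of `B` outside every minimal prime of `ϖ B` lies in `S`
  (no embedded components: `B` is normal), NO reducedness of `B / ϖ` is needed;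
* `s36g_semilocal`      : `𝔫 ∋ ϖ` a prime of `B`; if `y ∈ F0` lies in `B_𝔭` for every vertical prime
  `𝔭` (height one, `ϖ ∈ 𝔭`) THROUGH `𝔫` (`𝔭 ≤ 𝔫`), then `T y ∈ sfc_O B ϖ` for some `T ∉ 𝔫`:
  the vertical components not through the point cost nothing.
-/
import Mathlib
import Fermat.Agent.SS.SFC.Gauss
import Fermat.Agent.SS.Local.Point

set_option autoImplicit false
set_option linter.unusedSectionVars false

namespace Fermat.Agent.S36

open Fermat.Agent.SS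

universe v

section Semilocal

variable {A0 : Type*} [CommRing A0] {F0 : Type v} [Field F0] [Algebra A0 F0]
variable {B : Subalgebra A0 F0} [IsFractionRing B F0] [IsNoetherianRing B] [IsIntegrallyClosed B]

/-- a nonzero element outside all minimal primes of `ϖ B` is a non-zero-divisor modulo `ϖ`. -/
theorem s36g_mem_S_of_avoid (π : A0) (hϖ0 : algebraMap A0 F0 π ≠ 0) {s : B} (hs0 : s ≠ 0)
    (hs : ∀ 𝔭 ∈ (Ideal.span {algebraMap A0 B π}).minimalPrimes, s ∉ 𝔭) :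
    (s : F0) ∈ sfc_S B.toSubring (algebraMap A0 F0 π) := by
  have hϖB : algebraMap A0 B π ≠ 0 := by
    intro h0
    apply hϖ0
    have := congrArg (fun t : B => (t : F0)) h0
    simpa using this
  refine ⟨s.2, fun h => hs0 (Subtype.ext h), ?_⟩
  rintro b hb ⟨c, hc, hsb⟩
  set z : F0 := b * (algebraMap A0 F0 π)⁻¹ with hz
  obtain ⟨r, hr⟩ := ssl_krull (R := B) (F := F0) (z := z) (fun 𝔮 h𝔮 h1 => by
    by_cases hπ𝔮 : algebraMap A0 B π ∈ 𝔮
    · have hmin := ssl_mem_minimalPrimes (h𝔭 := h𝔮) hϖB h1 hπ𝔮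
      refine ⟨⟨c, hc⟩, s, hs 𝔮 hmin, ?_⟩
      show z * (s : F0) = c
      rw [hz, mul_assoc, mul_comm _ (s : F0), ← mul_assoc, mul_comm b, hsb]
      field_simp
    · refine ⟨⟨b, hb⟩, algebraMap A0 B π, hπ𝔮, ?_⟩
      show z * algebraMap A0 F0 π = b
      rw [hz]
      field_simp)
  refine ⟨r, r.2, ?_⟩
  have : ((algebraMap B F0 r : F0)) = (r : F0) := rfl
  rw [← this, hr, hz]
  field_simp

/-- **the components not through the point cost nothing.** -/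
theorem s36g_semilocal (π : A0) (hϖ0 : algebraMap A0 F0 π ≠ 0) (𝔫 : Ideal B) [h𝔫 : 𝔫.IsPrime]
    (hπ𝔫 : algebraMap A0 B π ∈ 𝔫) {y : F0}
    (hy : ∀ 𝔭 : Ideal B, 𝔭.IsPrime → 𝔭.height = 1 → algebraMap A0 B π ∈ 𝔭 → 𝔭 ≤ 𝔫 →
      ssl_MemAt F0 𝔭 y) :
    ∃ T : B, T ∉ 𝔫 ∧ (T : F0) * y ∈ sfc_O B.toSubring (algebraMap A0 F0 π) := by
  classical
  set ϖ := algebraMap A0 F0 π with hϖ
  have hϖB : algebraMap A0 B π ≠ 0 := by
    intro h0
    apply hϖ0
    have := congrArg (fun t : B => (t : F0)) h0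
    simpa using this
  -- the denominator ideal of `y`
  let D : Ideal B :=
    { carrier := {d | (d : F0) * y ∈ B}
      zero_mem' := by
        show ((0 : B) : F0) * y ∈ B
        rw [ZeroMemClass.coe_zero, zero_mul]; exact B.zero_mem
      add_mem' := by
        intro d d' hd hd'
        show ((d + d' : B) : F0) * y ∈ B
        rw [AddMemClass.coe_add, add_mul]; exact B.add_mem hd hd'
      smul_mem' := by
        intro c d hd
        show ((c • d : B) : F0) * y ∈ B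
        rw [smul_eq_mul, MulMemClass.coe_mul, mul_assoc]; exact B.mul_mem c.2 hd }
  have hD : ∀ d : B, d ∈ D ↔ (d : F0) * y ∈ B := fun d => Iff.rfl
  -- the submonoid of non-zero-divisors modulo `ϖ`
  let SB : Submonoid B :=
    { carrier := {s | (s : F0) ∈ sfc_S B.toSubring ϖ}
      one_mem' := by
        show ((1 : B) : F0) ∈ sfc_S B.toSubring ϖ
        rw [OneMemClass.coe_one]; exact sfc_S_one
      mul_mem' := by
        intro s s' hs hs'
        show ((s * s' : B) : F0) ∈ sfc_S B.toSubring ϖ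
        rw [MulMemClass.coe_mul]; exact sfc_S_mul hs hs' }
  have hSB : ∀ s : B, s ∈ SB ↔ (s : F0) ∈ sfc_S B.toSubring ϖ := fun s => Iff.rfl
  by_contra hcon
  push Not at hcon
  have hdisj : Disjoint (D : Set B) ((𝔫.primeCompl ⊔ SB : Submonoid B) : Set B) := by
    rw [Set.disjoint_left]
    intro d hdD hdM
    obtain ⟨T, hT, s', hs', rfl⟩ := Submonoid.mem_sup.1 hdM
    refine hcon T hT ⟨(s' : F0), (hSB s').1 hs', ?_⟩
    have : (s' : F0) * ((T : F0) * y) = ((T * s' : B) : F0) * y := by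
      rw [MulMemClass.coe_mul]; ring
    rw [this]
    exact (hD _).1 hdD
  obtain ⟨𝔓, h𝔓, hD𝔓, hdisj𝔓⟩ := Ideal.exists_le_prime_disjoint D _ hdisj
  rw [Set.disjoint_left] at hdisj𝔓
  -- `𝔓 ≤ 𝔫`
  have h𝔓𝔫 : 𝔓 ≤ 𝔫 := by
    intro z hz
    by_contra hz𝔫
    exact hdisj𝔓 hz ((le_sup_left : 𝔫.primeCompl ≤ 𝔫.primeCompl ⊔ SB) hz𝔫)
  -- `𝔓 ≠ ⊥`
  have h𝔓0 : 𝔓 ≠ ⊥ := by
    obtain ⟨a, b, hb, hab⟩ := IsFractionRing.div_surjective (A := B) y
    have hb0 : b ≠ 0 := nonZeroDivisors.ne_zero hb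
    have hbF : algebraMap B F0 b ≠ 0 := ssl_algebraMap_ne_zero hb0
    have hbD : b ∈ D := by
      rw [hD, ← hab]
      have hbF' : (b : F0) ≠ 0 := hbF
      have : (b : F0) * (algebraMap B F0 a / algebraMap B F0 b) = (a : F0) := by
        show (b : F0) * ((a : F0) / (b : F0)) = (a : F0)
        field_simp
      rw [this]; exact a.2
    intro hbot
    have : b ∈ (⊥ : Ideal B) := hbot ▸ hD𝔓 hbD
    exact hb0 ((Ideal.mem_bot).1 this)
  -- the minimal primes of `ϖ B`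
  set P := (Ideal.span {algebraMap A0 B π}).minimalPrimes with hP
  have hfin : P.Finite := Ideal.finite_minimalPrimes_of_isNoetherianRing B _
  have hne : ∃ 𝔭₀, 𝔭₀ ∈ P := by
    have hle : Ideal.span {algebraMap A0 B π} ≤ 𝔫 := by
      rw [Ideal.span_le, Set.singleton_subset_iff]; exact hπ𝔫
    obtain ⟨p, hp, -⟩ := Ideal.exists_minimalPrimes_le hle
    exact ⟨p, hp⟩
  have hcover : (𝔓 : Set B) ⊆ ⋃ 𝔭 ∈ (hfin.toFinset : Set (Ideal B)), (𝔭 : Set B) := by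
    intro z hz
    simp only [Set.Finite.coe_toFinset, Set.mem_iUnion, SetLike.mem_coe, exists_prop]
    by_cases hz0 : z = 0
    · obtain ⟨𝔭₀, h𝔭₀⟩ := hne
      exact ⟨𝔭₀, h𝔭₀, hz0 ▸ 𝔭₀.zero_mem⟩
    · by_contra hnot
      push Not at hnot
      have hzS : z ∈ SB := (hSB z).2 (s36g_mem_S_of_avoid π hϖ0 hz0 hnot)
      exact hdisj𝔓 hz ((le_sup_right : SB ≤ 𝔫.primeCompl ⊔ SB) hzS)
  obtain ⟨𝔭, h𝔭P, h𝔓𝔭⟩ := (Ideal.subset_union_prime (f := fun 𝔭 : Ideal B => 𝔭) ⊥ ⊥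
    (fun 𝔭 h𝔭 _ _ => ((hfin.mem_toFinset).1 h𝔭).1.1)).1 hcover
  have h𝔭P' : 𝔭 ∈ P := (hfin.mem_toFinset).1 h𝔭P
  have : 𝔭.IsPrime := h𝔭P'.1.1
  have hπ𝔭 : algebraMap A0 B π ∈ 𝔭 := h𝔭P'.1.2 (Ideal.mem_span_singleton_self _)
  have h1 : 𝔭.height = 1 := by
    apply le_antisymm
    · exact Ideal.height_le_one_of_isPrincipal_of_mem_minimalPrimes _ 𝔭 h𝔭P'
    · rw [Order.one_le_iff_pos, pos_iff_ne_zero, Ne, Ideal.height_eq_zero_iff_eq_bot]
      intro hbot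
      have : algebraMap A0 B π ∈ (⊥ : Ideal B) := hbot ▸ hπ𝔭
      exact hϖB ((Ideal.mem_bot).1 this)
  have heq : 𝔓 = 𝔭 := ssl_eq_of_le_of_ne_bot h𝔓0 h1 h𝔓𝔭
  obtain ⟨a, s, hs, hys⟩ := hy 𝔭 inferInstance h1 hπ𝔭 (heq ▸ h𝔓𝔫)
  apply hs
  rw [← heq]
  apply hD𝔓
  rw [hD]
  have : (s : F0) * y = (a : F0) := by
    have h1' : (algebraMap B F0 s : F0) = (s : F0) := rfl
    have h2' : (algebraMap B F0 a : F0) = (a : F0) := rfl
    rw [← h1', ← h2', ← hys]; ring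
  rw [this]; exact a.2

end Semilocal

end Fermat.Agent.S36
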