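/-
Project S36 (Carayol), cell [GLUE] / [L3] (helper3): THE LOCAL HYPOTHESIS OF `sfc_main` AT A CLOSED
POINT WITH SEVERAL TRANSVERSAL BRANCHES OF ARBITRARY MULTIPLICITIES (prefix `s36g_`).

`B ⊆ F0` a noetherian integrally closed chart, `𝔫 ∋ ϖ` a prime (closed point of the special fibre),
`R = B_𝔫 = ssl_locSub F0 𝔫` FACTORIAL, `ϖ ~ ∏ u j ^ e j` in `R` with pairwise non-associated,
pairwise transversal prime elements `u j` (the branches through the point; `e j` = multiplicities of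
the components: `(1, q-1, 1)` at a triple point of `X₀(N' q²)`, `(q-1)` at a point of the middle
component, `(1)` at a smooth point of the reduced components, `(1,1)` at a node), `ϖ ∣ q` in `R`.

`s36g_hloc` : if `f = ω gᵐ` with `ω ∈ Rˣ`, `g` a unit along every branch, and the branch values
`a j` of `g` AGREE AT THE POINT (`a j - a₀ ∈ 𝔫 R`), then for `Q = q ^ k` large the local hypothesis
of `sfc_main` / `sfc_step1` holds for `f ^ Q` at `𝔫`, VERBATIM: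
`∃ b₁ ∉ 𝔫, ∃ h, hᵐ f^Q ∈ B ∧ h - b₁ ∈ ϖ O`.
No condition at the vertical components NOT through `𝔫` (`s36g_semilocal`).
-/
import Mathlib
import Fermat.Agent.S36.Glue.Local
import Fermat.Agent.S36.Glue.Semilocal

set_option autoImplicit false
set_option linter.unusedSectionVars false

namespace Fermat.Agent.S36

open Fermat.Agent.SS

universe v

section Hloc

variable {A0 : Type*} [CommRing A0] {F0 : Type v} [Field F0] [Algebra A0 F0]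
variable {B : Subalgebra A0 F0} [IsFractionRing B F0] [IsNoetherianRing B] [IsIntegrallyClosed B]

/-- a vertical prime of `B` through `𝔫` is cut out by one of the branches `u j`: elements of
`R = B_𝔫` prime to all `u j` have numerators outside it. -/
theorem s36g_num_not_mem (π : A0) (𝔫 : Ideal B) [h𝔫 : 𝔫.IsPrime]
    {ι : Type*} [Fintype ι] (u : ι → ssl_locSub F0 𝔫) (e : ι → ℕ) (hu : ∀ j, Prime (u j))
    (hπ : Associated (algebraMap B (ssl_locSub F0 𝔫) (algebraMap A0 B π)) (∏ j, u j ^ e j))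
    (𝔭 : Ideal B) [h𝔭 : 𝔭.IsPrime] (h1 : 𝔭.height = 1) (hπ𝔭 : algebraMap A0 B π ∈ 𝔭)
    (h𝔭𝔫 : 𝔭 ≤ 𝔫) {x : ssl_locSub F0 𝔫} (hx : ∀ j, ¬ u j ∣ x) {x₁ s₁ : B} (hs₁ : s₁ ∉ 𝔫)
    (hxs : (x : F0) * (s₁ : F0) = (x₁ : F0)) : x₁ ∉ 𝔭 := by
  intro hx₁
  have hdisj : Disjoint (𝔫.primeCompl : Set B) (𝔭 : Set B) := by
    rw [Set.disjoint_left]
    intro z hz hz𝔭
    exact hz (h𝔭𝔫 hz𝔭)
  set 𝔮 : Ideal (ssl_locSub F0 𝔫) := 𝔭.map (algebraMap B (ssl_locSub F0 𝔫)) with h𝔮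
  have h𝔮p : 𝔮.IsPrime := IsLocalization.isPrime_of_isPrime_disjoint 𝔫.primeCompl (ssl_locSub F0 𝔫) 𝔭 h𝔭 hdisj
  have hunder : 𝔮.under B = 𝔭 := IsLocalization.under_map_of_isPrime_disjoint 𝔫.primeCompl (ssl_locSub F0 𝔫) h𝔭 hdisj
  -- some branch lies in `𝔮`
  have hπ𝔮 : algebraMap B (ssl_locSub F0 𝔫) (algebraMap A0 B π) ∈ 𝔮 := Ideal.mem_map_of_mem _ hπ𝔭
  have hprod : ∏ j, u j ^ e j ∈ 𝔮 := by
    obtain ⟨υ, hυ⟩ := hπ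
    rw [← hυ]
    exact 𝔮.mul_mem_right _ hπ𝔮
  obtain ⟨j, -, hj⟩ := Ideal.IsPrime.prod_mem_iff.1 hprod
  have huj : u j ∈ 𝔮 := h𝔮p.mem_of_pow_mem _ hj
  -- `𝔮 = (u j)`
  set 𝔮' : Ideal (ssl_locSub F0 𝔫) := Ideal.span {u j} with h𝔮'
  have h𝔮'p : 𝔮'.IsPrime := (Ideal.span_singleton_prime (hu j).ne_zero).2 (hu j)
  have hle : 𝔮' ≤ 𝔮 := by
    rw [h𝔮', Ideal.span_le, Set.singleton_subset_iff]; exact huj
  have hmap' : (𝔮'.under B).map (algebraMap B (ssl_locSub F0 𝔫)) = 𝔮' := IsLocalization.map_under 𝔫.primeCompl (ssl_locSub F0 𝔫) 𝔮'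
  have : (𝔮'.under B).IsPrime := Ideal.comap_isPrime _ 𝔮'
  have hne : 𝔮'.under B ≠ ⊥ := by
    intro h0
    rw [h0, Ideal.map_bot] at hmap'
    have : u j ∈ (⊥ : Ideal (ssl_locSub F0 𝔫)) := hmap' ▸ Ideal.mem_span_singleton_self (u j)
    exact (hu j).ne_zero ((Ideal.mem_bot).1 this)
  have hle' : 𝔮'.under B ≤ 𝔭 := by
    rw [← hunder]
    exact Ideal.comap_mono hle
  have heq : 𝔮'.under B = 𝔭 := ssl_eq_of_le_of_ne_bot hne h1 hle'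
  have h𝔮eq : 𝔮 = 𝔮' := by rw [h𝔮, ← heq, hmap']
  -- `x ∈ 𝔮`
  have hs₁u : IsUnit (algebraMap B (ssl_locSub F0 𝔫) s₁) :=
    (IsLocalization.AtPrime.isUnit_to_map_iff (ssl_locSub F0 𝔫) 𝔫 s₁).2 hs₁
  have hx𝔮 : x ∈ 𝔮 := by
    have h2 : x * algebraMap B (ssl_locSub F0 𝔫) s₁ = algebraMap B (ssl_locSub F0 𝔫) x₁ := Subtype.ext hxs
    have h3 : x * algebraMap B (ssl_locSub F0 𝔫) s₁ ∈ 𝔮 := h2 ▸ Ideal.mem_map_of_mem _ hx₁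
    exact (Ideal.mul_unit_mem_iff_mem _ hs₁u).1 h3
  rw [h𝔮eq, h𝔮', Ideal.mem_span_singleton] at hx𝔮
  exact hx j hx𝔮

/-- **[L3]: the local hypothesis of `sfc_main` at a closed point with transversal branches.** -/
theorem s36g_hloc (π : A0) (hϖ0 : algebraMap A0 F0 π ≠ 0) (𝔫 : Ideal B) [h𝔫 : 𝔫.IsPrime]
    (hπ𝔫 : algebraMap A0 B π ∈ 𝔫) [UniqueFactorizationMonoid (ssl_locSub F0 𝔫)]
    {ι : Type*} [Fintype ι] [DecidableEq ι] {q : ℕ} (hq : q.Prime)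
    (hqπ : algebraMap B (ssl_locSub F0 𝔫) (algebraMap A0 B π) ∣ (q : ssl_locSub F0 𝔫))
    (u : ι → ssl_locSub F0 𝔫) (e : ι → ℕ) (hu : ∀ j, Prime (u j))
    (hna : ∀ i j, i ≠ j → ¬ Associated (u i) (u j))
    (hπ : Associated (algebraMap B (ssl_locSub F0 𝔫) (algebraMap A0 B π)) (∏ j, u j ^ e j))
    (htr : ∀ i j, i ≠ j →
      𝔫.map (algebraMap B (ssl_locSub F0 𝔫)) ≤ Ideal.span {u i} ⊔ Ideal.span {u j})
    (m : ℕ) (hm : m ≠ 0) {f g : F0} (ω : (ssl_locSub F0 𝔫)ˣ)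
    (hfg : f = ((ω : ssl_locSub F0 𝔫) : F0) * g ^ m)
    (hg : ∀ j, ssl_UnitAt F0 (Ideal.span {u j}) g)
    (a : ι → ssl_locSub F0 𝔫) (a0 : ssl_locSub F0 𝔫)
    (hga : ∀ j, s36g_MemM (Ideal.span {u j}) (g - ((a j : ssl_locSub F0 𝔫) : F0)))
    (haa : ∀ j, a j - a0 ∈ 𝔫.map (algebraMap B (ssl_locSub F0 𝔫))) (k : ℕ)
    (hK : ∀ j, e j * ∑ i ∈ (Finset.univ : Finset ι).erase j, e i ≤ q ^ k)
    (he : ∀ j, e j ≤ q ^ k) :
    ∃ (b1 : B) (h : F0), b1 ∉ 𝔫 ∧ h ^ m * f ^ q ^ k ∈ B ∧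
      h - (b1 : F0) ∈ sfc_piO B.toSubring (algebraMap A0 F0 π) := by
  set Q := q ^ k with hQ
  set ϖ := algebraMap A0 F0 π with hϖ
  obtain ⟨w, z, x, y, hx, hy, hxy, -, hrel⟩ :=
    s36g_glue_local (F := F0) hq hqπ (𝔫.map (algebraMap B (ssl_locSub F0 𝔫))) u e hu hna hπ htr hg a a0 hga haa k hK he
  -- `g ≠ 0`, `x ≠ 0`
  have hι : ∃ j : ι, True := by
    by_contra hemp
    have hempty : IsEmpty ι := ⟨fun j => hemp ⟨j, trivial⟩⟩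
    have h1 : ∏ j, u j ^ e j = 1 := by
      rw [Finset.univ_eq_empty, Finset.prod_empty]
    rw [h1] at hπ
    have hunit : IsUnit (algebraMap B (ssl_locSub F0 𝔫) (algebraMap A0 B π)) := hπ.symm.isUnit isUnit_one
    exact ((IsLocalization.AtPrime.isUnit_to_map_iff (ssl_locSub F0 𝔫) 𝔫 _).1 hunit) hπ𝔫
  obtain ⟨j₀, -⟩ := hι
  have hx0 : x ≠ 0 := fun h0 => hx j₀ (h0 ▸ dvd_zero _)
  have hy0 : y ≠ 0 := fun h0 => hy j₀ (h0 ▸ dvd_zero _)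
  have hxF : (x : F0) ≠ 0 := fun h0 => hx0 (Subtype.ext h0)
  have hyF : (y : F0) ≠ 0 := fun h0 => hy0 (Subtype.ext h0)
  have hxy' : g * (y : F0) = (x : F0) := hxy
  have hg0 : g ≠ 0 := by
    rintro rfl
    rw [zero_mul] at hxy'
    exact hxF hxy'.symm
  have hrelF : (x : F0) ^ Q - (w : F0) * (y : F0) ^ Q = ϖ * (z : F0) := by
    have := congrArg (fun t : ssl_locSub F0 𝔫 => (t : F0)) hrel
    simpa using this
  -- the element `Y = - z / x^Q`, with `(w - g^Q) / g^Q = ϖ Y`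
  set Y : F0 := -(z : F0) * ((x : F0) ^ Q)⁻¹ with hY
  have hxQ : (x : F0) ^ Q ≠ 0 := pow_ne_zero _ hxF
  have hgQ : g ^ Q ≠ 0 := pow_ne_zero _ hg0
  have hkey : ((w : F0) - g ^ Q) * (g ^ Q)⁻¹ = ϖ * Y := by
    have hgx : g ^ Q * (y : F0) ^ Q = (x : F0) ^ Q := by rw [← mul_pow, hxy']
    have hyQ : (y : F0) ^ Q ≠ 0 := pow_ne_zero _ hyF
    have h1 : (w : F0) * (y : F0) ^ Q = (x : F0) ^ Q - ϖ * (z : F0) := by rw [← hrelF]; ring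
    have h2 : ((w : F0) - g ^ Q) * (y : F0) ^ Q = -(ϖ * (z : F0)) := by
      rw [sub_mul, h1, hgx]; ring
    rw [hY]
    have h3 : (w : F0) - g ^ Q = -(ϖ * (z : F0)) * ((y : F0) ^ Q)⁻¹ := by
      rw [← h2]; field_simp
    rw [h3, ← hgx]
    field_simp
  -- `Y ∈ B_𝔭` at the vertical primes through `𝔫`
  obtain ⟨z₁, s₂, hs₂, hzs⟩ := (ssl_mem_loc 𝔫).1 z.2
  obtain ⟨x₁, s₁, hs₁, hxs⟩ := (ssl_mem_loc 𝔫).1 x.2
  have hYmem : ∀ 𝔭 : Ideal B, 𝔭.IsPrime → 𝔭.height = 1 → algebraMap A0 B π ∈ 𝔭 → 𝔭 ≤ 𝔫 →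
      ssl_MemAt F0 𝔭 Y := by
    intro 𝔭 h𝔭 h1 hπ𝔭 h𝔭𝔫
    have := h𝔭
    have hx₁ : x₁ ∉ 𝔭 := s36g_num_not_mem π 𝔫 u e hu hπ 𝔭 h1 hπ𝔭 h𝔭𝔫 hx hs₁ hxs
    refine ⟨-(z₁ * s₁ ^ Q), s₂ * x₁ ^ Q, fun hmem => ?_, ?_⟩
    · rcases h𝔭.mem_or_mem hmem with h | h
      · exact hs₂ (h𝔭𝔫 h)
      · exact hx₁ (h𝔭.mem_of_pow_mem _ h)
    · show Y * ((s₂ * x₁ ^ Q : B) : F0) = ((-(z₁ * s₁ ^ Q) : B) : F0)
      push_cast
      rw [hY, ← hzs, ← hxs]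
      field_simp
      ring
  obtain ⟨T, hT, hTY⟩ := s36g_semilocal π hϖ0 𝔫 hπ𝔫 hYmem
  -- clear the denominator of the unit `w^m ω^Q`
  obtain ⟨c, s₀, hs₀, hcs⟩ := (ssl_mem_loc 𝔫).1 (w ^ m * (ω : ssl_locSub F0 𝔫) ^ Q).2
  refine ⟨s₀ * T, ((s₀ * T : B) : F0) * (w : F0) * (g ^ Q)⁻¹,
    fun hmem => (h𝔫.mem_or_mem hmem).elim hs₀ hT, ?_, ?_⟩
  · -- `h^m f^Q = (s₀ T)^m w^m ω^Q`
    obtain ⟨m', rfl⟩ := Nat.exists_eq_succ_of_ne_zero hm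
    have hcast : (((w ^ (m' + 1) * (ω : ssl_locSub F0 𝔫) ^ Q : ssl_locSub F0 𝔫)) : F0) =
        (w : F0) ^ (m' + 1) * ((ω : ssl_locSub F0 𝔫) : F0) ^ Q := by
      push_cast; ring
    have hcast2 : ((s₀ * T : B) : F0) = (s₀ : F0) * (T : F0) := rfl
    have h1 : (((s₀ * T : B) : F0) * (w : F0) * (g ^ Q)⁻¹) ^ (m' + 1) * f ^ Q =
        ((s₀ : F0) ^ m' * (T : F0) ^ (m' + 1)) *
          ((((w ^ (m' + 1) * (ω : ssl_locSub F0 𝔫) ^ Q : ssl_locSub F0 𝔫)) : F0) * (s₀ : F0)) := by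
      have hfQ : f ^ Q = ((ω : ssl_locSub F0 𝔫) : F0) ^ Q * (g ^ Q) ^ (m' + 1) := by
        rw [hfg, mul_pow, ← pow_mul, ← pow_mul, mul_comm Q]
      rw [hfQ, hcast, hcast2]
      generalize g ^ Q = G at hgQ ⊢
      rw [mul_pow _ G⁻¹, inv_pow]
      have hG' : G ^ (m' + 1) ≠ 0 := pow_ne_zero _ hgQ
      field_simp
      ring
    rw [h1, hcs]
    exact B.mul_mem (B.mul_mem (B.pow_mem s₀.2 _) (B.pow_mem T.2 _)) c.2
  · -- `h - b₁ = ϖ (s₀ (T Y))`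
    refine ⟨(s₀ : F0) * ((T : F0) * Y), mul_mem (sfc_le_O s₀.2) hTY, ?_⟩
    have h2 : ((s₀ * T : B) : F0) * (w : F0) * (g ^ Q)⁻¹ - ((s₀ * T : B) : F0) =
        ((s₀ : F0) * (T : F0)) * (((w : F0) - g ^ Q) * (g ^ Q)⁻¹) := by
      rw [show ((s₀ * T : B) : F0) = (s₀ : F0) * (T : F0) from rfl]
      field_simp
    rw [h2, hkey]
    ring

end Hloc

end Fermat.Agent.S36
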