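/-
Project S36 (Carayol), cell [GLUE-MAIN] (helper3): THE LOCAL HYPOTHESIS OF `sfc_main` AT A POINT OF
ONE COMPONENT, WITH A UNIT TWIST (prefix `s36g_`).

Same situation as `s36g_hloc_one` (`ϖ ~ u ^ e` in the factorial local ring `R = B_𝔫`, `R / (u)`
integrally closed, `f ≡ 1` along `u`, `m ∣` horizontal orders of `f`), plus a function `u₀` which is
a unit along the branch with a branch value `κ ∈ R`.  Conclusion: the hypothesis `hloc` of
`sfc_main` at `𝔫` for `(f ^ n · u₀ ^ m) ^ (q ^ k)` (any `n`, `e ≤ q ^ k`).  This is what the global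
assembly needs at the NON-triple points: the global function is `(f ^ (q² - 1) · u₀ ^ m) ^ (q²)`.
-/
import Mathlib
import Fermat.Agent.S36.Glue.Rel
import Fermat.Agent.S36.Glue.Hloc

set_option autoImplicit false
set_option linter.unusedSectionVars false

namespace Fermat.Agent.S36

open Fermat.Agent.SS

universe v

section OneTw

variable {A0 : Type*} [CommRing A0] {F0 : Type v} [Field F0] [Algebra A0 F0]
variable {B : Subalgebra A0 F0} [IsFractionRing B F0] [IsNoetherianRing B] [IsIntegrallyClosed B]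

/-- **[L3] at a point of one component, twisted form.** -/
theorem s36g_hloc_one_tw (π : A0) (hϖ0 : algebraMap A0 F0 π ≠ 0) (𝔫 : Ideal B) [h𝔫 : 𝔫.IsPrime]
    (hπ𝔫 : algebraMap A0 B π ∈ 𝔫) [UniqueFactorizationMonoid (ssl_locSub F0 𝔫)]
    {q : ℕ} (hq : q.Prime)
    (hqπ : algebraMap B (ssl_locSub F0 𝔫) (algebraMap A0 B π) ∣ (q : ssl_locSub F0 𝔫))
    (u : ssl_locSub F0 𝔫) (e : ℕ) (he : e ≠ 0) (hu : Prime u)
    (hπ : Associated (algebraMap B (ssl_locSub F0 𝔫) (algebraMap A0 B π)) (u ^ e))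
    (hsm : IsIntegrallyClosed (ssl_locSub F0 𝔫 ⧸ Ideal.span {u}))
    (m : ℕ) (hm : 0 < m) {f : F0} (hf : f ≠ 0)
    (hdiv : ∀ 𝔮 : Ideal (ssl_locSub F0 𝔫),
      ssl_Horiz (algebraMap B (ssl_locSub F0 𝔫) (algebraMap A0 B π)) 𝔮 →
        ∃ G : F0, G ≠ 0 ∧ ssl_UnitAt F0 𝔮 (f / G ^ m))
    (hf1 : s36g_MemM (Ideal.span {u}) (f - 1))
    {u₀ : F0} (hu₀ : ssl_UnitAt F0 (Ideal.span {u}) u₀) (κ : ssl_locSub F0 𝔫)
    (hκ : s36g_MemM (Ideal.span {u}) (u₀ - ((κ : ssl_locSub F0 𝔫) : F0)))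
    (n k : ℕ) (hek : e ≤ q ^ k) :
    ∃ (b1 : B) (h : F0), b1 ∉ 𝔫 ∧ h ^ m * (f ^ n * u₀ ^ m) ^ q ^ k ∈ B ∧
      h - (b1 : F0) ∈ sfc_piO B.toSubring (algebraMap A0 F0 π) := by
  have : IsNoetherianRing (ssl_locSub F0 𝔫) := ssl_loc_isNoetherianRing 𝔫
  have : IsIntegrallyClosed (ssl_locSub F0 𝔫) := ssl_loc_isIntegrallyClosed 𝔫
  have hprime : (Ideal.span {u}).IsPrime := (Ideal.span_singleton_prime hu.ne_zero).2 hu
  have hπ' : Associated (algebraMap B (ssl_locSub F0 𝔫) (algebraMap A0 B π))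
      (∏ j : Unit, (fun _ : Unit => u) j ^ (fun _ : Unit => e) j) := by
    simpa using hπ
  obtain ⟨ω, g, a, hfg, hgu, hga, -⟩ :=
    s36g_local_data (F := F0) _ (fun _ : Unit => u) (fun _ : Unit => e) (fun _ => hu) (fun _ => he)
      hπ' (fun _ => hsm) m hm hf hdiv (fun _ => hf1)
  -- the twisted local datum
  have hfg' : f ^ n * u₀ ^ m =
      (((ω ^ n : (ssl_locSub F0 𝔫)ˣ) : ssl_locSub F0 𝔫) : F0) * (g ^ n * u₀) ^ m := by
    rw [hfg, Units.val_pow_eq_pow_val]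
    have : (((ω : ssl_locSub F0 𝔫) ^ n : ssl_locSub F0 𝔫) : F0) =
        (((ω : ssl_locSub F0 𝔫)) : F0) ^ n := rfl
    rw [this]
    have e1 : algebraMap (ssl_locSub F0 𝔫) F0 (ω : ssl_locSub F0 𝔫) =
        ((ω : ssl_locSub F0 𝔫) : F0) := rfl
    rw [e1]
    ring
  have hg1 : ssl_UnitAt F0 (Ideal.span {u}) (g ^ n * u₀) :=
    ssl_unitAt_mul _ (ssl_unitAt_pow _ (hgu ()) n) hu₀
  have hga1 : s36g_MemM (Ideal.span {u})
      (g ^ n * u₀ - (((a () ^ n * κ : ssl_locSub F0 𝔫)) : F0)) := by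
    have e1 : (((a () ^ n * κ : ssl_locSub F0 𝔫)) : F0) =
        (algebraMap (ssl_locSub F0 𝔫) F0 (a ())) ^ n * algebraMap (ssl_locSub F0 𝔫) F0 κ := by
      rw [← map_pow, ← map_mul]; rfl
    rw [e1]
    exact s36g_memM_mul_sub _ (s36g_memM_pow_sub _ (hga ()) (ssl_memAt_algebraMap _ _) n) hκ
      (by rw [← map_pow]; exact ssl_memAt_algebraMap _ _) (ssl_memAt_algebraMap _ _)
  refine s36g_hloc π hϖ0 𝔫 hπ𝔫 hq hqπ (fun _ : Unit => u) (fun _ : Unit => e) (fun _ => hu)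
    (fun i j hij => absurd (Subsingleton.elim i j) hij) hπ'
    (fun i j hij => absurd (Subsingleton.elim i j) hij) m hm.ne' (ω ^ n) hfg' (fun _ => hg1)
    (fun _ => a () ^ n * κ) (a () ^ n * κ) (fun _ => hga1)
    (fun j => by rw [sub_self]; exact Ideal.zero_mem _) k (fun j => ?_) (fun _ => hek)
  have : (Finset.univ : Finset Unit).erase j = ∅ := by
    ext i
    simp
  rw [this, Finset.sum_empty, mul_zero]
  exact Nat.zero_le _

end OneTw

end Fermat.Agent.S36
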