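/-
Project S36 (Carayol), cell [GLUE] (helper3): THE TORIC ARGUMENT AT A TRIPLE POINT, PACKAGED
(prefix `s36g_`).

Branches `u 0 = A`, `u 1 = B`, `u 2 = C` (multiplicities `1, 1, p = q - 1`).  `N₁, N₂ : F →* F` the
two norms followed by the inclusions.  Inputs:
* `f ≡ 1` along the three branches, `m ∣` horizontal orders (`hdiv`);
* `N_i f = c_i h_iᵐ`, `c_i ∈ Rˣ`; `N_i (Rˣ) ⊆ Rˣ`;
* the reductions of `h₁` are the constants `ν_F` (along `A`), `ν_V` (along `B`); those of `h₂` are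
  `ν_G` (along `A`), `ν_U` (along `B`);
* THE NORM-RESIDUE FORMULAS AT THE POINT (`hNR1`, `hNR2`): for `g` with branch values `a`,
  `N₁ g ≡ a_A a_C^p` along `A`, `≡ a_B^(p+1)` along `B`; `N₂ g ≡ a_A^(p+1)` along `A`,
  `≡ a_B a_C^p` along `B` (values modulo `𝔪`);
* `u₀` with the constant branch values `X W, Y W, Z Y` (weak approximation), where
  `X = (ν_V ν_U)^p`, `Y = (ν_F ν_G)^p`, `Z = ν_V^(p+1) ν_G`, `W = ν_F^(p+1) ν_U`.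
Output (`s36g_tri_local`): `f₁ := f ^ (p (p+2)) · u₀ᵐ` has a local datum whose three branch values
AGREE at the point; hence (`s36g_hloc_tri`) the local hypothesis of `sfc_main` for `f₁ ^ (q²)`.
-/
import Mathlib
import Fermat.Agent.S36.Glue.Rel
import Fermat.Agent.S36.Glue.Hloc

set_option autoImplicit false
set_option linter.unusedSectionVars false

namespace Fermat.Agent.S36

open Fermat.Agent.SS

section Bounds

/-- the exponent bounds of `s36g_hloc` at a triple point with multiplicities `(1, 1, p)`,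
`q = p + 1`, `Q = q²`. -/
theorem s36g_bounds_three (p : ℕ) (e : Fin 3 → ℕ) (h0 : e 0 = 1) (h1 : e 1 = 1) (h2 : e 2 = p) :
    (∀ j, e j * ∑ i ∈ (Finset.univ : Finset (Fin 3)).erase j, e i ≤ (p + 1) ^ 2) ∧
      ∀ j, e j ≤ (p + 1) ^ 2 := by
  have hsum : ∀ j, e j + ∑ i ∈ (Finset.univ : Finset (Fin 3)).erase j, e i = p + 2 := by
    intro j
    rw [Finset.add_sum_erase _ _ (Finset.mem_univ j), Fin.sum_univ_three, h0, h1, h2]
    ring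
  constructor
  · intro j
    have hj := hsum j
    fin_cases j
    · simp only [Fin.zero_eta] at hj ⊢
      rw [h0] at hj ⊢
      nlinarith
    · simp only [Fin.mk_one] at hj ⊢
      rw [h1] at hj ⊢
      nlinarith
    · simp only [Fin.reduceFinMk] at hj ⊢
      rw [h2] at hj ⊢
      have : ∑ i ∈ (Finset.univ : Finset (Fin 3)).erase 2, e i = 2 := by omega
      rw [this]
      nlinarith
  · intro j
    fin_cases j
    · simp only [Fin.zero_eta]; rw [h0]; nlinarith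
    · simp only [Fin.mk_one]; rw [h1]; nlinarith
    · simp only [Fin.reduceFinMk]; rw [h2]; nlinarith

end Bounds

section TriLocal

variable {R : Type*} [CommRing R] [IsDomain R] [IsNoetherianRing R] [IsIntegrallyClosed R]
  [UniqueFactorizationMonoid R] {F : Type*} [Field F] [Algebra R F] [IsFractionRing R F]

/-- **the toric argument at a triple point, local form.** -/
theorem s36g_tri_local (π : R) (𝔪 : Ideal R) [h𝔪 : 𝔪.IsPrime] (u : Fin 3 → R) (e : Fin 3 → ℕ)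
    (hu : ∀ j, Prime (u j)) (he : ∀ j, e j ≠ 0) (hπ : Associated π (∏ j, u j ^ e j))
    (hu𝔪 : ∀ j, u j ∈ 𝔪) (hsm : ∀ j, IsIntegrallyClosed (R ⧸ Ideal.span {u j}))
    (p m : ℕ) (hm : 0 < m) {f : F} (hf : f ≠ 0)
    (hdiv : ∀ 𝔮 : Ideal R, ssl_Horiz π 𝔮 → ∃ G : F, G ≠ 0 ∧ ssl_UnitAt F 𝔮 (f / G ^ m))
    (hf1 : ∀ j, s36g_MemM (Ideal.span {u j}) (f - 1))
    (N1 N2 : F →* F)
    (hN1u : ∀ ω : Rˣ, ∃ υ : Rˣ, N1 (algebraMap R F (ω : R)) = algebraMap R F (υ : R))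
    (hN2u : ∀ ω : Rˣ, ∃ υ : Rˣ, N2 (algebraMap R F (ω : R)) = algebraMap R F (υ : R))
    (c1 c2 : Rˣ) {h1 h2 : F} (hh1 : h1 ≠ 0) (hh2 : h2 ≠ 0)
    (hN1f : N1 f = algebraMap R F (c1 : R) * h1 ^ m)
    (hN2f : N2 f = algebraMap R F (c2 : R) * h2 ^ m)
    {νF νV νG νU : R} (hνF : νF ∉ 𝔪) (hνV : νV ∉ 𝔪)
    (hh1A : s36g_MemM (Ideal.span {u 0}) (h1 - algebraMap R F νF))
    (hh1B : s36g_MemM (Ideal.span {u 1}) (h1 - algebraMap R F νV))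
    (hh2A : s36g_MemM (Ideal.span {u 0}) (h2 - algebraMap R F νG))
    (hh2B : s36g_MemM (Ideal.span {u 1}) (h2 - algebraMap R F νU))
    (hNR1 : ∀ (g : F) (a : Fin 3 → R), (∀ j, ssl_UnitAt F (Ideal.span {u j}) g) →
      (∀ j, s36g_MemM (Ideal.span {u j}) (g - algebraMap R F (a j))) →
      ∃ nA nB : R, s36g_MemM (Ideal.span {u 0}) (N1 g - algebraMap R F nA) ∧
        nA - a 0 * a 2 ^ p ∈ 𝔪 ∧
        s36g_MemM (Ideal.span {u 1}) (N1 g - algebraMap R F nB) ∧ nB - a 1 ^ (p + 1) ∈ 𝔪)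
    (hNR2 : ∀ (g : F) (a : Fin 3 → R), (∀ j, ssl_UnitAt F (Ideal.span {u j}) g) →
      (∀ j, s36g_MemM (Ideal.span {u j}) (g - algebraMap R F (a j))) →
      ∃ nA nB : R, s36g_MemM (Ideal.span {u 0}) (N2 g - algebraMap R F nA) ∧
        nA - a 0 ^ (p + 1) ∈ 𝔪 ∧
        s36g_MemM (Ideal.span {u 1}) (N2 g - algebraMap R F nB) ∧ nB - a 1 * a 2 ^ p ∈ 𝔪)
    {u₀ : F} (hu₀ : ∀ j, ssl_UnitAt F (Ideal.span {u j}) u₀) (κ : Fin 3 → R)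
    (hκ : ∀ j, s36g_MemM (Ideal.span {u j}) (u₀ - algebraMap R F (κ j)))
    (hκ0 : κ 0 - (νV * νU) ^ p * (νF ^ (p + 1) * νU) ∈ 𝔪)
    (hκ1 : κ 1 - (νF * νG) ^ p * (νF ^ (p + 1) * νU) ∈ 𝔪)
    (hκ2 : κ 2 - (νV ^ (p + 1) * νG) * (νF * νG) ^ p ∈ 𝔪) :
    ∃ (ω₁ : Rˣ) (g₁ : F) (a₁ : Fin 3 → R) (a0 : R),
      f ^ (p * (p + 2)) * u₀ ^ m = algebraMap R F (ω₁ : R) * g₁ ^ m ∧
      (∀ j, ssl_UnitAt F (Ideal.span {u j}) g₁) ∧
      (∀ j, s36g_MemM (Ideal.span {u j}) (g₁ - algebraMap R F (a₁ j))) ∧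
      ∀ j, a₁ j - a0 ∈ 𝔪 := by
  have hprime : ∀ j, (Ideal.span {u j}).IsPrime := fun j =>
    (Ideal.span_singleton_prime (hu j).ne_zero).2 (hu j)
  have hle : ∀ j, Ideal.span {u j} ≤ 𝔪 := fun j => by
    rw [Ideal.span_le, Set.singleton_subset_iff]; exact hu𝔪 j
  obtain ⟨ω, g, a, hfg, hgu, hga, hωa⟩ := s36g_local_data π u e hu he hπ hsm m hm hf hdiv hf1
  -- the two norm relations
  obtain ⟨nA, nB, hnA, hnA', hnB, hnB'⟩ := hNR1 g a hgu hga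
  obtain ⟨nA2, nB2, hnA2, hnA2', hnB2, hnB2'⟩ := hNR2 g a hgu hga
  obtain ⟨υ1, hυ1⟩ := hN1u ω
  obtain ⟨υ2, hυ2⟩ := hN2u ω
  have := hprime 0
  have := hprime 1
  have hrel1 : nA * νV - nB * νF ∈ 𝔪 :=
    s36g_rel 𝔪 (Ideal.span {u 0}) (Ideal.span {u 1}) (hle 0) (hle 1) N1 hm ω c1 υ1 hfg hN1f hυ1 hh1
      hh1A hh1B hnA hnB
  have hrel2 : nA2 * νU - nB2 * νG ∈ 𝔪 :=
    s36g_rel 𝔪 (Ideal.span {u 0}) (Ideal.span {u 1}) (hle 0) (hle 1) N2 hm ω c2 υ2 hfg hN2f hυ2 hh2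
      hh2A hh2B hnA2 hnB2
  -- pass to the residue domain
  let φ := Ideal.Quotient.mk 𝔪
  have hφ : ∀ {r s : R}, r - s ∈ 𝔪 → φ r = φ s := fun h => (Ideal.Quotient.eq).2 h
  have hφ0 : ∀ {r : R}, r ∉ 𝔪 → φ r ≠ 0 := fun h h0 => h ((Ideal.Quotient.eq_zero_iff_mem).1 h0)
  have hane : ∀ j, φ (a j) ≠ 0 := by
    intro j h0
    have h1 : φ ((ω : R) * a j ^ m) = φ 1 := hφ (hle j (hωa j))
    rw [map_mul, map_pow, h0, zero_pow hm.ne', mul_zero, map_one] at h1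
    exact zero_ne_one h1
  have e1 : φ nA * φ νV = φ nB * φ νF := by
    have := hφ (r := nA * νV) (s := nB * νF) hrel1
    simpa using this
  have e2 : φ nA2 * φ νU = φ nB2 * φ νG := by
    have := hφ (r := nA2 * νU) (s := nB2 * νG) hrel2
    simpa using this
  have e3 : φ nA = φ (a 0) * φ (a 2) ^ p := by have := hφ hnA'; simpa using this
  have e4 : φ nB = φ (a 1) ^ (p + 1) := by have := hφ hnB'; simpa using this
  have e5 : φ nA2 = φ (a 0) ^ (p + 1) := by have := hφ hnA2'; simpa using this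
  have e6 : φ nB2 = φ (a 1) * φ (a 2) ^ p := by have := hφ hnB2'; simpa using this
  have hα : φ (a 0) * φ (a 2) ^ p * φ νV = φ (a 1) ^ (p + 1) * φ νF := by rw [← e3, ← e4, e1]
  have hβ : φ (a 0) ^ (p + 1) * φ νU = φ (a 1) * φ (a 2) ^ p * φ νG := by rw [← e5, ← e6, e2]
  obtain ⟨g5a, g5c⟩ := s36g_g5 p (hane 1) (hane 2) (hφ0 hνF) (hφ0 hνV) hα hβ
  have k0 : φ (κ 0) = (φ νV * φ νU) ^ p * (φ νF ^ (p + 1) * φ νU) := by
    have := hφ hκ0; simpa using this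
  have k1 : φ (κ 1) = (φ νF * φ νG) ^ p * (φ νF ^ (p + 1) * φ νU) := by
    have := hφ hκ1; simpa using this
  have k2 : φ (κ 2) = (φ νV ^ (p + 1) * φ νG) * (φ νF * φ νG) ^ p := by
    have := hφ hκ2; simpa using this
  -- the new local datum
  set d := p * (p + 2) with hd
  refine ⟨ω ^ d, g ^ d * u₀, fun j => a j ^ d * κ j, a 1 ^ d * κ 1, ?_, ?_, ?_, ?_⟩
  · rw [hfg, Units.val_pow_eq_pow_val, map_pow]; ring
  · intro j
    have := hprime j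
    exact ssl_unitAt_mul _ (ssl_unitAt_pow _ (hgu j) d) (hu₀ j)
  · intro j
    have := hprime j
    rw [map_mul, map_pow]
    exact s36g_memM_mul_sub _ (s36g_memM_pow_sub _ (hga j) (ssl_memAt_algebraMap _ _) d) (hκ j)
      (by rw [← map_pow]; exact ssl_memAt_algebraMap _ _) (ssl_memAt_algebraMap _ _)
  · intro j
    rw [← Ideal.Quotient.eq]
    show φ (a j ^ d * κ j) = φ (a 1 ^ d * κ 1)
    fin_cases j
    · simp only [Fin.zero_eta, map_mul, map_pow, k0, k1]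
      linear_combination (φ νF ^ (p + 1) * φ νU) * g5a
    · rfl
    · simp only [Fin.reduceFinMk, map_mul, map_pow, k1, k2]
      linear_combination (φ νF * φ νG) ^ p * g5c

end TriLocal

section TriChart

universe v

variable {A0 : Type*} [CommRing A0] {F0 : Type v} [Field F0] [Algebra A0 F0]
variable {B : Subalgebra A0 F0} [IsFractionRing B F0] [IsNoetherianRing B] [IsIntegrallyClosed B]

/-- **the toric argument at a triple point of a chart**: the local hypothesis of `sfc_main` for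
`(f ^ (q² - 1) · u₀ᵐ) ^ (q²)`, `q = p + 1`. -/
theorem s36g_hloc_tri (π : A0) (hϖ0 : algebraMap A0 F0 π ≠ 0) (𝔫 : Ideal B) [h𝔫 : 𝔫.IsPrime]
    (hπ𝔫 : algebraMap A0 B π ∈ 𝔫) [UniqueFactorizationMonoid (ssl_locSub F0 𝔫)]
    (p : ℕ) (hq : (p + 1).Prime)
    (hqπ : algebraMap B (ssl_locSub F0 𝔫) (algebraMap A0 B π) ∣ ((p + 1 : ℕ) : ssl_locSub F0 𝔫))
    (u : Fin 3 → ssl_locSub F0 𝔫) (e : Fin 3 → ℕ) (he0 : e 0 = 1) (he1 : e 1 = 1)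
    (he2 : e 2 = p) (hu : ∀ j, Prime (u j))
    (hna : ∀ i j, i ≠ j → ¬ Associated (u i) (u j))
    (hπ : Associated (algebraMap B (ssl_locSub F0 𝔫) (algebraMap A0 B π)) (∏ j, u j ^ e j))
    (htr : ∀ i j, i ≠ j →
      𝔫.map (algebraMap B (ssl_locSub F0 𝔫)) ≤ Ideal.span {u i} ⊔ Ideal.span {u j})
    (hsm : ∀ j, IsIntegrallyClosed (ssl_locSub F0 𝔫 ⧸ Ideal.span {u j}))
    (m : ℕ) (hm : 0 < m) {f : F0} (hf : f ≠ 0)
    (hdiv : ∀ 𝔮 : Ideal (ssl_locSub F0 𝔫),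
      ssl_Horiz (algebraMap B (ssl_locSub F0 𝔫) (algebraMap A0 B π)) 𝔮 →
        ∃ G : F0, G ≠ 0 ∧ ssl_UnitAt F0 𝔮 (f / G ^ m))
    (hf1 : ∀ j, s36g_MemM (Ideal.span {u j}) (f - 1))
    (N1 N2 : F0 →* F0)
    (hN1u : ∀ ω : (ssl_locSub F0 𝔫)ˣ, ∃ υ : (ssl_locSub F0 𝔫)ˣ,
      N1 ((ω : ssl_locSub F0 𝔫) : F0) = ((υ : ssl_locSub F0 𝔫) : F0))
    (hN2u : ∀ ω : (ssl_locSub F0 𝔫)ˣ, ∃ υ : (ssl_locSub F0 𝔫)ˣ,
      N2 ((ω : ssl_locSub F0 𝔫) : F0) = ((υ : ssl_locSub F0 𝔫) : F0))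
    (c1 c2 : (ssl_locSub F0 𝔫)ˣ) {h1 h2 : F0} (hh1 : h1 ≠ 0) (hh2 : h2 ≠ 0)
    (hN1f : N1 f = ((c1 : ssl_locSub F0 𝔫) : F0) * h1 ^ m)
    (hN2f : N2 f = ((c2 : ssl_locSub F0 𝔫) : F0) * h2 ^ m)
    {νF νV νG νU : ssl_locSub F0 𝔫}
    (hνF : νF ∉ 𝔫.map (algebraMap B (ssl_locSub F0 𝔫)))
    (hνV : νV ∉ 𝔫.map (algebraMap B (ssl_locSub F0 𝔫)))
    (hh1A : s36g_MemM (Ideal.span {u 0}) (h1 - (νF : F0)))
    (hh1B : s36g_MemM (Ideal.span {u 1}) (h1 - (νV : F0)))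
    (hh2A : s36g_MemM (Ideal.span {u 0}) (h2 - (νG : F0)))
    (hh2B : s36g_MemM (Ideal.span {u 1}) (h2 - (νU : F0)))
    (hNR1 : ∀ (g : F0) (a : Fin 3 → ssl_locSub F0 𝔫),
      (∀ j, ssl_UnitAt F0 (Ideal.span {u j}) g) →
      (∀ j, s36g_MemM (Ideal.span {u j}) (g - ((a j : ssl_locSub F0 𝔫) : F0))) →
      ∃ nA nB : ssl_locSub F0 𝔫, s36g_MemM (Ideal.span {u 0}) (N1 g - (nA : F0)) ∧
        nA - a 0 * a 2 ^ p ∈ 𝔫.map (algebraMap B (ssl_locSub F0 𝔫)) ∧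
        s36g_MemM (Ideal.span {u 1}) (N1 g - (nB : F0)) ∧
        nB - a 1 ^ (p + 1) ∈ 𝔫.map (algebraMap B (ssl_locSub F0 𝔫)))
    (hNR2 : ∀ (g : F0) (a : Fin 3 → ssl_locSub F0 𝔫),
      (∀ j, ssl_UnitAt F0 (Ideal.span {u j}) g) →
      (∀ j, s36g_MemM (Ideal.span {u j}) (g - ((a j : ssl_locSub F0 𝔫) : F0))) →
      ∃ nA nB : ssl_locSub F0 𝔫, s36g_MemM (Ideal.span {u 0}) (N2 g - (nA : F0)) ∧
        nA - a 0 ^ (p + 1) ∈ 𝔫.map (algebraMap B (ssl_locSub F0 𝔫)) ∧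
        s36g_MemM (Ideal.span {u 1}) (N2 g - (nB : F0)) ∧
        nB - a 1 * a 2 ^ p ∈ 𝔫.map (algebraMap B (ssl_locSub F0 𝔫)))
    {u₀ : F0} (hu₀ : ∀ j, ssl_UnitAt F0 (Ideal.span {u j}) u₀) (κ : Fin 3 → ssl_locSub F0 𝔫)
    (hκ : ∀ j, s36g_MemM (Ideal.span {u j}) (u₀ - ((κ j : ssl_locSub F0 𝔫) : F0)))
    (hκ0 : κ 0 - (νV * νU) ^ p * (νF ^ (p + 1) * νU) ∈ 𝔫.map (algebraMap B (ssl_locSub F0 𝔫)))
    (hκ1 : κ 1 - (νF * νG) ^ p * (νF ^ (p + 1) * νU) ∈ 𝔫.map (algebraMap B (ssl_locSub F0 𝔫)))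
    (hκ2 : κ 2 - (νV ^ (p + 1) * νG) * (νF * νG) ^ p ∈
      𝔫.map (algebraMap B (ssl_locSub F0 𝔫))) :
    ∃ (b1 : B) (h : F0), b1 ∉ 𝔫 ∧ h ^ m * (f ^ (p * (p + 2)) * u₀ ^ m) ^ (p + 1) ^ 2 ∈ B ∧
      h - (b1 : F0) ∈ sfc_piO B.toSubring (algebraMap A0 F0 π) := by
  have : IsLocalRing (ssl_locSub F0 𝔫) := ssl_loc_isLocalRing 𝔫
  have : IsNoetherianRing (ssl_locSub F0 𝔫) := ssl_loc_isNoetherianRing 𝔫
  have : IsIntegrallyClosed (ssl_locSub F0 𝔫) := ssl_loc_isIntegrallyClosed 𝔫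
  have hmax : 𝔫.map (algebraMap B (ssl_locSub F0 𝔫)) = IsLocalRing.maximalIdeal (ssl_locSub F0 𝔫) :=
    IsLocalization.AtPrime.map_eq_maximalIdeal 𝔫 (ssl_locSub F0 𝔫)
  have h𝔪 : (𝔫.map (algebraMap B (ssl_locSub F0 𝔫))).IsPrime := by
    rw [hmax]; exact (IsLocalRing.maximalIdeal.isMaximal _).isPrime
  have hp0 : p ≠ 0 := by
    rintro rfl
    exact Nat.not_prime_one hq
  have he : ∀ j, e j ≠ 0 := by
    intro j
    fin_cases j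
    · simp only [Fin.zero_eta]; rw [he0]; exact one_ne_zero
    · simp only [Fin.mk_one]; rw [he1]; exact one_ne_zero
    · simp only [Fin.reduceFinMk]; rw [he2]; exact hp0
  have hu𝔪 : ∀ j, u j ∈ 𝔫.map (algebraMap B (ssl_locSub F0 𝔫)) := by
    intro j
    rw [hmax, IsLocalRing.mem_maximalIdeal, mem_nonunits_iff]
    exact (hu j).not_isUnit
  obtain ⟨ω₁, g₁, a₁, a0, hfg, hg₁, hga, haa⟩ :=
    s36g_tri_local (F := F0) _ (𝔫.map (algebraMap B (ssl_locSub F0 𝔫))) u e hu he hπ hu𝔪 hsm p m hm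
      hf hdiv hf1 N1 N2 hN1u hN2u c1 c2 hh1 hh2 hN1f hN2f hνF hνV hh1A hh1B hh2A hh2B hNR1 hNR2
      hu₀ κ hκ hκ0 hκ1 hκ2
  obtain ⟨hK, heQ⟩ := s36g_bounds_three p e he0 he1 he2
  exact s36g_hloc π hϖ0 𝔫 hπ𝔫 hq hqπ u e hu hna hπ htr m hm.ne' ω₁ hfg hg₁ a₁ a0 hga haa 2 hK heQ

end TriChart

end Fermat.Agent.S36
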