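/-
Project S36 (Carayol), cell [GLUE-MAIN] (helper3): THE PER-POINT SIDE OF THE GLOBAL TORIC ASSEMBLY
(prefix `s36g_`).

`A0` a discrete valuation ring with uniformiser `π`, `L = Frac A0`, `F0 / L(x)` a function field,
`V 0 = VA`, `V 1 = VB`, `V 2 = VC` the three vertical valuations (helper24's `s36tp_Hyp`),
`q = p + 1` the residue characteristic, `N₁ N₂ : F0 →* F0` the two norms.

* the point clauses: `s36g_PtOne` (one-branch point), `s36g_PtWeak` (weak one-component point, the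
  insurance route), `s36g_PtTri` (triple point); the global norm data `s36g_NormData`; the datum
  `s36g_Datum` (= the hypotheses of helper1's seam `s36c_Glue` with constants in `A0`);
* `s36g_locAt_one`, `s36g_locAt_weak`, `s36g_locAt_tri`: the local hypothesis `hloc` of `sfc_main`
  for `(f ^ (q² - 1) · u₀ᵐ) ^ (q²)` (resp. `^ (q² · D1)`) at a point of each kind, on a chart with
  the package of helper24's [TP3];
* `s36g_locAt_pt`: the same at a closed point of the chart `fc_chart A0 {y}` of a function field,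
  from `s36tp_Hyp` and `∀ P : Place L F0, m ∣ ord_P f`;
* `s36g_locAt_ff`: `hloc1` and `hloc2` of `sfc_main` on the two charts (`tori_LocAt`), the points of
  the second chart off infinity being transferred by helper20's `s35ti_locAt_chart2`.

The global step (`sfc_main`, normalisation by the common constant, (h4a)) is helper1's
`s36c_glue_global` / `s36c_glue_of_hloc`; `Glue/HlocAll.lean` feeds it.
-/
import Mathlib
import Fermat.Agent.S36.Glue.H4a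
import Fermat.Agent.S36.Glue.OneTw
import Fermat.Agent.S36.Glue.NormPt
import Fermat.Agent.S36.Glue.Tri
import Fermat.Agent.S36.Model.Primes3Inst
import Fermat.Agent.S35.ToricInst.Xfer
import Fermat.Agent.SS.SFC.FunField
import Fermat.Agent.SS.Model.ThickBase
import Fermat.Agent.SS.Local.Places

set_option autoImplicit false
set_option linter.unusedSectionVars false
set_option linter.style.haveILetI false

namespace Fermat.Agent.S36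

open Fermat.Agent.SS Fermat.Agent.JT3 Fermat.Agent.S35 AlgebraicCurve

universe v

section Defs

variable {A0 : Type*} [CommRing A0] {F0 : Type v} [Field F0] [Algebra A0 F0]

/-- **ONE-BRANCH POINT** of the special fibre of the chart `B` (ring-level clause on
`R = B_𝔫`): `R` factorial, `ϖ ~ u ^ e` with `u` prime, `1 ≤ e ≤ q²`, `R / (u)` integrally closed
(the branch is smooth at the point). -/
def s36g_PtOne (π : A0) (q : ℕ) (B : Subalgebra A0 F0) [IsFractionRing B F0] (𝔫 : Ideal B)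
    [𝔫.IsPrime] : Prop :=
  UniqueFactorizationMonoid (ssl_locSub F0 𝔫) ∧ ∃ (u : ssl_locSub F0 𝔫) (e : ℕ), e ≠ 0 ∧ e ≤ q ^ 2 ∧
    Prime u ∧ Associated (algebraMap B (ssl_locSub F0 𝔫) (algebraMap A0 B π)) (u ^ e) ∧
    IsIntegrallyClosed (ssl_locSub F0 𝔫 ⧸ Ideal.span {u})

/-- **WEAK ONE-COMPONENT POINT** (the insurance route of helper25/helper27, NOTE 3 (B2)): `R = B_𝔫`
has a smallest prime `QC` containing `ϖ`, and the CONCLUSION `hloc` of `sfc_main` holds at `𝔫` for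
`f ^ D1`, for every `m` prime to `q` and every `f ≡ 1` along `QC` whose horizontal orders at the
point are divisible by `m`. -/
def s36g_PtWeak (π : A0) (q D1 : ℕ) (B : Subalgebra A0 F0) [IsFractionRing B F0] (𝔫 : Ideal B)
    [𝔫.IsPrime] : Prop :=
  ∃ QC : Ideal (ssl_locSub F0 𝔫), QC.IsPrime ∧
    algebraMap B (ssl_locSub F0 𝔫) (algebraMap A0 B π) ∈ QC ∧
    (∀ 𝔮 : Ideal (ssl_locSub F0 𝔫), 𝔮.IsPrime →
      algebraMap B (ssl_locSub F0 𝔫) (algebraMap A0 B π) ∈ 𝔮 → QC ≤ 𝔮) ∧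
    ∀ (m : ℕ), ¬ q ∣ m → ∀ f : F0, f ≠ 0 →
      (∀ 𝔮 : Ideal (ssl_locSub F0 𝔫),
        ssl_Horiz (algebraMap B (ssl_locSub F0 𝔫) (algebraMap A0 B π)) 𝔮 →
          ∃ G : F0, G ≠ 0 ∧ ssl_UnitAt F0 𝔮 (f / G ^ m)) →
      s36g_MemM QC (f - 1) →
      ∃ (b1 : B) (h : F0), b1 ∉ 𝔫 ∧ h ^ m * f ^ D1 ∈ B ∧
        h - (b1 : F0) ∈ sfc_piO B.toSubring (algebraMap A0 F0 π)

/-- **TRIPLE POINT** of the special fibre of the chart `B` (ring-level clause on `R = B_𝔫`):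
`R` factorial, `ϖ ~ a b c ^ p`, the three branches pairwise transversal
(`𝔫 R = (a, b) = (a, c) = (b, c)`), `(a) ∩ B = PA`, `(b) ∩ B = PB`, `(c) ∩ B = PC`; the two norms
map `Rˣ` to `Rˣ`; every element of `R` is congruent to an element of `R ∩ K₁` modulo `(a)` and
modulo `(c)`, and to an element of `R ∩ K₂` modulo `(b)` and modulo `(c)`. -/
def s36g_PtTri (π : A0) (p : ℕ) (N1 N2 : F0 →* F0) (K1 K2 : Subfield F0) (B : Subalgebra A0 F0)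
    [IsFractionRing B F0] (PA PB PC : Ideal B) (𝔫 : Ideal B) [𝔫.IsPrime] : Prop :=
  UniqueFactorizationMonoid (ssl_locSub F0 𝔫) ∧ ∃ a b c : ssl_locSub F0 𝔫,
    Prime a ∧ Prime b ∧ Prime c ∧
    Associated (algebraMap B (ssl_locSub F0 𝔫) (algebraMap A0 B π)) (a * b * c ^ p) ∧
    𝔫.map (algebraMap B (ssl_locSub F0 𝔫)) = Ideal.span {a, b} ∧
    𝔫.map (algebraMap B (ssl_locSub F0 𝔫)) = Ideal.span {a, c} ∧
    𝔫.map (algebraMap B (ssl_locSub F0 𝔫)) = Ideal.span {b, c} ∧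
    (Ideal.span {a}).comap (algebraMap B (ssl_locSub F0 𝔫)) = PA ∧
    (Ideal.span {b}).comap (algebraMap B (ssl_locSub F0 𝔫)) = PB ∧
    (Ideal.span {c}).comap (algebraMap B (ssl_locSub F0 𝔫)) = PC ∧
    (∀ ω : (ssl_locSub F0 𝔫)ˣ, ∃ υ : (ssl_locSub F0 𝔫)ˣ,
      N1 ((ω : ssl_locSub F0 𝔫) : F0) = ((υ : ssl_locSub F0 𝔫) : F0)) ∧
    (∀ ω : (ssl_locSub F0 𝔫)ˣ, ∃ υ : (ssl_locSub F0 𝔫)ˣ,
      N2 ((ω : ssl_locSub F0 𝔫) : F0) = ((υ : ssl_locSub F0 𝔫) : F0)) ∧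
    (∀ s : ssl_locSub F0 𝔫, ∃ r : ssl_locSub F0 𝔫, (r : F0) ∈ K1 ∧ s - r ∈ Ideal.span {a}) ∧
    (∀ s : ssl_locSub F0 𝔫, ∃ r : ssl_locSub F0 𝔫, (r : F0) ∈ K1 ∧ s - r ∈ Ideal.span {c}) ∧
    (∀ s : ssl_locSub F0 𝔫, ∃ r : ssl_locSub F0 𝔫, (r : F0) ∈ K2 ∧ s - r ∈ Ideal.span {b}) ∧
    (∀ s : ssl_locSub F0 𝔫, ∃ r : ssl_locSub F0 𝔫, (r : F0) ∈ K2 ∧ s - r ∈ Ideal.span {c})

/-- **GLOBAL NORM DATA** at the three vertical valuations `V 0 = VA`, `V 1 = VB`, `V 2 = VC`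
(`q = p + 1`): `N₁` takes values in `K₁`, `VA` and `VC` have the same restriction to `K₁`,
(nB) `N₁ x ≡ x ^ q` at `VB`, (nC1) `x ≡ r` at `VA`, `r ∈ K₁` ⟹ `N₁ x ≡ r x ^ p` at `VC`; and the
mirror statements for `N₂`, `K₂` with `A` and `B` exchanged. -/
structure s36g_NormData (V : Fin 3 → ValuationSubring F0) (p : ℕ) (N1 N2 : F0 →* F0)
    (K1 K2 : Subfield F0) : Prop where
  hN1K : ∀ x, N1 x ∈ K1
  hN2K : ∀ x, N2 x ∈ K2
  hAC1 : ∀ z ∈ K1, z ∈ (V 2).nonunits → z ∈ (V 0).nonunits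
  hBC2 : ∀ z ∈ K2, z ∈ (V 2).nonunits → z ∈ (V 1).nonunits
  hnB1 : ∀ x ∈ V 1, N1 x - x ^ (p + 1) ∈ (V 1).nonunits
  hnA2 : ∀ x ∈ V 0, N2 x - x ^ (p + 1) ∈ (V 0).nonunits
  hnC1 : ∀ x, x ∈ V 0 → x ∈ V 2 → ∀ r ∈ K1, r ∈ V 0 → x - r ∈ (V 0).nonunits →
    N1 x - r * x ^ p ∈ (V 2).nonunits
  hnC2 : ∀ x, x ∈ V 1 → x ∈ V 2 → ∀ r ∈ K2, r ∈ V 1 → x - r ∈ (V 1).nonunits →
    N2 x - r * x ^ p ∈ (V 2).nonunits

/-- **THE DATUM** fed to the gluing: `f ≡ 1` at the three vertical valuations, `N_i f = c_i h_iᵐ`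
with unit constants, `h₁ ≡ ν_F` at `VA` and `VC`, `≡ ν_V` at `VB`, `h₂ ≡ ν_G` at `VA`, `≡ ν_U` at
`VB` and `VC`, and `u₀` congruent to the vertex potentials
`κ_A = (ν_V ν_U)^p ν_F^(p+1) ν_U`, `κ_B = (ν_F ν_G)^p ν_F^(p+1) ν_U`,
`κ_C = ν_V^(p+1) ν_G (ν_F ν_G)^p`. -/
structure s36g_Datum (V : Fin 3 → ValuationSubring F0) (p m : ℕ) (N1 N2 : F0 →* F0)
    (f h1 h2 u₀ : F0) (c1 c2 νF νV νG νU : A0) : Prop where
  hf0 : f ≠ 0
  hf1 : ∀ i, f - 1 ∈ (V i).nonunits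
  hc1 : IsUnit c1
  hc2 : IsUnit c2
  hh1 : h1 ≠ 0
  hh2 : h2 ≠ 0
  hN1f : N1 f = algebraMap A0 F0 c1 * h1 ^ m
  hN2f : N2 f = algebraMap A0 F0 c2 * h2 ^ m
  hνF : IsUnit νF
  hνV : IsUnit νV
  hνG : IsUnit νG
  hνU : IsUnit νU
  hh1A : h1 - algebraMap A0 F0 νF ∈ (V 0).nonunits
  hh1C : h1 - algebraMap A0 F0 νF ∈ (V 2).nonunits
  hh1B : h1 - algebraMap A0 F0 νV ∈ (V 1).nonunits
  hh2A : h2 - algebraMap A0 F0 νG ∈ (V 0).nonunits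
  hh2B : h2 - algebraMap A0 F0 νU ∈ (V 1).nonunits
  hh2C : h2 - algebraMap A0 F0 νU ∈ (V 2).nonunits
  hu0 : u₀ - algebraMap A0 F0 ((νV * νU) ^ p * (νF ^ (p + 1) * νU)) ∈ (V 0).nonunits
  hu1 : u₀ - algebraMap A0 F0 ((νF * νG) ^ p * (νF ^ (p + 1) * νU)) ∈ (V 1).nonunits
  hu2 : u₀ - algebraMap A0 F0 ((νV ^ (p + 1) * νG) * (νF * νG) ^ p) ∈ (V 2).nonunits

/-- the three vertex potentials -/
def s36g_kappa (p : ℕ) (νF νV νG νU : A0) : Fin 3 → A0 :=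
  ![(νV * νU) ^ p * (νF ^ (p + 1) * νU), (νF * νG) ^ p * (νF ^ (p + 1) * νU),
    (νV ^ (p + 1) * νG) * (νF * νG) ^ p]

theorem s36g_kappa_isUnit {p : ℕ} {νF νV νG νU : A0} (hF : IsUnit νF) (hV : IsUnit νV)
    (hG : IsUnit νG) (hU : IsUnit νU) (i : Fin 3) : IsUnit (s36g_kappa p νF νV νG νU i) := by
  fin_cases i
  · exact ((hV.mul hU).pow p).mul ((hF.pow _).mul hU)
  · exact ((hF.mul hG).pow p).mul ((hF.pow _).mul hU)
  · exact ((hV.pow _).mul hG).mul ((hF.mul hG).pow p)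

theorem s36g_Datum.hu {V : Fin 3 → ValuationSubring F0} {p m : ℕ} {N1 N2 : F0 →* F0}
    {f h1 h2 u₀ : F0} {c1 c2 νF νV νG νU : A0}
    (D : s36g_Datum V p m N1 N2 f h1 h2 u₀ c1 c2 νF νV νG νU) (i : Fin 3) :
    u₀ - algebraMap A0 F0 (s36g_kappa p νF νV νG νU i) ∈ (V i).nonunits := by
  fin_cases i
  · exact D.hu0
  · exact D.hu1
  · exact D.hu2

end Defs

section HlocOps

variable {A0 : Type*} [CommRing A0] {F0 : Type v} [Field F0] [Algebra A0 F0]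
  {B : Subalgebra A0 F0}

/-- the local hypothesis of `sfc_main` is stable under powers. -/
theorem s36g_hloc_pow (π : A0) (𝔫 : Ideal B) [h𝔫 : 𝔫.IsPrime] {m : ℕ} {G : F0}
    (h : ∃ (b1 : B) (h : F0), b1 ∉ 𝔫 ∧ h ^ m * G ∈ B ∧
      h - (b1 : F0) ∈ sfc_piO B.toSubring (algebraMap A0 F0 π)) (n : ℕ) :
    ∃ (b1 : B) (h : F0), b1 ∉ 𝔫 ∧ h ^ m * G ^ n ∈ B ∧
      h - (b1 : F0) ∈ sfc_piO B.toSubring (algebraMap A0 F0 π) := by
  obtain ⟨b1, h, hb1, hB, y, hy, hyeq⟩ := h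
  refine ⟨b1 ^ n, h ^ n, fun hc => hb1 (h𝔫.mem_of_pow_mem n hc), ?_, ?_⟩
  · have e : (h ^ n) ^ m * G ^ n = (h ^ m * G) ^ n := by ring
    rw [e]
    exact B.pow_mem hB n
  · have hϖO : algebraMap A0 F0 π ∈ sfc_O B.toSubring (algebraMap A0 F0 π) :=
      sfc_le_O (R := B.toSubring) (B.algebraMap_mem π)
    have hb1O : (b1 : F0) ∈ sfc_O B.toSubring (algebraMap A0 F0 π) :=
      sfc_le_O (R := B.toSubring) b1.2
    have hhO : h ∈ sfc_O B.toSubring (algebraMap A0 F0 π) := by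
      have e : h = (b1 : F0) + algebraMap A0 F0 π * y := by rw [← hyeq]; ring
      rw [e]
      exact add_mem hb1O (mul_mem hϖO hy)
    refine ⟨y * ∑ i ∈ Finset.range n, h ^ i * (b1 : F0) ^ (n - 1 - i),
      mul_mem hy (sum_mem fun i _ => mul_mem (pow_mem hhO i) (pow_mem hb1O _)), ?_⟩
    have hgeom := (Commute.all h (b1 : F0)).geom_sum₂_mul n
    have e2 : ((b1 ^ n : B) : F0) = (b1 : F0) ^ n := rfl
    rw [e2, ← hgeom, hyeq]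
    ring

/-- the local hypothesis of `sfc_main` is stable under multiplication by a constant of `A0`. -/
theorem s36g_hloc_const (π : A0) (𝔫 : Ideal B) {m : ℕ} {G : F0} (c : A0)
    (h : ∃ (b1 : B) (h : F0), b1 ∉ 𝔫 ∧ h ^ m * G ∈ B ∧
      h - (b1 : F0) ∈ sfc_piO B.toSubring (algebraMap A0 F0 π)) :
    ∃ (b1 : B) (h : F0), b1 ∉ 𝔫 ∧ h ^ m * (algebraMap A0 F0 c * G) ∈ B ∧
      h - (b1 : F0) ∈ sfc_piO B.toSubring (algebraMap A0 F0 π) := by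
  obtain ⟨b1, h, hb1, hB, hpi⟩ := h
  refine ⟨b1, h, hb1, ?_, hpi⟩
  have e : h ^ m * (algebraMap A0 F0 c * G) = algebraMap A0 F0 c * (h ^ m * G) := by ring
  rw [e]
  exact B.mul_mem (B.algebraMap_mem c) hB

end HlocOps

section ValLemmas

variable {F : Type*} [Field F]

/-- `y ≡ c mod 𝔪(V)`, `c ∈ V` ⟹ `y ^ n ≡ c ^ n`. -/
theorem s36g_pow_sub_pow_mem (V : ValuationSubring F) {y c : F} (hy : y - c ∈ V.nonunits)
    (hc : c ∈ V) (n : ℕ) : y ^ n - c ^ n ∈ V.nonunits := by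
  have hyV : y ∈ V := by
    have : y = (y - c) + c := by ring
    rw [this]; exact V.add_mem _ _ (ValuationSubring.nonunits_subset hy) hc
  have hgeom := (Commute.all y c).geom_sum₂_mul n
  rw [← hgeom, mul_comm]
  exact s36g_nonunits_mul_mem V hy
    (sum_mem fun i _ => V.mul_mem _ _ (V.pow_mem hyV i) (V.pow_mem hc _))

end ValLemmas

section ChartPt

variable {A0 : Type*} [CommRing A0] {F0 : Type v} [Field F0] [Algebra A0 F0]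
variable {B : Subalgebra A0 F0} [IsFractionRing B F0] [IsNoetherianRing B] [IsIntegrallyClosed B]

/-- the image in `F0` of a constant, through `B` and `B_𝔫`. -/
theorem s36g_coe_const (𝔫 : Ideal B) [𝔫.IsPrime] (c : A0) :
    ((algebraMap B (ssl_locSub F0 𝔫) (algebraMap A0 B c) : ssl_locSub F0 𝔫) : F0) =
      algebraMap A0 F0 c := rfl

/-- the image in `B_𝔫` of a unit constant is a unit. -/
theorem s36g_const_isUnit (𝔫 : Ideal B) [𝔫.IsPrime] {c : A0} (hc : IsUnit c) :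
    IsUnit (algebraMap B (ssl_locSub F0 𝔫) (algebraMap A0 B c)) :=
  (hc.map (algebraMap A0 B)).map (algebraMap B (ssl_locSub F0 𝔫))

/-- `ϖ ∣ q` in `B_𝔫`. -/
theorem s36g_dvd_natCast (𝔫 : Ideal B) [𝔫.IsPrime] {π : A0} {n : ℕ} (h : π ∣ (n : A0)) :
    algebraMap B (ssl_locSub F0 𝔫) (algebraMap A0 B π) ∣ (n : ssl_locSub F0 𝔫) := by
  obtain ⟨t, ht⟩ := h
  refine ⟨algebraMap B (ssl_locSub F0 𝔫) (algebraMap A0 B t), ?_⟩
  rw [← map_mul, ← map_mul, ← ht, map_natCast, map_natCast]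

/-- **Step A, ONE-BRANCH point.** -/
theorem s36g_locAt_one (π : A0) (hϖ0 : algebraMap A0 F0 π ≠ 0) {p : ℕ} (hq : (p + 1).Prime)
    (hqπ : π ∣ ((p + 1 : ℕ) : A0)) (V : Fin 3 → ValuationSubring F0) (P : Fin 3 → Ideal B)
    (hPp : ∀ i, (P i).IsPrime) (hϖP : ∀ i, algebraMap A0 B π ∈ P i)
    (hPle : ∀ Q : Ideal B, Q.IsPrime → algebraMap A0 B π ∈ Q → ∃ i, P i ≤ Q)
    (hBV : ∀ i (b : B), (b : F0) ∈ V i)
    (hP : ∀ i (b : B), b ∈ P i ↔ (b : F0) ∈ (V i).nonunits)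
    (hV : ∀ i, ∀ z ∈ V i, ∃ t : B, t ∉ P i ∧ (t : F0) * z ∈ B)
    (𝔫 : Ideal B) [h𝔫 : 𝔫.IsPrime] (hπ𝔫 : algebraMap A0 B π ∈ 𝔫)
    (hpt : s36g_PtOne π (p + 1) B 𝔫) {m : ℕ} (hm : 0 < m)
    {N1 N2 : F0 →* F0} {f h1 h2 u₀ : F0} {c1 c2 νF νV νG νU : A0}
    (D : s36g_Datum V p m N1 N2 f h1 h2 u₀ c1 c2 νF νV νG νU)
    (hdiv : ∀ 𝔮 : Ideal (ssl_locSub F0 𝔫),
      ssl_Horiz (algebraMap B (ssl_locSub F0 𝔫) (algebraMap A0 B π)) 𝔮 →
        ∃ G : F0, G ≠ 0 ∧ ssl_UnitAt F0 𝔮 (f / G ^ m)) :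
    ∃ (b1 : B) (h : F0), b1 ∉ 𝔫 ∧ h ^ m * (f ^ (p * (p + 2)) * u₀ ^ m) ^ (p + 1) ^ 2 ∈ B ∧
      h - (b1 : F0) ∈ sfc_piO B.toSubring (algebraMap A0 F0 π) := by
  obtain ⟨hufd, u, e, he, heq, hu, hassoc, hic⟩ := hpt
  haveI := hufd
  have hprime : (Ideal.span {u}).IsPrime := (Ideal.span_singleton_prime hu.ne_zero).2 hu
  have hϖB0 : algebraMap A0 B π ≠ 0 := by
    intro h0
    apply hϖ0
    have : ((algebraMap A0 B π : B) : F0) = 0 := by rw [h0]; rfl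
    exact this
  have huϖ : u ∣ algebraMap B (ssl_locSub F0 𝔫) (algebraMap A0 B π) :=
    (dvd_pow_self u he).trans hassoc.symm.dvd
  obtain ⟨i, hi⟩ := s36g_exists_link 𝔫 P hPp (algebraMap A0 B π) hϖB0 hϖP hPle u hu huϖ
  have hf1 : s36g_MemM (Ideal.span {u}) (f - 1) :=
    s36g_memM_of_nonunits 𝔫 (V i) (P i) (hBV i) (hP i) (hV i) u hi (D.hf1 i)
  set κ : ssl_locSub F0 𝔫 :=
    algebraMap B (ssl_locSub F0 𝔫) (algebraMap A0 B (s36g_kappa p νF νV νG νU i)) with hκdef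
  have hκu : IsUnit κ := s36g_const_isUnit 𝔫 (s36g_kappa_isUnit D.hνF D.hνV D.hνG D.hνU i)
  have hκ : s36g_MemM (Ideal.span {u}) (u₀ - ((κ : ssl_locSub F0 𝔫) : F0)) := by
    rw [hκdef, s36g_coe_const]
    exact s36g_memM_of_nonunits 𝔫 (V i) (P i) (hBV i) (hP i) (hV i) u hi (D.hu i)
  have hκn : κ ∉ Ideal.span {u} := fun hc => hprime.ne_top (Ideal.eq_top_of_isUnit_mem _ hc hκu)
  have hu₀ : ssl_UnitAt F0 (Ideal.span {u}) u₀ :=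
    s36g_unitAt_of_memM_sub (Ideal.span {u}) hκn hκ
  exact s36g_hloc_one_tw π hϖ0 𝔫 hπ𝔫 hq (s36g_dvd_natCast 𝔫 hqπ) u e he hu hassoc hic m hm D.hf0
    hdiv hf1 hu₀ κ hκ (p * (p + 2)) 2 heq

/-- `hdiv` passes from `f` to `f ^ n · wᵐ`. -/
theorem s36g_hdiv_twist {R : Type*} [CommRing R] [Algebra R F0] {ϖR : R} {m : ℕ} {f : F0}
    (hdiv : ∀ 𝔮 : Ideal R, ssl_Horiz ϖR 𝔮 → ∃ G : F0, G ≠ 0 ∧ ssl_UnitAt F0 𝔮 (f / G ^ m))
    (n : ℕ) {w : F0} (hw : w ≠ 0) (𝔮 : Ideal R) (h𝔮 : ssl_Horiz ϖR 𝔮) :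
    ∃ G : F0, G ≠ 0 ∧ ssl_UnitAt F0 𝔮 (f ^ n * w ^ m / G ^ m) := by
  obtain ⟨G, hG, hu⟩ := hdiv 𝔮 h𝔮
  haveI := h𝔮.1
  refine ⟨G ^ n * w, mul_ne_zero (pow_ne_zero n hG) hw, ?_⟩
  have e : f ^ n * w ^ m / (G ^ n * w) ^ m = (f / G ^ m) ^ n := by
    have hGm : G ^ m ≠ 0 := pow_ne_zero m hG
    have hwm : w ^ m ≠ 0 := pow_ne_zero m hw
    rw [div_pow, mul_pow, ← pow_mul, ← pow_mul, mul_comm n m, div_eq_div_iff
      (mul_ne_zero (pow_ne_zero _ hG) hwm) (pow_ne_zero _ hG)]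
    ring
  rw [e]
  exact ssl_unitAt_pow 𝔮 hu n

/-- **Step A, WEAK one-component point.** -/
theorem s36g_locAt_weak (π : A0) {p : ℕ} (V : Fin 3 → ValuationSubring F0) (P : Fin 3 → Ideal B)
    (hPp : ∀ i, (P i).IsPrime) (hϖP : ∀ i, algebraMap A0 B π ∈ P i)
    (hPle : ∀ Q : Ideal B, Q.IsPrime → algebraMap A0 B π ∈ Q → ∃ i, P i ≤ Q)
    (hBV : ∀ i (b : B), (b : F0) ∈ V i)
    (hP : ∀ i (b : B), b ∈ P i ↔ (b : F0) ∈ (V i).nonunits)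
    (hV : ∀ i, ∀ z ∈ V i, ∃ t : B, t ∉ P i ∧ (t : F0) * z ∈ B) (D1 : ℕ)
    (𝔫 : Ideal B) [h𝔫 : 𝔫.IsPrime] (hpt : s36g_PtWeak π (p + 1) D1 B 𝔫) {m : ℕ}
    (hqm : ¬ (p + 1) ∣ m) {N1 N2 : F0 →* F0} {f h1 h2 u₀ : F0} {c1 c2 νF νV νG νU : A0}
    (D : s36g_Datum V p m N1 N2 f h1 h2 u₀ c1 c2 νF νV νG νU)
    (hdiv : ∀ 𝔮 : Ideal (ssl_locSub F0 𝔫),
      ssl_Horiz (algebraMap B (ssl_locSub F0 𝔫) (algebraMap A0 B π)) 𝔮 →
        ∃ G : F0, G ≠ 0 ∧ ssl_UnitAt F0 𝔮 (f / G ^ m)) :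
    ∃ (b1 : B) (h : F0), b1 ∉ 𝔫 ∧
      h ^ m * (f ^ (p * (p + 2)) * u₀ ^ m) ^ ((p + 1) ^ 2 * D1) ∈ B ∧
      h - (b1 : F0) ∈ sfc_piO B.toSubring (algebraMap A0 F0 π) := by
  obtain ⟨QC, hQCp, hϖQ, hmin, hW⟩ := hpt
  obtain ⟨i, hi⟩ := s36g_exists_link_min 𝔫 P hPp (algebraMap A0 B π) hϖP hPle QC hϖQ hmin
  set k : A0 := s36g_kappa p νF νV νG νU i with hk
  have hku : IsUnit k := s36g_kappa_isUnit D.hνF D.hνV D.hνG D.hνU i
  obtain ⟨ku, hkuk⟩ := hku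
  -- the constant and its inverse lie in `V i`
  have hkV : algebraMap A0 F0 k ∈ V i := hBV i (algebraMap A0 B k)
  have hkinvV : (algebraMap A0 F0 k)⁻¹ ∈ V i := by
    have e : (algebraMap A0 F0 k)⁻¹ = algebraMap A0 F0 ((ku⁻¹ : A0ˣ) : A0) := by
      apply inv_eq_of_mul_eq_one_right
      rw [← map_mul, ← hkuk, Units.mul_inv, map_one]
    rw [e]
    exact hBV i (algebraMap A0 B _)
  have hk0 : algebraMap A0 F0 k ≠ 0 := by
    intro h0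
    rw [h0, inv_zero] at hkinvV
    have h1 : (algebraMap A0 F0 k) * (algebraMap A0 F0 ((ku⁻¹ : A0ˣ) : A0)) = 1 := by
      rw [← map_mul, ← hkuk, Units.mul_inv, map_one]
    rw [h0, zero_mul] at h1
    exact zero_ne_one h1
  -- `w := u₀ / κ ≡ 1`
  set w : F0 := u₀ * (algebraMap A0 F0 k)⁻¹ with hw
  have hw1 : w - 1 ∈ (V i).nonunits := by
    have e : w - 1 = (u₀ - algebraMap A0 F0 k) * (algebraMap A0 F0 k)⁻¹ := by
      rw [hw]; field_simp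
    rw [e]
    exact s36g_nonunits_mul_mem (V i) (D.hu i) hkinvV
  have hw0 : w ≠ 0 := by
    intro h0
    rw [h0, zero_sub] at hw1
    have : (1 : F0) ∈ (V i).nonunits := by
      have := (V i).nonunits.neg_mem hw1
      rwa [neg_neg] at this
    rw [ValuationSubring.mem_nonunits_iff, map_one] at this
    exact lt_irrefl _ this
  set fX : F0 := f ^ (p * (p + 2)) * w ^ m with hfX
  have hfX0 : fX ≠ 0 := mul_ne_zero (pow_ne_zero _ D.hf0) (pow_ne_zero _ hw0)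
  have hfX1 : fX - 1 ∈ (V i).nonunits :=
    s36g_mul_sub_one_mem (V i) (s36g_pow_sub_one_mem_nonunits (V i) (D.hf1 i) _)
      (s36g_pow_sub_one_mem_nonunits (V i) hw1 _)
  have hfXM : s36g_MemM QC (fX - 1) :=
    s36g_memM_of_nonunits' 𝔫 (V i) (P i) (hBV i) (hP i) (hV i) QC hi hfX1
  have h1 := hW m hqm fX hfX0 (fun 𝔮 h𝔮 => s36g_hdiv_twist hdiv _ hw0 𝔮 h𝔮) hfXM
  have h2 := s36g_hloc_pow π 𝔫 h1 ((p + 1) ^ 2)
  have h3 := s36g_hloc_const π 𝔫 (k ^ (m * ((p + 1) ^ 2 * D1))) h2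
  have e : (f ^ (p * (p + 2)) * u₀ ^ m) ^ ((p + 1) ^ 2 * D1) =
      algebraMap A0 F0 (k ^ (m * ((p + 1) ^ 2 * D1))) * (fX ^ D1) ^ (p + 1) ^ 2 := by
    rw [hfX, hw, map_pow]
    have : u₀ = (u₀ * (algebraMap A0 F0 k)⁻¹) * algebraMap A0 F0 k := by field_simp
    conv_lhs => rw [this]
    ring
  rw [e]
  exact h3

theorem s36g_forall_fin3 {Q : Fin 3 → Prop} (h0 : Q 0) (h1 : Q 1) (h2 : Q 2) : ∀ j, Q j := by
  intro j
  fin_cases j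
  · exact h0
  · exact h1
  · exact h2

/-- **Step A, TRIPLE point.** -/
theorem s36g_locAt_tri (π : A0) (hϖ0 : algebraMap A0 F0 π ≠ 0) {p : ℕ} (hq : (p + 1).Prime)
    (hqπ : π ∣ ((p + 1 : ℕ) : A0)) (V : Fin 3 → ValuationSubring F0) (P : Fin 3 → Ideal B)
    (hPinj : ∀ i j, P i = P j → i = j)
    (hBV : ∀ i (b : B), (b : F0) ∈ V i)
    (hP : ∀ i (b : B), b ∈ P i ↔ (b : F0) ∈ (V i).nonunits)
    (hV : ∀ i, ∀ z ∈ V i, ∃ t : B, t ∉ P i ∧ (t : F0) * z ∈ B)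
    {N1 N2 : F0 →* F0} {K1 K2 : Subfield F0} (ND : s36g_NormData V p N1 N2 K1 K2)
    (𝔫 : Ideal B) [h𝔫 : 𝔫.IsPrime] (hπ𝔫 : algebraMap A0 B π ∈ 𝔫)
    (hpt : s36g_PtTri π p N1 N2 K1 K2 B (P 0) (P 1) (P 2) 𝔫) {m : ℕ} (hm : 0 < m)
    {f h1 h2 u₀ : F0} {c1 c2 νF νV νG νU : A0}
    (D : s36g_Datum V p m N1 N2 f h1 h2 u₀ c1 c2 νF νV νG νU)
    (hdiv : ∀ 𝔮 : Ideal (ssl_locSub F0 𝔫),
      ssl_Horiz (algebraMap B (ssl_locSub F0 𝔫) (algebraMap A0 B π)) 𝔮 →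
        ∃ G : F0, G ≠ 0 ∧ ssl_UnitAt F0 𝔮 (f / G ^ m)) :
    ∃ (b1 : B) (h : F0), b1 ∉ 𝔫 ∧ h ^ m * (f ^ (p * (p + 2)) * u₀ ^ m) ^ (p + 1) ^ 2 ∈ B ∧
      h - (b1 : F0) ∈ sfc_piO B.toSubring (algebraMap A0 F0 π) := by
  obtain ⟨hufd, a, b, c, ha, hb, hc, hassoc, hab, hac, hbc, hcA, hcB, hcC, hN1u, hN2u, hsA1, hsC1,
    hsB2, hsC2⟩ := hpt
  haveI := hufd
  haveI : IsLocalRing (ssl_locSub F0 𝔫) := ssl_loc_isLocalRing 𝔫
  haveI : IsNoetherianRing (ssl_locSub F0 𝔫) := ssl_loc_isNoetherianRing 𝔫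
  haveI : IsIntegrallyClosed (ssl_locSub F0 𝔫) := ssl_loc_isIntegrallyClosed 𝔫
  have hmax : 𝔫.map (algebraMap B (ssl_locSub F0 𝔫)) =
      IsLocalRing.maximalIdeal (ssl_locSub F0 𝔫) :=
    IsLocalization.AtPrime.map_eq_maximalIdeal 𝔫 (ssl_locSub F0 𝔫)
  have hmtop : 𝔫.map (algebraMap B (ssl_locSub F0 𝔫)) ≠ ⊤ := by
    rw [hmax]; exact (IsLocalRing.maximalIdeal.isMaximal _).ne_top
  -- the links
  have lA : s36g_Link (F := F0) a (V 0) :=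
    s36g_link_of_comap 𝔫 (V 0) (P 0) (hBV 0) (hP 0) (hV 0) a ha hcA
  have lB : s36g_Link (F := F0) b (V 1) :=
    s36g_link_of_comap 𝔫 (V 1) (P 1) (hBV 1) (hP 1) (hV 1) b hb hcB
  have lC : s36g_Link (F := F0) c (V 2) :=
    s36g_link_of_comap 𝔫 (V 2) (P 2) (hBV 2) (hP 2) (hV 2) c hc hcC
  -- the branches
  set u : Fin 3 → ssl_locSub F0 𝔫 := ![a, b, c] with hudef
  set e : Fin 3 → ℕ := ![1, 1, p] with hedef
  have hu : ∀ j, Prime (u j) := s36g_forall_fin3 ha hb hc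
  have hlink : ∀ j, s36g_Link (F := F0) (u j) (V j) := s36g_forall_fin3 lA lB lC
  have hcomap : ∀ j, (Ideal.span {u j}).comap (algebraMap B (ssl_locSub F0 𝔫)) = P j :=
    s36g_forall_fin3 hcA hcB hcC
  have hna : ∀ i j, i ≠ j → ¬ Associated (u i) (u j) := by
    intro i j hij hass
    apply hij
    apply hPinj
    rw [← hcomap i, ← hcomap j, Ideal.span_singleton_eq_span_singleton.2 hass]
  have hπ : Associated (algebraMap B (ssl_locSub F0 𝔫) (algebraMap A0 B π))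
      (∏ j, u j ^ e j) := by
    have e1 : ∏ j, u j ^ e j = a * b * c ^ p := by
      rw [Fin.prod_univ_three]
      simp [hudef, hedef]
    rw [e1]; exact hassoc
  have ha𝔪 : a ∈ 𝔫.map (algebraMap B (ssl_locSub F0 𝔫)) := by
    rw [hab]; exact Ideal.subset_span (by simp)
  have hb𝔪 : b ∈ 𝔫.map (algebraMap B (ssl_locSub F0 𝔫)) := by
    rw [hab]; exact Ideal.subset_span (by simp)
  have hc𝔪 : c ∈ 𝔫.map (algebraMap B (ssl_locSub F0 𝔫)) := by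
    rw [hac]; exact Ideal.subset_span (by simp)
  have hpair : ∀ x y : ssl_locSub F0 𝔫,
      𝔫.map (algebraMap B (ssl_locSub F0 𝔫)) = Ideal.span {x, y} →
      𝔫.map (algebraMap B (ssl_locSub F0 𝔫)) ≤ Ideal.span {x} ⊔ Ideal.span {y} ∧
        𝔫.map (algebraMap B (ssl_locSub F0 𝔫)) ≤ Ideal.span {y} ⊔ Ideal.span {x} := by
    intro x y h
    have h1 : Ideal.span ({x, y} : Set (ssl_locSub F0 𝔫)) = Ideal.span {x} ⊔ Ideal.span {y} :=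
      Ideal.span_insert x {y}
    constructor
    · rw [h, h1]
    · rw [h, h1, sup_comm]
  have htr : ∀ i j, i ≠ j → 𝔫.map (algebraMap B (ssl_locSub F0 𝔫)) ≤
      Ideal.span {u i} ⊔ Ideal.span {u j} := by
    intro i j hij
    fin_cases i <;> fin_cases j
    · exact absurd rfl hij
    · exact (hpair a b hab).1
    · exact (hpair a c hac).1
    · exact (hpair a b hab).2
    · exact absurd rfl hij
    · exact (hpair b c hbc).1
    · exact (hpair a c hac).2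
    · exact (hpair b c hbc).2
    · exact absurd rfl hij
  have hsm : ∀ j, IsIntegrallyClosed (ssl_locSub F0 𝔫 ⧸ Ideal.span {u j}) := by
    have m1 : IsLocalRing.maximalIdeal (ssl_locSub F0 𝔫) = Ideal.span {a, b} := by
      rw [← hmax, hab]
    have m2 : IsLocalRing.maximalIdeal (ssl_locSub F0 𝔫) = Ideal.span {b, a} := by
      rw [← hmax, hab, Set.pair_comm]
    have m3 : IsLocalRing.maximalIdeal (ssl_locSub F0 𝔫) = Ideal.span {c, a} := by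
      rw [← hmax, hac, Set.pair_comm]
    exact s36g_forall_fin3 (s36g_ic_quot_of_span_pair (a := a) (b := b) ha m1)
      (s36g_ic_quot_of_span_pair (a := b) (b := a) hb m2)
      (s36g_ic_quot_of_span_pair (a := c) (b := a) hc m3)
  have hf1 : ∀ j, s36g_MemM (Ideal.span {u j}) (f - 1) :=
    fun j => (hlink j).memM_iff.2 (D.hf1 j)
  -- the constants
  set cR : A0 → ssl_locSub F0 𝔫 :=
    fun x => algebraMap B (ssl_locSub F0 𝔫) (algebraMap A0 B x) with hcR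
  have hcRu : ∀ {x : A0}, IsUnit x → IsUnit (cR x) := fun hx => s36g_const_isUnit 𝔫 hx
  have hcRn : ∀ {x : A0}, IsUnit x → cR x ∉ 𝔫.map (algebraMap B (ssl_locSub F0 𝔫)) :=
    fun hx hmem => hmtop (Ideal.eq_top_of_isUnit_mem _ hmem (hcRu hx))
  have hcRcoe : ∀ x : A0, ((cR x : ssl_locSub F0 𝔫) : F0) = algebraMap A0 F0 x := fun x => rfl
  have hN1f : N1 f = ((((hcRu D.hc1).unit : (ssl_locSub F0 𝔫)ˣ) : ssl_locSub F0 𝔫) : F0) *
      h1 ^ m := by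
    rw [IsUnit.unit_spec, hcRcoe]; exact D.hN1f
  have hN2f : N2 f = ((((hcRu D.hc2).unit : (ssl_locSub F0 𝔫)ˣ) : ssl_locSub F0 𝔫) : F0) *
      h2 ^ m := by
    rw [IsUnit.unit_spec, hcRcoe]; exact D.hN2f
  -- the norm-residue formulas
  have hNR1 : ∀ (g : F0) (a' : Fin 3 → ssl_locSub F0 𝔫),
      (∀ j, ssl_UnitAt F0 (Ideal.span {u j}) g) →
      (∀ j, s36g_MemM (Ideal.span {u j}) (g - ((a' j : ssl_locSub F0 𝔫) : F0))) →
      ∃ nA nB : ssl_locSub F0 𝔫, s36g_MemM (Ideal.span {u 0}) (N1 g - (nA : F0)) ∧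
        nA - a' 0 * a' 2 ^ p ∈ 𝔫.map (algebraMap B (ssl_locSub F0 𝔫)) ∧
        s36g_MemM (Ideal.span {u 1}) (N1 g - (nB : F0)) ∧
        nB - a' 1 ^ (p + 1) ∈ 𝔫.map (algebraMap B (ssl_locSub F0 𝔫)) := by
    intro g a' hg hga
    exact s36g_hNR_of_val (F := F0) (𝔫.map (algebraMap B (ssl_locSub F0 𝔫))) ha hb hc lA lB lC
      ha𝔪 hc𝔪 N1 K1 ND.hN1K ND.hAC1 p ND.hnC1 ND.hnB1 hsA1 hsC1 (hg 0) (hg 1) (hg 2) (hga 0)
      (hga 1) (hga 2)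
  have hNR2 : ∀ (g : F0) (a' : Fin 3 → ssl_locSub F0 𝔫),
      (∀ j, ssl_UnitAt F0 (Ideal.span {u j}) g) →
      (∀ j, s36g_MemM (Ideal.span {u j}) (g - ((a' j : ssl_locSub F0 𝔫) : F0))) →
      ∃ nA nB : ssl_locSub F0 𝔫, s36g_MemM (Ideal.span {u 0}) (N2 g - (nA : F0)) ∧
        nA - a' 0 ^ (p + 1) ∈ 𝔫.map (algebraMap B (ssl_locSub F0 𝔫)) ∧
        s36g_MemM (Ideal.span {u 1}) (N2 g - (nB : F0)) ∧
        nB - a' 1 * a' 2 ^ p ∈ 𝔫.map (algebraMap B (ssl_locSub F0 𝔫)) := by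
    intro g a' hg hga
    obtain ⟨nX, nY, k1, k2, k3, k4⟩ :=
      s36g_hNR_of_val (F := F0) (𝔫.map (algebraMap B (ssl_locSub F0 𝔫))) hb ha hc lB lA lC
        hb𝔪 hc𝔪 N2 K2 ND.hN2K ND.hBC2 p ND.hnC2 ND.hnA2 hsB2 hsC2 (hg 1) (hg 0) (hg 2) (hga 1)
        (hga 0) (hga 2)
    exact ⟨nY, nX, k3, k4, k1, k2⟩
  -- the weak-approximation element
  set κ : Fin 3 → ssl_locSub F0 𝔫 := fun j => cR (s36g_kappa p νF νV νG νU j) with hκdef
  have hκ : ∀ j, s36g_MemM (Ideal.span {u j}) (u₀ - ((κ j : ssl_locSub F0 𝔫) : F0)) :=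
    fun j => (hlink j).memM_iff.2 (D.hu j)
  have hu₀ : ∀ j, ssl_UnitAt F0 (Ideal.span {u j}) u₀ := by
    intro j
    have hprime : (Ideal.span {u j}).IsPrime :=
      (Ideal.span_singleton_prime (hu j).ne_zero).2 (hu j)
    refine s36g_unitAt_of_memM_sub (Ideal.span {u j}) (a := κ j) ?_ (hκ j)
    intro hmem
    exact hprime.ne_top (Ideal.eq_top_of_isUnit_mem _ hmem
      (hcRu (s36g_kappa_isUnit D.hνF D.hνV D.hνG D.hνU j)))
  have hκ0 : κ 0 - (cR νV * cR νU) ^ p * (cR νF ^ (p + 1) * cR νU) ∈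
      𝔫.map (algebraMap B (ssl_locSub F0 𝔫)) := by
    have : κ 0 = (cR νV * cR νU) ^ p * (cR νF ^ (p + 1) * cR νU) := by
      simp [hκdef, hcR, s36g_kappa, map_mul, map_pow]
    rw [this, sub_self]; exact Ideal.zero_mem _
  have hκ1 : κ 1 - (cR νF * cR νG) ^ p * (cR νF ^ (p + 1) * cR νU) ∈
      𝔫.map (algebraMap B (ssl_locSub F0 𝔫)) := by
    have : κ 1 = (cR νF * cR νG) ^ p * (cR νF ^ (p + 1) * cR νU) := by
      simp [hκdef, hcR, s36g_kappa, map_mul, map_pow]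
    rw [this, sub_self]; exact Ideal.zero_mem _
  have hκ2 : κ 2 - (cR νV ^ (p + 1) * cR νG) * (cR νF * cR νG) ^ p ∈
      𝔫.map (algebraMap B (ssl_locSub F0 𝔫)) := by
    have : κ 2 = (cR νV ^ (p + 1) * cR νG) * (cR νF * cR νG) ^ p := by
      simp [hκdef, hcR, s36g_kappa, map_mul, map_pow]
    rw [this, sub_self]; exact Ideal.zero_mem _
  exact s36g_hloc_tri π hϖ0 𝔫 hπ𝔫 p hq (s36g_dvd_natCast 𝔫 hqπ) u e rfl rfl rfl hu hna hπ htr hsm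
    m hm D.hf0 hdiv hf1 N1 N2 hN1u hN2u (hcRu D.hc1).unit (hcRu D.hc2).unit D.hh1 D.hh2 hN1f hN2f
    (hcRn D.hνF) (hcRn D.hνV) (lA.memM_iff.2 D.hh1A) (lB.memM_iff.2 D.hh1B)
    (lA.memM_iff.2 D.hh2A) (lB.memM_iff.2 D.hh2B) hNR1 hNR2 hu₀ κ hκ hκ0 hκ1 hκ2

end ChartPt

section FF

open IntermediateField

variable {A0 L : Type*} {F0 : Type v} [CommRing A0] [IsDomain A0] [IsDiscreteValuationRing A0]
  [Field L] [Field F0] [Algebra A0 L] [IsFractionRing A0 L] [CharZero L] [Algebra L F0]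
  [Algebra A0 F0] [IsScalarTower A0 L F0]

set_option synthInstance.maxHeartbeats 200000 in
set_option maxHeartbeats 1600000 in
/-- **THE LOCAL HYPOTHESIS OF `sfc_main` AT ONE CLOSED POINT** of the chart `fc_chart A0 {y}` of a
function field, for `(f ^ (q² - 1) · u₀ᵐ) ^ (q² · D1)`, `q = p + 1`: the point is a one-branch
point, a weak one-component point or a triple point. -/
theorem s36g_locAt_pt {π : A0} (hπ : Irreducible π) {y : F0} (hy : Transcendental L y)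
    [FiniteDimensional L⟮y⟯ F0] [IsFractionRing ↥(fc_chart A0 ({y} : Set F0)) F0]
    {p : ℕ} (hq : (p + 1).Prime) (hqπ : π ∣ ((p + 1 : ℕ) : A0))
    {V : Fin 3 → ValuationSubring F0} {e : Fin 3 → ℕ}
    (H : s36tp_Hyp (algebraMap A0 (Algebra.adjoin A0 ({y} : Set F0)) π) V e)
    {N1 N2 : F0 →* F0} {K1 K2 : Subfield F0} (ND : s36g_NormData V p N1 N2 K1 K2)
    (D1 : ℕ) {m : ℕ} (hm : IsUnit (m : A0))
    {f h1 h2 u₀ : F0} {c1 c2 νF νV νG νU : A0}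
    (D : s36g_Datum V p m N1 N2 f h1 h2 u₀ c1 c2 νF νV νG νU)
    (hord : ∀ P : Place L F0, (m : ℤ) ∣ P.ord f)
    (𝔫 : Ideal (fc_chart A0 ({y} : Set F0))) (h𝔫 : 𝔫.IsMaximal)
    (hπ𝔫 : algebraMap A0 (fc_chart A0 ({y} : Set F0)) π ∈ 𝔫)
    (hpt : haveI := h𝔫.isPrime
      s36g_PtOne π (p + 1) (fc_chart A0 ({y} : Set F0)) 𝔫 ∨
      s36g_PtWeak π (p + 1) D1 (fc_chart A0 ({y} : Set F0)) 𝔫 ∨
      s36g_PtTri π p N1 N2 K1 K2 (fc_chart A0 ({y} : Set F0))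
        (ssm_tp_P (fc_chart A0 ({y} : Set F0)) (V 0)) (ssm_tp_P (fc_chart A0 ({y} : Set F0)) (V 1))
        (ssm_tp_P (fc_chart A0 ({y} : Set F0)) (V 2)) 𝔫) :
    ∃ (b1 : fc_chart A0 ({y} : Set F0)) (h : F0), b1 ∉ 𝔫 ∧
      h ^ m * (f ^ (p * (p + 2)) * u₀ ^ m) ^ ((p + 1) ^ 2 * D1) ∈ fc_chart A0 ({y} : Set F0) ∧
      h - (b1 : F0) ∈ sfc_piO (fc_chart A0 ({y} : Set F0)).toSubring (algebraMap A0 F0 π) := by
  haveI h𝔫p : 𝔫.IsPrime := h𝔫.isPrime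
  haveI hno := ssm_ths_chart_isNoetherianRing (A0 := A0) (L := L) hy
  haveI hic := ssm_ths_chart_isIntegrallyClosed (A0 := A0) (L := L) y
  have hyA : Transcendental A0 y := fc_ff_transcendental (L := L) hy
  haveI : IsIntegrallyClosed (Algebra.adjoin A0 ({y} : Set F0)) := fc_ff_isIntegrallyClosed hyA
  haveI : FaithfulSMul (Algebra.adjoin A0 ({y} : Set F0)) F0 :=
    (faithfulSMul_iff_algebraMap_injective _ _).2 Subtype.val_injective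
  have hC : ssm_tp_Chart (algebraMap A0 (Algebra.adjoin A0 ({y} : Set F0)) π)
      (fc_chart A0 ({y} : Set F0)) := ssm_tp_ff_chart (L := L) hπ hy
  have hϖ0 : algebraMap A0 F0 π ≠ 0 := H.algebraMap_ne_zero
  set P : Fin 3 → Ideal (fc_chart A0 ({y} : Set F0)) :=
    fun i => ssm_tp_P (fc_chart A0 ({y} : Set F0)) (V i) with hPdef
  have hPp : ∀ i, (P i).IsPrime := fun i => H.P_isPrime hC i
  have hϖP : ∀ i, algebraMap A0 (fc_chart A0 ({y} : Set F0)) π ∈ P i :=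
    fun i => H.pi_mem_P hC _ rfl i
  have hPle : ∀ Q : Ideal (fc_chart A0 ({y} : Set F0)), Q.IsPrime →
      algebraMap A0 (fc_chart A0 ({y} : Set F0)) π ∈ Q → ∃ i, P i ≤ Q :=
    fun Q hQ hϖQ => by
      haveI := hQ
      exact H.P_le_of_mem hC _ rfl Q hϖQ
  have hPinj : ∀ i j, P i = P j → i = j := fun i j h => H.P_not_le hC (le_of_eq h)
  have hBV : ∀ i (b : fc_chart A0 ({y} : Set F0)), (b : F0) ∈ V i :=
    fun i b => H.chart_le hC i b.2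
  have hP : ∀ i (b : fc_chart A0 ({y} : Set F0)), b ∈ P i ↔ (b : F0) ∈ (V i).nonunits :=
    fun i b => H.mem_P hC i
  have hV : ∀ i, ∀ z ∈ V i, ∃ t : fc_chart A0 ({y} : Set F0), t ∉ P i ∧
      (t : F0) * z ∈ fc_chart A0 ({y} : Set F0) := fun i z hz => (H.mem_V_iff hC i).1 hz
  have hm0 : 0 < m := by
    rcases Nat.eq_zero_or_pos m with h0 | h0
    · exfalso
      rw [h0, Nat.cast_zero] at hm
      exact not_isUnit_zero hm
    · exact h0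
  have hqm : ¬ (p + 1) ∣ m := by
    intro hd
    apply hπ.not_isUnit
    have h1 : ((p + 1 : ℕ) : A0) ∣ (m : A0) := Nat.cast_dvd_cast hd
    exact isUnit_of_dvd_unit (hqπ.trans h1) hm
  haveI := ssl_loc_isNoetherianRing (F0 := F0) 𝔫
  haveI := ssl_loc_isIntegrallyClosed (F0 := F0) 𝔫
  have hdiv : ∀ 𝔮 : Ideal (ssl_locSub F0 𝔫),
      ssl_Horiz (algebraMap (fc_chart A0 ({y} : Set F0)) (ssl_locSub F0 𝔫)
        (algebraMap A0 (fc_chart A0 ({y} : Set F0)) π)) 𝔮 →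
        ∃ G : F0, G ≠ 0 ∧ ssl_UnitAt F0 𝔮 (f / G ^ m) :=
    fun 𝔮 h𝔮 => ssl_hdiv_of_places (K := L) (R := ssl_locSub F0 𝔫) hπ D.hf0 m hord 𝔮 h𝔮
  rcases hpt with hpt | hpt | hpt
  · have h := s36g_locAt_one π hϖ0 hq hqπ V P hPp hϖP hPle hBV hP hV 𝔫 hπ𝔫 hpt hm0 D hdiv
    have h2 := s36g_hloc_pow π 𝔫 h D1
    rwa [← pow_mul] at h2
  · exact s36g_locAt_weak π V P hPp hϖP hPle hBV hP hV D1 𝔫 hpt hqm D hdiv
  · have h := s36g_locAt_tri π hϖ0 hq hqπ V P hPinj hBV hP hV ND 𝔫 hπ𝔫 hpt hm0 D hdiv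
    have h2 := s36g_hloc_pow π 𝔫 h D1
    rwa [← pow_mul] at h2

set_option synthInstance.maxHeartbeats 200000 in
set_option maxHeartbeats 1600000 in
/-- **THE LOCAL HYPOTHESES `hloc1`, `hloc2` OF `sfc_main` ON THE TWO CHARTS** `fc_chart A0 {x}`,
`fc_chart A0 {x⁻¹}` of a function field, for `(f ^ (q² - 1) · u₀ᵐ) ^ (q² · D1)`: every closed
point of the special fibre of the first chart, and every point at infinity of the second, is a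
one-branch point, a weak one-component point or a triple point. -/
theorem s36g_locAt_ff {π : A0} (hπ : Irreducible π) {x : F0} (hx : Transcendental L x)
    [FiniteDimensional L⟮x⟯ F0] [IsFractionRing ↥(fc_chart A0 ({x} : Set F0)) F0]
    [IsFractionRing ↥(fc_chart A0 ({x⁻¹} : Set F0)) F0]
    {p : ℕ} (hq : (p + 1).Prime) (hqπ : π ∣ ((p + 1 : ℕ) : A0))
    {V : Fin 3 → ValuationSubring F0} {e : Fin 3 → ℕ}
    (H : s36tp_Hyp (algebraMap A0 (Algebra.adjoin A0 ({x} : Set F0)) π) V e)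
    {N1 N2 : F0 →* F0} {K1 K2 : Subfield F0} (ND : s36g_NormData V p N1 N2 K1 K2)
    (D1 : ℕ)
    (hpts : ∀ (𝔫 : Ideal (fc_chart A0 ({x} : Set F0))) (h𝔫 : 𝔫.IsMaximal),
      algebraMap A0 (fc_chart A0 ({x} : Set F0)) π ∈ 𝔫 →
      (haveI := h𝔫.isPrime
       s36g_PtOne π (p + 1) (fc_chart A0 ({x} : Set F0)) 𝔫 ∨
       s36g_PtWeak π (p + 1) D1 (fc_chart A0 ({x} : Set F0)) 𝔫 ∨
       s36g_PtTri π p N1 N2 K1 K2 (fc_chart A0 ({x} : Set F0))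
        (ssm_tp_P (fc_chart A0 ({x} : Set F0)) (V 0)) (ssm_tp_P (fc_chart A0 ({x} : Set F0)) (V 1))
        (ssm_tp_P (fc_chart A0 ({x} : Set F0)) (V 2)) 𝔫))
    (hinf : ∀ (𝔫 : Ideal (fc_chart A0 ({x⁻¹} : Set F0))) (h𝔫 : 𝔫.IsMaximal),
      algebraMap A0 (fc_chart A0 ({x⁻¹} : Set F0)) π ∈ 𝔫 →
      (⟨x⁻¹, fc_x_mem_chart x⁻¹⟩ : fc_chart A0 ({x⁻¹} : Set F0)) ∈ 𝔫 →
      (haveI := h𝔫.isPrime
       s36g_PtOne π (p + 1) (fc_chart A0 ({x⁻¹} : Set F0)) 𝔫 ∨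
       s36g_PtWeak π (p + 1) D1 (fc_chart A0 ({x⁻¹} : Set F0)) 𝔫 ∨
       s36g_PtTri π p N1 N2 K1 K2 (fc_chart A0 ({x⁻¹} : Set F0))
        (ssm_tp_P (fc_chart A0 ({x⁻¹} : Set F0)) (V 0))
        (ssm_tp_P (fc_chart A0 ({x⁻¹} : Set F0)) (V 1))
        (ssm_tp_P (fc_chart A0 ({x⁻¹} : Set F0)) (V 2)) 𝔫))
    {m : ℕ} (hm : IsUnit (m : A0))
    {f h1 h2 u₀ : F0} {c1 c2 νF νV νG νU : A0}
    (D : s36g_Datum V p m N1 N2 f h1 h2 u₀ c1 c2 νF νV νG νU)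
    (hord : ∀ P : Place L F0, (m : ℤ) ∣ P.ord f) :
    tori_LocAt π m ((f ^ (p * (p + 2)) * u₀ ^ m) ^ ((p + 1) ^ 2 * D1))
        (fc_chart A0 ({x} : Set F0)) ∧
      tori_LocAt π m ((f ^ (p * (p + 2)) * u₀ ^ m) ^ ((p + 1) ^ 2 * D1))
        (fc_chart A0 ({x⁻¹} : Set F0)) := by
  have hx0 : x ≠ 0 := by
    rintro rfl
    exact hx isAlgebraic_zero
  have hxi : Transcendental L x⁻¹ := fun h => hx (IsAlgebraic.inv_iff.mp h)
  haveI hfd2 : FiniteDimensional L⟮x⁻¹⟯ F0 := by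
    rw [rt_adjoin_inv]; infer_instance
  have hm0 : m ≠ 0 := by
    rintro rfl
    rw [Nat.cast_zero] at hm
    exact not_isUnit_zero hm
  have h1 : tori_LocAt π m ((f ^ (p * (p + 2)) * u₀ ^ m) ^ ((p + 1) ^ 2 * D1))
      (fc_chart A0 ({x} : Set F0)) := fun 𝔫 h𝔫 hπ𝔫 =>
    s36g_locAt_pt (L := L) hπ hx hq hqπ H ND D1 hm D hord 𝔫 h𝔫 hπ𝔫 (hpts 𝔫 h𝔫 hπ𝔫)
  refine ⟨h1, ?_⟩
  have H' := s36tp_ff_hyp_inv (L := L) hπ hx H
  exact s35ti_locAt_chart2 π hx0 (sfc_ff_mem_S (L := L) hπ hx) (sfc_ff_mem_S (L := L) hπ hxi) m hm0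
    _ h1 fun 𝔫 h𝔫 hπ𝔫 hxn =>
      s36g_locAt_pt (L := L) hπ hxi hq hqπ H' ND D1 hm D hord 𝔫 h𝔫 hπ𝔫 (hinf 𝔫 h𝔫 hπ𝔫 hxn)

end FF

end Fermat.Agent.S36
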