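/-
Project S36 (Carayol), [L4] sub-assembly (helper24, NOTE 4 (C2)): THE POINT DISPATCH.

The hypotheses `hpts` / `hinf` of helper3's `s36g_hlocAll` / `s36g_locAt_ff` (every closed point of
the special fibre of `fc_chart A0 {x}`, and every point at infinity of `fc_chart A0 {x⁻¹}`, is a
ONE-BRANCH, WEAK or TRIPLE point) from the per-type producers:

* (A) points on the component `A` only  ⟹ `s36g_PtOne`   (helper17, [L3a]);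
* (B) points on the component `B` only  ⟹ `s36g_PtOne`   (helper17, [L3a]);
* (C) points on the component `C` only  ⟹ `s36g_PtOne ∨ s36g_PtWeak` ([L3b], [L3c], insurance);
* (T) points on at least two components ⟹ `s36g_PtTri`   ([L3d]).

The fact that every closed point of the special fibre lies on one of the three components is
helper24's `s36tp_Hyp.P_le_of_mem`.  Prefix `s36gd_`.
-/
import Mathlib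
import Fermat.Agent.S36.Glue.Main

set_option autoImplicit false
set_option linter.unusedSectionVars false
set_option linter.style.haveILetI false

namespace Fermat.Agent.S36

open Fermat.Agent.SS Fermat.Agent.JT3 Fermat.Agent.S35 AlgebraicCurve

universe v

section Point

variable {A0 : Type*} [CommRing A0] {F0 : Type v} [Field F0] [Algebra A0 F0]

/-- **The dispatch at one point** (pure logic). -/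
theorem s36gd_point {B : Subalgebra A0 F0} [IsFractionRing B F0] (π : A0) (q D1 p : ℕ)
    (N1 N2 : F0 →* F0) (K1 K2 : Subfield F0) (PA PB PC : Ideal B) (𝔫 : Ideal B) [𝔫.IsPrime]
    (hvert : PA ≤ 𝔫 ∨ PB ≤ 𝔫 ∨ PC ≤ 𝔫)
    (hA : PA ≤ 𝔫 → ¬ PB ≤ 𝔫 → ¬ PC ≤ 𝔫 → s36g_PtOne π q B 𝔫)
    (hB : PB ≤ 𝔫 → ¬ PA ≤ 𝔫 → ¬ PC ≤ 𝔫 → s36g_PtOne π q B 𝔫)
    (hC : PC ≤ 𝔫 → ¬ PA ≤ 𝔫 → ¬ PB ≤ 𝔫 → s36g_PtOne π q B 𝔫 ∨ s36g_PtWeak π q D1 B 𝔫)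
    (hT : (PA ≤ 𝔫 ∧ PB ≤ 𝔫) ∨ (PA ≤ 𝔫 ∧ PC ≤ 𝔫) ∨ (PB ≤ 𝔫 ∧ PC ≤ 𝔫) →
      s36g_PtTri π p N1 N2 K1 K2 B PA PB PC 𝔫) :
    s36g_PtOne π q B 𝔫 ∨ s36g_PtWeak π q D1 B 𝔫 ∨ s36g_PtTri π p N1 N2 K1 K2 B PA PB PC 𝔫 := by
  by_cases h0 : PA ≤ 𝔫 <;> by_cases h1 : PB ≤ 𝔫 <;> by_cases h2 : PC ≤ 𝔫
  · exact Or.inr (Or.inr (hT (Or.inl ⟨h0, h1⟩)))
  · exact Or.inr (Or.inr (hT (Or.inl ⟨h0, h1⟩)))
  · exact Or.inr (Or.inr (hT (Or.inr (Or.inl ⟨h0, h2⟩))))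
  · exact Or.inl (hA h0 h1 h2)
  · exact Or.inr (Or.inr (hT (Or.inr (Or.inr ⟨h1, h2⟩))))
  · exact Or.inl (hB h1 h0 h2)
  · rcases hC h2 h0 h1 with h | h
    · exact Or.inl h
    · exact Or.inr (Or.inl h)
  · rcases hvert with h | h | h
    · exact absurd h h0
    · exact absurd h h1
    · exact absurd h h2

end Point

section FF

open IntermediateField

variable {A0 L : Type*} {F0 : Type v} [CommRing A0] [IsDomain A0] [IsDiscreteValuationRing A0]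
  [Field L] [Field F0] [Algebra A0 L] [IsFractionRing A0 L] [CharZero L] [Algebra L F0]
  [Algebra A0 F0] [IsScalarTower A0 L F0]

/-- every prime of the chart `fc_chart A0 {y}` containing `π` contains one of the three vertical
primes. -/
theorem s36gd_vert {π : A0} (hπ : Irreducible π) {y : F0} (hy : Transcendental L y)
    [FiniteDimensional L⟮y⟯ F0] {VA VB VC : ValuationSubring F0} {e : Fin 3 → ℕ}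
    (H : s36tp_Hyp (algebraMap A0 (Algebra.adjoin A0 ({y} : Set F0)) π) ![VA, VB, VC] e)
    (𝔫 : Ideal (fc_chart A0 ({y} : Set F0))) [𝔫.IsPrime]
    (hπ𝔫 : algebraMap A0 (fc_chart A0 ({y} : Set F0)) π ∈ 𝔫) :
    ssm_tp_P (fc_chart A0 ({y} : Set F0)) VA ≤ 𝔫 ∨ ssm_tp_P (fc_chart A0 ({y} : Set F0)) VB ≤ 𝔫 ∨
      ssm_tp_P (fc_chart A0 ({y} : Set F0)) VC ≤ 𝔫 := by
  have hyA : Transcendental A0 y := fc_ff_transcendental (L := L) hy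
  haveI : IsIntegrallyClosed (Algebra.adjoin A0 ({y} : Set F0)) := fc_ff_isIntegrallyClosed hyA
  haveI : FaithfulSMul (Algebra.adjoin A0 ({y} : Set F0)) F0 :=
    (faithfulSMul_iff_algebraMap_injective _ _).2 Subtype.val_injective
  have hC : ssm_tp_Chart (algebraMap A0 (Algebra.adjoin A0 ({y} : Set F0)) π)
      (fc_chart A0 ({y} : Set F0)) := ssm_tp_ff_chart (L := L) hπ hy
  obtain ⟨i, hi⟩ := H.P_le_of_mem hC _ rfl 𝔫 hπ𝔫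
  fin_cases i
  · exact Or.inl hi
  · exact Or.inr (Or.inl hi)
  · exact Or.inr (Or.inr hi)

/-- **The dispatch on one chart** `fc_chart A0 {y}`, for the closed points of the special fibre
satisfying an extra condition `S` (`True`, or `y ∈ 𝔫`). -/
theorem s36gd_chart {π : A0} (hπ : Irreducible π) {y : F0} (hy : Transcendental L y)
    [FiniteDimensional L⟮y⟯ F0] [IsFractionRing ↥(fc_chart A0 ({y} : Set F0)) F0]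
    {VA VB VC : ValuationSubring F0} {e : Fin 3 → ℕ}
    (H : s36tp_Hyp (algebraMap A0 (Algebra.adjoin A0 ({y} : Set F0)) π) ![VA, VB, VC] e)
    (q D1 p : ℕ) (N1 N2 : F0 →* F0) (K1 K2 : Subfield F0)
    (S : Ideal (fc_chart A0 ({y} : Set F0)) → Prop)
    (hA : ∀ (𝔫 : Ideal (fc_chart A0 ({y} : Set F0))) (h𝔫 : 𝔫.IsMaximal),
      algebraMap A0 (fc_chart A0 ({y} : Set F0)) π ∈ 𝔫 → S 𝔫 →
      ssm_tp_P (fc_chart A0 ({y} : Set F0)) VA ≤ 𝔫 →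
      ¬ ssm_tp_P (fc_chart A0 ({y} : Set F0)) VB ≤ 𝔫 →
      ¬ ssm_tp_P (fc_chart A0 ({y} : Set F0)) VC ≤ 𝔫 →
      (haveI := h𝔫.isPrime
       s36g_PtOne π q (fc_chart A0 ({y} : Set F0)) 𝔫))
    (hB : ∀ (𝔫 : Ideal (fc_chart A0 ({y} : Set F0))) (h𝔫 : 𝔫.IsMaximal),
      algebraMap A0 (fc_chart A0 ({y} : Set F0)) π ∈ 𝔫 → S 𝔫 →
      ssm_tp_P (fc_chart A0 ({y} : Set F0)) VB ≤ 𝔫 →
      ¬ ssm_tp_P (fc_chart A0 ({y} : Set F0)) VA ≤ 𝔫 →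
      ¬ ssm_tp_P (fc_chart A0 ({y} : Set F0)) VC ≤ 𝔫 →
      (haveI := h𝔫.isPrime
       s36g_PtOne π q (fc_chart A0 ({y} : Set F0)) 𝔫))
    (hC : ∀ (𝔫 : Ideal (fc_chart A0 ({y} : Set F0))) (h𝔫 : 𝔫.IsMaximal),
      algebraMap A0 (fc_chart A0 ({y} : Set F0)) π ∈ 𝔫 → S 𝔫 →
      ssm_tp_P (fc_chart A0 ({y} : Set F0)) VC ≤ 𝔫 →
      ¬ ssm_tp_P (fc_chart A0 ({y} : Set F0)) VA ≤ 𝔫 →
      ¬ ssm_tp_P (fc_chart A0 ({y} : Set F0)) VB ≤ 𝔫 →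
      (haveI := h𝔫.isPrime
       s36g_PtOne π q (fc_chart A0 ({y} : Set F0)) 𝔫 ∨
       s36g_PtWeak π q D1 (fc_chart A0 ({y} : Set F0)) 𝔫))
    (hT : ∀ (𝔫 : Ideal (fc_chart A0 ({y} : Set F0))) (h𝔫 : 𝔫.IsMaximal),
      algebraMap A0 (fc_chart A0 ({y} : Set F0)) π ∈ 𝔫 → S 𝔫 →
      ((ssm_tp_P (fc_chart A0 ({y} : Set F0)) VA ≤ 𝔫 ∧
          ssm_tp_P (fc_chart A0 ({y} : Set F0)) VB ≤ 𝔫) ∨
        (ssm_tp_P (fc_chart A0 ({y} : Set F0)) VA ≤ 𝔫 ∧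
          ssm_tp_P (fc_chart A0 ({y} : Set F0)) VC ≤ 𝔫) ∨
        (ssm_tp_P (fc_chart A0 ({y} : Set F0)) VB ≤ 𝔫 ∧
          ssm_tp_P (fc_chart A0 ({y} : Set F0)) VC ≤ 𝔫)) →
      (haveI := h𝔫.isPrime
       s36g_PtTri π p N1 N2 K1 K2 (fc_chart A0 ({y} : Set F0))
        (ssm_tp_P (fc_chart A0 ({y} : Set F0)) VA) (ssm_tp_P (fc_chart A0 ({y} : Set F0)) VB)
        (ssm_tp_P (fc_chart A0 ({y} : Set F0)) VC) 𝔫)) :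
    ∀ (𝔫 : Ideal (fc_chart A0 ({y} : Set F0))) (h𝔫 : 𝔫.IsMaximal),
      algebraMap A0 (fc_chart A0 ({y} : Set F0)) π ∈ 𝔫 → S 𝔫 →
      (haveI := h𝔫.isPrime
       s36g_PtOne π q (fc_chart A0 ({y} : Set F0)) 𝔫 ∨
       s36g_PtWeak π q D1 (fc_chart A0 ({y} : Set F0)) 𝔫 ∨
       s36g_PtTri π p N1 N2 K1 K2 (fc_chart A0 ({y} : Set F0))
        (ssm_tp_P (fc_chart A0 ({y} : Set F0)) VA) (ssm_tp_P (fc_chart A0 ({y} : Set F0)) VB)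
        (ssm_tp_P (fc_chart A0 ({y} : Set F0)) VC) 𝔫) := by
  intro 𝔫 h𝔫 hπ𝔫 hS
  haveI := h𝔫.isPrime
  exact s36gd_point π q D1 p N1 N2 K1 K2 _ _ _ 𝔫 (s36gd_vert (L := L) hπ hy H 𝔫 hπ𝔫)
    (hA 𝔫 h𝔫 hπ𝔫 hS) (hB 𝔫 h𝔫 hπ𝔫 hS) (hC 𝔫 h𝔫 hπ𝔫 hS) (hT 𝔫 h𝔫 hπ𝔫 hS)

/-- **THE POINT DISPATCH**: the hypotheses `hpts` and `hinf` of helper3's `s36g_hlocAll` /
`s36g_locAt_ff` (VERBATIM, with `A0 := ↥O` for the former) from the per-type producers on the two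
charts. -/
theorem s36gd_dispatch {π : A0} (hπ : Irreducible π) {x : F0} (hx : Transcendental L x)
    [FiniteDimensional L⟮x⟯ F0] [IsFractionRing ↥(fc_chart A0 ({x} : Set F0)) F0]
    [IsFractionRing ↥(fc_chart A0 ({x⁻¹} : Set F0)) F0]
    {VA VB VC : ValuationSubring F0} {e : Fin 3 → ℕ}
    (H : s36tp_Hyp (algebraMap A0 (Algebra.adjoin A0 ({x} : Set F0)) π) ![VA, VB, VC] e)
    (q D1 p : ℕ) (N1 N2 : F0 →* F0) (K1 K2 : Subfield F0)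
    (hA1 : ∀ (𝔫 : Ideal (fc_chart A0 ({x} : Set F0))) (h𝔫 : 𝔫.IsMaximal),
      algebraMap A0 (fc_chart A0 ({x} : Set F0)) π ∈ 𝔫 →
      ssm_tp_P (fc_chart A0 ({x} : Set F0)) VA ≤ 𝔫 →
      ¬ ssm_tp_P (fc_chart A0 ({x} : Set F0)) VB ≤ 𝔫 →
      ¬ ssm_tp_P (fc_chart A0 ({x} : Set F0)) VC ≤ 𝔫 →
      (haveI := h𝔫.isPrime
       s36g_PtOne π q (fc_chart A0 ({x} : Set F0)) 𝔫))
    (hB1 : ∀ (𝔫 : Ideal (fc_chart A0 ({x} : Set F0))) (h𝔫 : 𝔫.IsMaximal),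
      algebraMap A0 (fc_chart A0 ({x} : Set F0)) π ∈ 𝔫 →
      ssm_tp_P (fc_chart A0 ({x} : Set F0)) VB ≤ 𝔫 →
      ¬ ssm_tp_P (fc_chart A0 ({x} : Set F0)) VA ≤ 𝔫 →
      ¬ ssm_tp_P (fc_chart A0 ({x} : Set F0)) VC ≤ 𝔫 →
      (haveI := h𝔫.isPrime
       s36g_PtOne π q (fc_chart A0 ({x} : Set F0)) 𝔫))
    (hC1 : ∀ (𝔫 : Ideal (fc_chart A0 ({x} : Set F0))) (h𝔫 : 𝔫.IsMaximal),
      algebraMap A0 (fc_chart A0 ({x} : Set F0)) π ∈ 𝔫 →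
      ssm_tp_P (fc_chart A0 ({x} : Set F0)) VC ≤ 𝔫 →
      ¬ ssm_tp_P (fc_chart A0 ({x} : Set F0)) VA ≤ 𝔫 →
      ¬ ssm_tp_P (fc_chart A0 ({x} : Set F0)) VB ≤ 𝔫 →
      (haveI := h𝔫.isPrime
       s36g_PtOne π q (fc_chart A0 ({x} : Set F0)) 𝔫 ∨
       s36g_PtWeak π q D1 (fc_chart A0 ({x} : Set F0)) 𝔫))
    (hT1 : ∀ (𝔫 : Ideal (fc_chart A0 ({x} : Set F0))) (h𝔫 : 𝔫.IsMaximal),
      algebraMap A0 (fc_chart A0 ({x} : Set F0)) π ∈ 𝔫 →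
      ((ssm_tp_P (fc_chart A0 ({x} : Set F0)) VA ≤ 𝔫 ∧ ssm_tp_P (fc_chart A0 ({x} : Set F0)) VB ≤ 𝔫) ∨
        (ssm_tp_P (fc_chart A0 ({x} : Set F0)) VA ≤ 𝔫 ∧ ssm_tp_P (fc_chart A0 ({x} : Set F0)) VC ≤ 𝔫) ∨
        (ssm_tp_P (fc_chart A0 ({x} : Set F0)) VB ≤ 𝔫 ∧ ssm_tp_P (fc_chart A0 ({x} : Set F0)) VC ≤ 𝔫)) →
      (haveI := h𝔫.isPrime
       s36g_PtTri π p N1 N2 K1 K2 (fc_chart A0 ({x} : Set F0))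
        (ssm_tp_P (fc_chart A0 ({x} : Set F0)) VA) (ssm_tp_P (fc_chart A0 ({x} : Set F0)) VB)
        (ssm_tp_P (fc_chart A0 ({x} : Set F0)) VC) 𝔫))
    (hA2 : ∀ (𝔫 : Ideal (fc_chart A0 ({x⁻¹} : Set F0))) (h𝔫 : 𝔫.IsMaximal),
      algebraMap A0 (fc_chart A0 ({x⁻¹} : Set F0)) π ∈ 𝔫 →
      (⟨x⁻¹, fc_x_mem_chart x⁻¹⟩ : fc_chart A0 ({x⁻¹} : Set F0)) ∈ 𝔫 →
      ssm_tp_P (fc_chart A0 ({x⁻¹} : Set F0)) VA ≤ 𝔫 →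
      ¬ ssm_tp_P (fc_chart A0 ({x⁻¹} : Set F0)) VB ≤ 𝔫 →
      ¬ ssm_tp_P (fc_chart A0 ({x⁻¹} : Set F0)) VC ≤ 𝔫 →
      (haveI := h𝔫.isPrime
       s36g_PtOne π q (fc_chart A0 ({x⁻¹} : Set F0)) 𝔫))
    (hB2 : ∀ (𝔫 : Ideal (fc_chart A0 ({x⁻¹} : Set F0))) (h𝔫 : 𝔫.IsMaximal),
      algebraMap A0 (fc_chart A0 ({x⁻¹} : Set F0)) π ∈ 𝔫 →
      (⟨x⁻¹, fc_x_mem_chart x⁻¹⟩ : fc_chart A0 ({x⁻¹} : Set F0)) ∈ 𝔫 →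
      ssm_tp_P (fc_chart A0 ({x⁻¹} : Set F0)) VB ≤ 𝔫 →
      ¬ ssm_tp_P (fc_chart A0 ({x⁻¹} : Set F0)) VA ≤ 𝔫 →
      ¬ ssm_tp_P (fc_chart A0 ({x⁻¹} : Set F0)) VC ≤ 𝔫 →
      (haveI := h𝔫.isPrime
       s36g_PtOne π q (fc_chart A0 ({x⁻¹} : Set F0)) 𝔫))
    (hC2 : ∀ (𝔫 : Ideal (fc_chart A0 ({x⁻¹} : Set F0))) (h𝔫 : 𝔫.IsMaximal),
      algebraMap A0 (fc_chart A0 ({x⁻¹} : Set F0)) π ∈ 𝔫 →
      (⟨x⁻¹, fc_x_mem_chart x⁻¹⟩ : fc_chart A0 ({x⁻¹} : Set F0)) ∈ 𝔫 →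
      ssm_tp_P (fc_chart A0 ({x⁻¹} : Set F0)) VC ≤ 𝔫 →
      ¬ ssm_tp_P (fc_chart A0 ({x⁻¹} : Set F0)) VA ≤ 𝔫 →
      ¬ ssm_tp_P (fc_chart A0 ({x⁻¹} : Set F0)) VB ≤ 𝔫 →
      (haveI := h𝔫.isPrime
       s36g_PtOne π q (fc_chart A0 ({x⁻¹} : Set F0)) 𝔫 ∨
       s36g_PtWeak π q D1 (fc_chart A0 ({x⁻¹} : Set F0)) 𝔫))
    (hT2 : ∀ (𝔫 : Ideal (fc_chart A0 ({x⁻¹} : Set F0))) (h𝔫 : 𝔫.IsMaximal),
      algebraMap A0 (fc_chart A0 ({x⁻¹} : Set F0)) π ∈ 𝔫 →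
      (⟨x⁻¹, fc_x_mem_chart x⁻¹⟩ : fc_chart A0 ({x⁻¹} : Set F0)) ∈ 𝔫 →
      ((ssm_tp_P (fc_chart A0 ({x⁻¹} : Set F0)) VA ≤ 𝔫 ∧ ssm_tp_P (fc_chart A0 ({x⁻¹} : Set F0)) VB ≤ 𝔫) ∨
        (ssm_tp_P (fc_chart A0 ({x⁻¹} : Set F0)) VA ≤ 𝔫 ∧ ssm_tp_P (fc_chart A0 ({x⁻¹} : Set F0)) VC ≤ 𝔫) ∨
        (ssm_tp_P (fc_chart A0 ({x⁻¹} : Set F0)) VB ≤ 𝔫 ∧ ssm_tp_P (fc_chart A0 ({x⁻¹} : Set F0)) VC ≤ 𝔫)) →
      (haveI := h𝔫.isPrime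
       s36g_PtTri π p N1 N2 K1 K2 (fc_chart A0 ({x⁻¹} : Set F0))
        (ssm_tp_P (fc_chart A0 ({x⁻¹} : Set F0)) VA) (ssm_tp_P (fc_chart A0 ({x⁻¹} : Set F0)) VB)
        (ssm_tp_P (fc_chart A0 ({x⁻¹} : Set F0)) VC) 𝔫))
    :
    (∀ (𝔫 : Ideal (fc_chart A0 ({x} : Set F0))) (h𝔫 : 𝔫.IsMaximal),
      algebraMap A0 (fc_chart A0 ({x} : Set F0)) π ∈ 𝔫 →
      (haveI := h𝔫.isPrime
       s36g_PtOne π q (fc_chart A0 ({x} : Set F0)) 𝔫 ∨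
       s36g_PtWeak π q D1 (fc_chart A0 ({x} : Set F0)) 𝔫 ∨
       s36g_PtTri π p N1 N2 K1 K2 (fc_chart A0 ({x} : Set F0))
        (ssm_tp_P (fc_chart A0 ({x} : Set F0)) VA) (ssm_tp_P (fc_chart A0 ({x} : Set F0)) VB)
        (ssm_tp_P (fc_chart A0 ({x} : Set F0)) VC) 𝔫)) ∧
    (∀ (𝔫 : Ideal (fc_chart A0 ({x⁻¹} : Set F0))) (h𝔫 : 𝔫.IsMaximal),
      algebraMap A0 (fc_chart A0 ({x⁻¹} : Set F0)) π ∈ 𝔫 →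
      (⟨x⁻¹, fc_x_mem_chart x⁻¹⟩ : fc_chart A0 ({x⁻¹} : Set F0)) ∈ 𝔫 →
      (haveI := h𝔫.isPrime
       s36g_PtOne π q (fc_chart A0 ({x⁻¹} : Set F0)) 𝔫 ∨
       s36g_PtWeak π q D1 (fc_chart A0 ({x⁻¹} : Set F0)) 𝔫 ∨
       s36g_PtTri π p N1 N2 K1 K2 (fc_chart A0 ({x⁻¹} : Set F0))
        (ssm_tp_P (fc_chart A0 ({x⁻¹} : Set F0)) VA) (ssm_tp_P (fc_chart A0 ({x⁻¹} : Set F0)) VB)
        (ssm_tp_P (fc_chart A0 ({x⁻¹} : Set F0)) VC) 𝔫)) := by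
  have hxi : Transcendental L x⁻¹ := fun h => hx (IsAlgebraic.inv_iff.mp h)
  haveI hfd2 : FiniteDimensional L⟮x⁻¹⟯ F0 := by
    rw [rt_adjoin_inv]; infer_instance
  have H' := s36tp_ff_hyp_inv (L := L) hπ hx H
  refine ⟨fun 𝔫 h𝔫 hπ𝔫 => ?_, fun 𝔫 h𝔫 hπ𝔫 hinf => ?_⟩
  · exact s36gd_chart (L := L) hπ hx H q D1 p N1 N2 K1 K2 (fun _ => True)
      (fun 𝔫 h𝔫 h _ => hA1 𝔫 h𝔫 h) (fun 𝔫 h𝔫 h _ => hB1 𝔫 h𝔫 h) (fun 𝔫 h𝔫 h _ => hC1 𝔫 h𝔫 h)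
      (fun 𝔫 h𝔫 h _ => hT1 𝔫 h𝔫 h) 𝔫 h𝔫 hπ𝔫 trivial
  · exact s36gd_chart (L := L) hπ hxi H' q D1 p N1 N2 K1 K2
      (fun 𝔫 => (⟨x⁻¹, fc_x_mem_chart x⁻¹⟩ : fc_chart A0 ({x⁻¹} : Set F0)) ∈ 𝔫)
      hA2 hB2 hC2 hT2 𝔫 h𝔫 hπ𝔫 hinf

end FF

end Fermat.Agent.S36
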