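/-
Project S36 (Carayol), [L4] sub-assembly (helper24, NOTE 4 (C2)): THE POINT DISPATCH on the
Legendre tower, [NF2-CTX].

`hpts` / `hinf` of helper3's `s36g_hlocAll` for `F0 := lg_E L (N' q q)`, `x := lg_lamE (N' q q)`,
`VA := s36i_VA`, `VB := s36cp_VB`, from helper17's closed producer `s36cp_nf_one` (A-only / B-only
points, [L3a]) and the producers for the C-only points ([L3b], [L3c]) and the points on two
components ([L3d]) as hypotheses.  Prefix `s36gd_`.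
-/
import Mathlib
import Fermat.Agent.S36.Glue.Dispatch
import Fermat.Agent.S36.Model.PtsAB

set_option autoImplicit false
set_option linter.unusedSectionVars false
set_option linter.unusedVariables false
set_option linter.style.haveILetI false

noncomputable section

open ModularCurve IntermediateField IsLocalRing
open Fermat.Agent.JT3 Fermat.Agent.SS

namespace Fermat.Agent.S36

section NF

variable (L : Type) [Field L] [NumberField L] [Algebra L (AlgebraicClosure ℚ)]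
  (O : ValuationSubring L) [IsDiscreteValuationRing O] {π : O} (hπ : Irreducible π)
variable (N' q : ℕ) [NeZero N'] [NeZero q] [hq : Fact q.Prime] [CharP (ResidueField O) q]
  (hq2 : ¬ 2 ∣ q) (hqN' : ¬ q ∣ N') (ζ : L) (hζ : IsPrimitiveRoot ζ N')

include hζ in
set_option synthInstance.maxHeartbeats 200000 in
set_option maxHeartbeats 1600000 in
/-- **THE POINT DISPATCH, Legendre tower**: `hpts ∧ hinf` of `s36g_hlocAll` from the producers at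
the C-only points and at the points on two components. -/
theorem s36gd_leg {VC : ValuationSubring ↥(lg_E L (N' * q * q))} {e : Fin 3 → ℕ}
    (H : s36tp_Hyp
      (algebraMap ↥O (Algebra.adjoin ↥O ({lg_lamE (N' * q * q)} : Set ↥(lg_E L (N' * q * q)))) π)
      ![s36i_VA O hπ (N' * q) q, s36cp_VB O hπ N' q hq2 hqN', VC] e)
    (he0 : e 0 = 1) (he1 : e 1 = 1)
    (hWB1 : ∀ b ∈ fc_chart ↥O ({lg_lamE (N' * q * q)} : Set ↥(lg_E L (N' * q * q))),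
      s36cp_W2 L N' q hq2 hqN' b ∈
        fc_chart ↥O ({lg_lamE (N' * q * q)} : Set ↥(lg_E L (N' * q * q))))
    (hWB2 : ∀ b ∈ fc_chart ↥O ({(lg_lamE (N' * q * q))⁻¹} : Set ↥(lg_E L (N' * q * q))),
      s36cp_W2 L N' q hq2 hqN' b ∈
        fc_chart ↥O ({(lg_lamE (N' * q * q))⁻¹} : Set ↥(lg_E L (N' * q * q))))
    (D1 : ℕ) (N1 N2 : ↥(lg_E L (N' * q * q)) →* ↥(lg_E L (N' * q * q)))
    (K1 K2 : Subfield ↥(lg_E L (N' * q * q)))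
    (hC1 : ∀ (𝔫 : Ideal (fc_chart ↥O ({lg_lamE (N' * q * q)} : Set ↥(lg_E L (N' * q * q))))) (h𝔫 : 𝔫.IsMaximal),
      algebraMap ↥O (fc_chart ↥O ({lg_lamE (N' * q * q)} : Set ↥(lg_E L (N' * q * q)))) π ∈ 𝔫 →
      ssm_tp_P (fc_chart ↥O ({lg_lamE (N' * q * q)} : Set ↥(lg_E L (N' * q * q)))) VC ≤ 𝔫 →
      ¬ ssm_tp_P (fc_chart ↥O ({lg_lamE (N' * q * q)} : Set ↥(lg_E L (N' * q * q)))) (s36i_VA O hπ (N' * q) q) ≤ 𝔫 →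
      ¬ ssm_tp_P (fc_chart ↥O ({lg_lamE (N' * q * q)} : Set ↥(lg_E L (N' * q * q)))) (s36cp_VB O hπ N' q hq2 hqN') ≤ 𝔫 →
      (haveI := s36cp_chart_isFractionRing O (N' * q * q)
       haveI := h𝔫.isPrime
       s36g_PtOne π q (fc_chart ↥O ({lg_lamE (N' * q * q)} : Set ↥(lg_E L (N' * q * q)))) 𝔫 ∨
       s36g_PtWeak π q D1 (fc_chart ↥O ({lg_lamE (N' * q * q)} : Set ↥(lg_E L (N' * q * q)))) 𝔫))
    (hT1 : ∀ (𝔫 : Ideal (fc_chart ↥O ({lg_lamE (N' * q * q)} : Set ↥(lg_E L (N' * q * q))))) (h𝔫 : 𝔫.IsMaximal),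
      algebraMap ↥O (fc_chart ↥O ({lg_lamE (N' * q * q)} : Set ↥(lg_E L (N' * q * q)))) π ∈ 𝔫 →
      ((ssm_tp_P (fc_chart ↥O ({lg_lamE (N' * q * q)} : Set ↥(lg_E L (N' * q * q)))) (s36i_VA O hπ (N' * q) q) ≤ 𝔫 ∧
          ssm_tp_P (fc_chart ↥O ({lg_lamE (N' * q * q)} : Set ↥(lg_E L (N' * q * q)))) (s36cp_VB O hπ N' q hq2 hqN') ≤ 𝔫) ∨
        (ssm_tp_P (fc_chart ↥O ({lg_lamE (N' * q * q)} : Set ↥(lg_E L (N' * q * q)))) (s36i_VA O hπ (N' * q) q) ≤ 𝔫 ∧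
          ssm_tp_P (fc_chart ↥O ({lg_lamE (N' * q * q)} : Set ↥(lg_E L (N' * q * q)))) VC ≤ 𝔫) ∨
        (ssm_tp_P (fc_chart ↥O ({lg_lamE (N' * q * q)} : Set ↥(lg_E L (N' * q * q)))) (s36cp_VB O hπ N' q hq2 hqN') ≤ 𝔫 ∧
          ssm_tp_P (fc_chart ↥O ({lg_lamE (N' * q * q)} : Set ↥(lg_E L (N' * q * q)))) VC ≤ 𝔫)) →
      (haveI := s36cp_chart_isFractionRing O (N' * q * q)
       haveI := h𝔫.isPrime
       s36g_PtTri π (q - 1) N1 N2 K1 K2 (fc_chart ↥O ({lg_lamE (N' * q * q)} : Set ↥(lg_E L (N' * q * q))))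
        (ssm_tp_P (fc_chart ↥O ({lg_lamE (N' * q * q)} : Set ↥(lg_E L (N' * q * q)))) (s36i_VA O hπ (N' * q) q))
        (ssm_tp_P (fc_chart ↥O ({lg_lamE (N' * q * q)} : Set ↥(lg_E L (N' * q * q)))) (s36cp_VB O hπ N' q hq2 hqN'))
        (ssm_tp_P (fc_chart ↥O ({lg_lamE (N' * q * q)} : Set ↥(lg_E L (N' * q * q)))) VC) 𝔫))
    (hC2 : ∀ (𝔫 : Ideal (fc_chart ↥O ({(lg_lamE (N' * q * q))⁻¹} : Set ↥(lg_E L (N' * q * q))))) (h𝔫 : 𝔫.IsMaximal),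
      algebraMap ↥O (fc_chart ↥O ({(lg_lamE (N' * q * q))⁻¹} : Set ↥(lg_E L (N' * q * q)))) π ∈ 𝔫 →
      (⟨(lg_lamE (N' * q * q))⁻¹, fc_x_mem_chart (lg_lamE (N' * q * q))⁻¹⟩ : fc_chart ↥O ({(lg_lamE (N' * q * q))⁻¹} : Set ↥(lg_E L (N' * q * q)))) ∈ 𝔫 →
      ssm_tp_P (fc_chart ↥O ({(lg_lamE (N' * q * q))⁻¹} : Set ↥(lg_E L (N' * q * q)))) VC ≤ 𝔫 →
      ¬ ssm_tp_P (fc_chart ↥O ({(lg_lamE (N' * q * q))⁻¹} : Set ↥(lg_E L (N' * q * q)))) (s36i_VA O hπ (N' * q) q) ≤ 𝔫 →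
      ¬ ssm_tp_P (fc_chart ↥O ({(lg_lamE (N' * q * q))⁻¹} : Set ↥(lg_E L (N' * q * q)))) (s36cp_VB O hπ N' q hq2 hqN') ≤ 𝔫 →
      (haveI := s36cp_chart_inv_isFractionRing O (N' * q * q)
       haveI := h𝔫.isPrime
       s36g_PtOne π q (fc_chart ↥O ({(lg_lamE (N' * q * q))⁻¹} : Set ↥(lg_E L (N' * q * q)))) 𝔫 ∨
       s36g_PtWeak π q D1 (fc_chart ↥O ({(lg_lamE (N' * q * q))⁻¹} : Set ↥(lg_E L (N' * q * q)))) 𝔫))
    (hT2 : ∀ (𝔫 : Ideal (fc_chart ↥O ({(lg_lamE (N' * q * q))⁻¹} : Set ↥(lg_E L (N' * q * q))))) (h𝔫 : 𝔫.IsMaximal),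
      algebraMap ↥O (fc_chart ↥O ({(lg_lamE (N' * q * q))⁻¹} : Set ↥(lg_E L (N' * q * q)))) π ∈ 𝔫 →
      (⟨(lg_lamE (N' * q * q))⁻¹, fc_x_mem_chart (lg_lamE (N' * q * q))⁻¹⟩ : fc_chart ↥O ({(lg_lamE (N' * q * q))⁻¹} : Set ↥(lg_E L (N' * q * q)))) ∈ 𝔫 →
      ((ssm_tp_P (fc_chart ↥O ({(lg_lamE (N' * q * q))⁻¹} : Set ↥(lg_E L (N' * q * q)))) (s36i_VA O hπ (N' * q) q) ≤ 𝔫 ∧
          ssm_tp_P (fc_chart ↥O ({(lg_lamE (N' * q * q))⁻¹} : Set ↥(lg_E L (N' * q * q)))) (s36cp_VB O hπ N' q hq2 hqN') ≤ 𝔫) ∨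
        (ssm_tp_P (fc_chart ↥O ({(lg_lamE (N' * q * q))⁻¹} : Set ↥(lg_E L (N' * q * q)))) (s36i_VA O hπ (N' * q) q) ≤ 𝔫 ∧
          ssm_tp_P (fc_chart ↥O ({(lg_lamE (N' * q * q))⁻¹} : Set ↥(lg_E L (N' * q * q)))) VC ≤ 𝔫) ∨
        (ssm_tp_P (fc_chart ↥O ({(lg_lamE (N' * q * q))⁻¹} : Set ↥(lg_E L (N' * q * q)))) (s36cp_VB O hπ N' q hq2 hqN') ≤ 𝔫 ∧
          ssm_tp_P (fc_chart ↥O ({(lg_lamE (N' * q * q))⁻¹} : Set ↥(lg_E L (N' * q * q)))) VC ≤ 𝔫)) →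
      (haveI := s36cp_chart_inv_isFractionRing O (N' * q * q)
       haveI := h𝔫.isPrime
       s36g_PtTri π (q - 1) N1 N2 K1 K2 (fc_chart ↥O ({(lg_lamE (N' * q * q))⁻¹} : Set ↥(lg_E L (N' * q * q))))
        (ssm_tp_P (fc_chart ↥O ({(lg_lamE (N' * q * q))⁻¹} : Set ↥(lg_E L (N' * q * q)))) (s36i_VA O hπ (N' * q) q))
        (ssm_tp_P (fc_chart ↥O ({(lg_lamE (N' * q * q))⁻¹} : Set ↥(lg_E L (N' * q * q)))) (s36cp_VB O hπ N' q hq2 hqN'))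
        (ssm_tp_P (fc_chart ↥O ({(lg_lamE (N' * q * q))⁻¹} : Set ↥(lg_E L (N' * q * q)))) VC) 𝔫))
    :
    (∀ (𝔫 : Ideal (fc_chart ↥O ({lg_lamE (N' * q * q)} : Set ↥(lg_E L (N' * q * q))))) (h𝔫 : 𝔫.IsMaximal),
      algebraMap ↥O (fc_chart ↥O ({lg_lamE (N' * q * q)} : Set ↥(lg_E L (N' * q * q)))) π ∈ 𝔫 →
      (haveI := s36cp_chart_isFractionRing O (N' * q * q)
       haveI := h𝔫.isPrime
       s36g_PtOne π q (fc_chart ↥O ({lg_lamE (N' * q * q)} : Set ↥(lg_E L (N' * q * q)))) 𝔫 ∨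
       s36g_PtWeak π q D1 (fc_chart ↥O ({lg_lamE (N' * q * q)} : Set ↥(lg_E L (N' * q * q)))) 𝔫 ∨
       s36g_PtTri π (q - 1) N1 N2 K1 K2 (fc_chart ↥O ({lg_lamE (N' * q * q)} : Set ↥(lg_E L (N' * q * q))))
        (ssm_tp_P (fc_chart ↥O ({lg_lamE (N' * q * q)} : Set ↥(lg_E L (N' * q * q)))) (s36i_VA O hπ (N' * q) q))
        (ssm_tp_P (fc_chart ↥O ({lg_lamE (N' * q * q)} : Set ↥(lg_E L (N' * q * q)))) (s36cp_VB O hπ N' q hq2 hqN'))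
        (ssm_tp_P (fc_chart ↥O ({lg_lamE (N' * q * q)} : Set ↥(lg_E L (N' * q * q)))) VC) 𝔫)) ∧
    (∀ (𝔫 : Ideal (fc_chart ↥O ({(lg_lamE (N' * q * q))⁻¹} : Set ↥(lg_E L (N' * q * q))))) (h𝔫 : 𝔫.IsMaximal),
      algebraMap ↥O (fc_chart ↥O ({(lg_lamE (N' * q * q))⁻¹} : Set ↥(lg_E L (N' * q * q)))) π ∈ 𝔫 →
      (⟨(lg_lamE (N' * q * q))⁻¹, fc_x_mem_chart (lg_lamE (N' * q * q))⁻¹⟩ : fc_chart ↥O ({(lg_lamE (N' * q * q))⁻¹} : Set ↥(lg_E L (N' * q * q)))) ∈ 𝔫 →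
      (haveI := s36cp_chart_inv_isFractionRing O (N' * q * q)
       haveI := h𝔫.isPrime
       s36g_PtOne π q (fc_chart ↥O ({(lg_lamE (N' * q * q))⁻¹} : Set ↥(lg_E L (N' * q * q)))) 𝔫 ∨
       s36g_PtWeak π q D1 (fc_chart ↥O ({(lg_lamE (N' * q * q))⁻¹} : Set ↥(lg_E L (N' * q * q)))) 𝔫 ∨
       s36g_PtTri π (q - 1) N1 N2 K1 K2 (fc_chart ↥O ({(lg_lamE (N' * q * q))⁻¹} : Set ↥(lg_E L (N' * q * q))))
        (ssm_tp_P (fc_chart ↥O ({(lg_lamE (N' * q * q))⁻¹} : Set ↥(lg_E L (N' * q * q)))) (s36i_VA O hπ (N' * q) q))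
        (ssm_tp_P (fc_chart ↥O ({(lg_lamE (N' * q * q))⁻¹} : Set ↥(lg_E L (N' * q * q)))) (s36cp_VB O hπ N' q hq2 hqN'))
        (ssm_tp_P (fc_chart ↥O ({(lg_lamE (N' * q * q))⁻¹} : Set ↥(lg_E L (N' * q * q)))) VC) 𝔫)) := by
  haveI := ssm_go_isScalarTower O (lg_E L (N' * q * q))
  haveI := lgf_finite L (N' * q * q)
  have hx : Transcendental L (lg_lamE (L := L) (N' * q * q)) :=
    lgf_lam_transcendental L (N' * q * q) two_ne_zero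
  haveI := s36cp_chart_isFractionRing O (N' * q * q)
  haveI := s36cp_chart_inv_isFractionRing O (N' * q * q)
  obtain ⟨a1, b1, a2, b2⟩ := s36cp_nf_one L O hπ N' q hq2 hqN' ζ hζ H he0 he1 hWB1 hWB2
  exact s36gd_dispatch (A0 := ↥O) (L := L) hπ hx H q D1 (q - 1) N1 N2 K1 K2
    (fun 𝔫 h𝔫 h _ hB hC => a1 𝔫 h𝔫 h hB hC) (fun 𝔫 h𝔫 h _ hA hC => b1 𝔫 h𝔫 h hA hC) hC1 hT1
    (fun 𝔫 h𝔫 h _ _ hB hC => a2 𝔫 h𝔫 h hB hC) (fun 𝔫 h𝔫 h _ _ hA hC => b2 𝔫 h𝔫 h hA hC) hC2 hT2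

end NF

end Fermat.Agent.S36
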