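/-
Project S36 (Carayol), cell [GLUE-MAIN] (helper3): THE PER-POINT INPUT `s36c_HlocAll` OF helper1's
`s36c_glue_of_hloc` FROM THE POINT CLAUSES (prefix `s36g_`).

`O` a discrete valuation subring of `L` with uniformiser `π`, `F0 / L(x)` a function field,
`VA VB VC` the three vertical valuations (helper24's `s36tp_Hyp` on `↥O[x]`), `q` the residue
characteristic, `N₁ N₂` the two norms with the global norm data `s36g_NormData`.  If every closed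
point of the special fibre of the chart `fc_chart ↥O {x}`, and every point at infinity of the chart
`fc_chart ↥O {x⁻¹}`, is a ONE-BRANCH point (`s36g_PtOne`), a WEAK one-component point
(`s36g_PtWeak`, exponent `D1`) or a TRIPLE point (`s36g_PtTri`), then

  `s36g_hlocAll : s36c_HlocAll O VA VB VC N₁ N₂ q m (q ^ 2 * D1) (fun v : Place L F0 => v.ord) π x`.

With helper1's `s36c_glue_of_hloc` this is the seam `s36c_Glue … (q ^ 2 * D1 * q) …`.
-/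
import Mathlib
import Fermat.Agent.S36.Glue.Main
import Fermat.Agent.S36.ACore.GlueOf

set_option autoImplicit false
set_option linter.unusedSectionVars false
set_option linter.style.haveILetI false

namespace Fermat.Agent.S36

open Fermat.Agent.SS Fermat.Agent.JT3 Fermat.Agent.S35 AlgebraicCurve IntermediateField

universe v

section HlocAll

variable {L : Type*} [Field L]

/-- an element of valuation one is (the image of) a unit of the valuation ring. -/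
theorem s36g_exists_unit_of_val (O : ValuationSubring L) {c : L} (hc : O.valuation c = 1) :
    ∃ u : (↥O)ˣ, ((u : ↥O) : L) = c := by
  have hcO : c ∈ O := (O.valuation_le_one_iff c).1 hc.le
  have hc0 : c ≠ 0 := by
    rintro rfl
    rw [map_zero] at hc
    exact zero_ne_one hc
  have hci : c⁻¹ ∈ O := (O.valuation_le_one_iff _).1 (by rw [map_inv₀, hc, inv_one])
  exact ⟨⟨⟨c, hcO⟩, ⟨c⁻¹, hci⟩, Subtype.ext (mul_inv_cancel₀ hc0),
    Subtype.ext (inv_mul_cancel₀ hc0)⟩, rfl⟩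

variable [CharZero L] {F0 : Type v} [Field F0] [Algebra L F0]

set_option synthInstance.maxHeartbeats 200000 in
set_option maxHeartbeats 1600000 in
/-- **[GLUE-MAIN], per-point side.** -/
theorem s36g_hlocAll (O : ValuationSubring L) [IsDiscreteValuationRing ↥O] [Algebra ↥O F0]
    [IsScalarTower ↥O L F0] {π : ↥O} (hπ : Irreducible π) {x : F0} (hx : Transcendental L x)
    [FiniteDimensional L⟮x⟯ F0] [IsFractionRing ↥(fc_chart ↥O ({x} : Set F0)) F0]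
    [IsFractionRing ↥(fc_chart ↥O ({x⁻¹} : Set F0)) F0]
    {q : ℕ} (hq : q.Prime) (hqπ : π ∣ ((q : ℕ) : ↥O))
    {VA VB VC : ValuationSubring F0} {e : Fin 3 → ℕ}
    (H : s36tp_Hyp (algebraMap ↥O (Algebra.adjoin ↥O ({x} : Set F0)) π) ![VA, VB, VC] e)
    {N1 N2 : F0 →* F0} {K1 K2 : Subfield F0}
    (ND : s36g_NormData ![VA, VB, VC] (q - 1) N1 N2 K1 K2) (D1 : ℕ)
    (hpts : ∀ (𝔫 : Ideal (fc_chart ↥O ({x} : Set F0))) (h𝔫 : 𝔫.IsMaximal),
      algebraMap ↥O (fc_chart ↥O ({x} : Set F0)) π ∈ 𝔫 →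
      (haveI := h𝔫.isPrime
       s36g_PtOne π q (fc_chart ↥O ({x} : Set F0)) 𝔫 ∨
       s36g_PtWeak π q D1 (fc_chart ↥O ({x} : Set F0)) 𝔫 ∨
       s36g_PtTri π (q - 1) N1 N2 K1 K2 (fc_chart ↥O ({x} : Set F0))
        (ssm_tp_P (fc_chart ↥O ({x} : Set F0)) VA) (ssm_tp_P (fc_chart ↥O ({x} : Set F0)) VB)
        (ssm_tp_P (fc_chart ↥O ({x} : Set F0)) VC) 𝔫))
    (hinf : ∀ (𝔫 : Ideal (fc_chart ↥O ({x⁻¹} : Set F0))) (h𝔫 : 𝔫.IsMaximal),
      algebraMap ↥O (fc_chart ↥O ({x⁻¹} : Set F0)) π ∈ 𝔫 →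
      (⟨x⁻¹, fc_x_mem_chart x⁻¹⟩ : fc_chart ↥O ({x⁻¹} : Set F0)) ∈ 𝔫 →
      (haveI := h𝔫.isPrime
       s36g_PtOne π q (fc_chart ↥O ({x⁻¹} : Set F0)) 𝔫 ∨
       s36g_PtWeak π q D1 (fc_chart ↥O ({x⁻¹} : Set F0)) 𝔫 ∨
       s36g_PtTri π (q - 1) N1 N2 K1 K2 (fc_chart ↥O ({x⁻¹} : Set F0))
        (ssm_tp_P (fc_chart ↥O ({x⁻¹} : Set F0)) VA) (ssm_tp_P (fc_chart ↥O ({x⁻¹} : Set F0)) VB)
        (ssm_tp_P (fc_chart ↥O ({x⁻¹} : Set F0)) VC) 𝔫))
    {m : ℕ} (hm : IsUnit ((m : ℕ) : ↥O)) :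
    s36c_HlocAll O VA VB VC N1 N2 q m (q ^ 2 * D1) (fun v : Place L F0 => v.ord) π x := by
  obtain ⟨p, rfl⟩ : ∃ p, q = p + 1 := ⟨q - 1, (Nat.sub_add_cancel hq.one_le).symm⟩
  have ep : p + 1 - 1 = p := rfl
  rw [ep] at ND hpts hinf
  intro f hf0 hfA hfB hfC hfH c1 c2 h1 h2 hc1 hc2 hh1 hh2 hN1 hN2 νF νV νG νU hνF hνV hνG hνU
    e1 e2 e3 e4 e5 e6 k1 k2 k3 k4 u₀ hu1 hu2 hu3 K hK hKA hKB hKC
  obtain ⟨c1u, rfl⟩ := s36g_exists_unit_of_val O hc1
  obtain ⟨c2u, rfl⟩ := s36g_exists_unit_of_val O hc2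
  obtain ⟨νFu, rfl⟩ := s36g_exists_unit_of_val O hνF
  obtain ⟨νVu, rfl⟩ := s36g_exists_unit_of_val O hνV
  obtain ⟨νGu, rfl⟩ := s36g_exists_unit_of_val O hνG
  obtain ⟨νUu, rfl⟩ := s36g_exists_unit_of_val O hνU
  have hcoe : ∀ a : ↥O, algebraMap L F0 (a : L) = algebraMap ↥O F0 a := fun a =>
    (IsScalarTower.algebraMap_apply ↥O L F0 a).symm
  rw [ep] at hu1 hu2 hu3
  have D : s36g_Datum ![VA, VB, VC] p m N1 N2 f h1 h2 u₀ (c1u : ↥O) (c2u : ↥O) (νFu : ↥O)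
      (νVu : ↥O) (νGu : ↥O) (νUu : ↥O) :=
    { hf0 := hf0
      hf1 := s36g_forall_fin3 hfA hfB hfC
      hc1 := c1u.isUnit
      hc2 := c2u.isUnit
      hh1 := hh1
      hh2 := hh2
      hN1f := by rw [← hcoe]; exact hN1
      hN2f := by rw [← hcoe]; exact hN2
      hνF := νFu.isUnit
      hνV := νVu.isUnit
      hνG := νGu.isUnit
      hνU := νUu.isUnit
      hh1A := by rw [← hcoe]; exact e1
      hh1C := by rw [← hcoe]; exact e2
      hh1B := by rw [← hcoe]; exact e3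
      hh2A := by rw [← hcoe]; exact e4
      hh2B := by rw [← hcoe]; exact e5
      hh2C := by rw [← hcoe]; exact e6
      hu0 := by rw [← hcoe]; exact hu1
      hu1 := by rw [← hcoe]; exact hu2
      hu2 := by rw [← hcoe]; exact hu3 }
  have eq2 : (p + 1) ^ 2 - 1 = p * (p + 2) := by
    have : (p + 1) ^ 2 = p * (p + 2) + 1 := by ring
    omega
  rw [eq2]
  have key := s36g_locAt_ff (L := L) hπ hx hq hqπ H ND D1 hpts hinf hm D hfH
  exact ⟨key.1, key.2⟩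

/-- the constants of `V` are those of `O`, for a valuation subring `V` containing `↥O` with
`π ∈ 𝔪(V)`. -/
theorem s36g_const_mem_iff (O : ValuationSubring L) [IsDiscreteValuationRing ↥O] [Algebra ↥O F0]
    [IsScalarTower ↥O L F0] {π : ↥O} (hπ : Irreducible π) (V : ValuationSubring F0)
    (hOV : ∀ a : ↥O, algebraMap ↥O F0 a ∈ V) (hπV : algebraMap ↥O F0 π ∈ V.nonunits) (c : L) :
    algebraMap L F0 c ∈ V ↔ c ∈ O := by
  have hcoe : ∀ a : ↥O, algebraMap L F0 (a : L) = algebraMap ↥O F0 a := fun a =>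
    (IsScalarTower.algebraMap_apply ↥O L F0 a).symm
  constructor
  · intro hc
    by_contra hcO
    have hc0 : c ≠ 0 := fun h0 => hcO (h0 ▸ O.zero_mem)
    have h1 : c⁻¹ ∈ O.nonunits := (ValuationSubring.inv_mem_nonunits_iff O).2 (Or.inr hcO)
    obtain ⟨hci, hmax⟩ := ValuationSubring.mem_nonunits_iff_exists_mem_maximalIdeal.1 h1
    rw [hπ.maximalIdeal_eq, Ideal.mem_span_singleton] at hmax
    obtain ⟨t, ht⟩ := hmax
    have h2 : algebraMap L F0 c⁻¹ ∈ V.nonunits := by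
      have e : algebraMap L F0 c⁻¹ = algebraMap ↥O F0 π * algebraMap ↥O F0 t := by
        rw [← map_mul, ← ht, ← hcoe]
      rw [e]
      exact s36g_nonunits_mul_mem V hπV (hOV t)
    rw [map_inv₀, ValuationSubring.inv_mem_nonunits_iff] at h2
    rcases h2 with h2 | h2
    · exact hc0 ((map_eq_zero _).1 h2)
    · exact h2 hc
  · intro hc
    have := hOV ⟨c, hc⟩
    rwa [← hcoe] at this

set_option synthInstance.maxHeartbeats 200000 in
set_option maxHeartbeats 1600000 in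
/-- **[GLUE-MAIN]: THE SEAM `s36c_Glue`** from the point clauses, in one call
(`s36c_glue_of_hloc ∘ s36g_hlocAll`, the (S)-list of `sfc_main` filled in). -/
theorem s36g_glue (O : ValuationSubring L) [IsDiscreteValuationRing ↥O] [Algebra ↥O F0]
    [IsScalarTower ↥O L F0] {π : ↥O} (hπ : Irreducible π) {x : F0} (hx : Transcendental L x)
    [FiniteDimensional L⟮x⟯ F0] [IsFractionRing ↥(fc_chart ↥O ({x} : Set F0)) F0]
    [IsFractionRing ↥(fc_chart ↥O ({x⁻¹} : Set F0)) F0]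
    (hconst : ∀ z : F0, IsAlgebraic L z → z ∈ (algebraMap L F0).range)
    {q : ℕ} (hq : q.Prime) (hqπ : π ∣ ((q : ℕ) : ↥O))
    {VA VB VC : ValuationSubring F0} {e : Fin 3 → ℕ}
    (H : s36tp_Hyp (algebraMap ↥O (Algebra.adjoin ↥O ({x} : Set F0)) π) ![VA, VB, VC] e)
    (he : ∀ i, e i ≤ q)
    {N1 N2 : F0 →* F0} {K1 K2 : Subfield F0}
    (ND : s36g_NormData ![VA, VB, VC] (q - 1) N1 N2 K1 K2) (D1 : ℕ)
    (hpts : ∀ (𝔫 : Ideal (fc_chart ↥O ({x} : Set F0))) (h𝔫 : 𝔫.IsMaximal),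
      algebraMap ↥O (fc_chart ↥O ({x} : Set F0)) π ∈ 𝔫 →
      (haveI := h𝔫.isPrime
       s36g_PtOne π q (fc_chart ↥O ({x} : Set F0)) 𝔫 ∨
       s36g_PtWeak π q D1 (fc_chart ↥O ({x} : Set F0)) 𝔫 ∨
       s36g_PtTri π (q - 1) N1 N2 K1 K2 (fc_chart ↥O ({x} : Set F0))
        (ssm_tp_P (fc_chart ↥O ({x} : Set F0)) VA) (ssm_tp_P (fc_chart ↥O ({x} : Set F0)) VB)
        (ssm_tp_P (fc_chart ↥O ({x} : Set F0)) VC) 𝔫))
    (hinf : ∀ (𝔫 : Ideal (fc_chart ↥O ({x⁻¹} : Set F0))) (h𝔫 : 𝔫.IsMaximal),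
      algebraMap ↥O (fc_chart ↥O ({x⁻¹} : Set F0)) π ∈ 𝔫 →
      (⟨x⁻¹, fc_x_mem_chart x⁻¹⟩ : fc_chart ↥O ({x⁻¹} : Set F0)) ∈ 𝔫 →
      (haveI := h𝔫.isPrime
       s36g_PtOne π q (fc_chart ↥O ({x⁻¹} : Set F0)) 𝔫 ∨
       s36g_PtWeak π q D1 (fc_chart ↥O ({x⁻¹} : Set F0)) 𝔫 ∨
       s36g_PtTri π (q - 1) N1 N2 K1 K2 (fc_chart ↥O ({x⁻¹} : Set F0))
        (ssm_tp_P (fc_chart ↥O ({x⁻¹} : Set F0)) VA) (ssm_tp_P (fc_chart ↥O ({x⁻¹} : Set F0)) VB)
        (ssm_tp_P (fc_chart ↥O ({x⁻¹} : Set F0)) VC) 𝔫))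
    {m : ℕ} (hm : IsUnit ((m : ℕ) : ↥O)) :
    s36c_Glue O VA VB VC N1 N2 q m (q ^ 2 * D1 * q) (fun v : Place L F0 => v.ord) := by
  have hx0 : x ≠ 0 := by
    rintro rfl
    exact hx isAlgebraic_zero
  have hxi : Transcendental L x⁻¹ := fun h => hx (IsAlgebraic.inv_iff.mp h)
  haveI : Algebra.IsAlgebraic (Algebra.adjoin ↥O ({x} : Set F0)) F0 :=
    fc_ff_isAlgebraic (L := L) x
  have hxA : Transcendental ↥O x := fc_ff_transcendental (L := L) hx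
  haveI : IsIntegrallyClosed (Algebra.adjoin ↥O ({x} : Set F0)) := fc_ff_isIntegrallyClosed hxA
  haveI : FaithfulSMul (Algebra.adjoin ↥O ({x} : Set F0)) F0 :=
    (faithfulSMul_iff_algebraMap_injective _ _).2 Subtype.val_injective
  have hC : ssm_tp_Chart (algebraMap ↥O (Algebra.adjoin ↥O ({x} : Set F0)) π)
      (fc_chart ↥O ({x} : Set F0)) := ssm_tp_ff_chart (L := L) hπ hx
  have hOV : ∀ i (a : ↥O), algebraMap ↥O F0 a ∈ (![VA, VB, VC] : Fin 3 → _) i := fun i a =>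
    H.chart_le hC i ((fc_chart ↥O ({x} : Set F0)).algebraMap_mem a)
  have hπV : ∀ i, algebraMap ↥O F0 π ∈ ((![VA, VB, VC] : Fin 3 → _) i).nonunits := fun i =>
    ((H.ovr i).cen _).2 (dvd_refl _)
  have hqV : ∀ i, (algebraMap ↥O F0 π)⁻¹ * (q : F0) ∈ (![VA, VB, VC] : Fin 3 → _) i := by
    intro i
    obtain ⟨t, ht⟩ := hqπ
    have e1 : (q : F0) = algebraMap ↥O F0 π * algebraMap ↥O F0 t := by
      rw [← map_mul, ← ht, map_natCast]
    have hϖ0 : algebraMap ↥O F0 π ≠ 0 := H.algebraMap_ne_zero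
    rw [e1, ← mul_assoc, inv_mul_cancel₀ hϖ0, one_mul]
    exact hOV i t
  have hram : ∀ i, ∀ z ∈ ((![VA, VB, VC] : Fin 3 → _) i).nonunits,
      (algebraMap ↥O F0 π)⁻¹ * z ^ q ∈ (![VA, VB, VC] : Fin 3 → _) i := fun i z hz =>
    H.ram_le i hz (he i)
  have hmod := (s36tp_ff_model (L := L) hπ hx H).2.2.2.2.2.2.2.2
  have hglue := s36c_glue_of_hloc O VA VB VC N1 N2 q m (q ^ 2 * D1)
    (fun v : Place L F0 => v.ord) π hx0 hm (fc_ff_finite (L := L) hx)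
    (sfc_ff_hnu (L := L) hπ hx) (sfc_ff_mem_S (L := L) hπ hx) (sfc_ff_mem_S (L := L) hπ hxi)
    (fun z h1 h2 => by
      obtain ⟨a, ha⟩ := fch_H0 x hx hconst z h1 h2
      exact ⟨a, ha⟩)
    (fun z hA hB hC' => (hmod z).2 (s36g_forall_fin3 hA hB hC')) hq
    (hqV 0) (hqV 1) (hqV 2) (hram 0) (hram 1) (hram 2)
    (s36g_const_mem_iff O hπ VA (hOV 0) (hπV 0)) (s36g_const_mem_iff O hπ VB (hOV 1) (hπV 1))
    (s36g_const_mem_iff O hπ VC (hOV 2) (hπV 2))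
    (s36g_hlocAll O hπ hx hq hqπ H ND D1 hpts hinf hm)
  exact hglue

end HlocAll

end Fermat.Agent.S36
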