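/-
Project S36 (Carayol), cell [GLUE-MAIN]/[L3d] (helper3): THE TRIPLE-POINT CLAUSE `s36g_PtTri` FROM
helper10's `s36tr_Concl3` AND THE VALUATION-LEVEL SIDE DATA (prefix `s36g_`).

* `s36g_exists_lift`      : a ring hom into `F2` with values in the image of `R ↪ F2` lifts to `R`;
* `s36g_surj_of_val`      : ONE SIDE, surjectivity: `R₁` (the local ring of the lower chart at the
    node) with a prime `𝔭`, `R₁ / 𝔭` integrally closed, `(R₁)_𝔭 = VF` (element form), `R ⊇ j(R₁)`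
    integral over `j(R₁)`, `𝔓 = 𝔪(VA) ∩ R`, `VA ∩ F₁ = VF`, `κ(VA) = κ(VF)` (`res`) ⟹ every element
    of `R` is congruent modulo `𝔓` to an element of `j(R₁)`;
* `s36g_norm_unit_of_int` : ONE SIDE, norms: `R₁` integrally closed with fraction field `F₁`,
    `R` integral over `R₁` ⟹ `N = (F₁ → F₂) ∘ N_{F₂/F₁}` maps `Rˣ` to `Rˣ`;
* `s36g_lift_of_chart`, `s36g_int_of_chart` : the containment `j(R₁) ⊆ R` and the integrality of
    `R = (B₂)_{𝔫P}` over `R₁ = (B₁)_𝔫` from the output of helper10's `s36tr_ChartHyp.chart`;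
* `s36g_link_of_map`, `s36g_mem_map_iff` : the link `(B_𝔫)_(u) = V` from `(u) = P B_𝔫`; `P B_𝔫 = 𝔪(V) ∩ B_𝔫`;
* `s36g_side_of_chart`, `s36g_normU_of_chart` : the side clauses in chart form (one call per branch /
    per norm);
* **`s36g_ptTri_of_concl3`** : `s36tr_Concl3` + the six side clauses (ideal form) ⟹ `s36g_PtTri`;
* **`s36g_ptTri_of_sides`** : the same in ONE call from the chart-level data of the two sides.
-/
import Mathlib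
import Fermat.Agent.S36.Glue.Main
import Fermat.Agent.S36.Tri.Chart

set_option autoImplicit false
set_option linter.unusedSectionVars false
set_option linter.style.haveILetI false

namespace Fermat.Agent.S36

open Fermat.Agent.SS Fermat.Agent.JT3 Polynomial

universe v

section Side

variable {R1 F1 R F2 : Type*} [CommRing R1] [Field F1] [Algebra R1 F1]
  [CommRing R] [Field F2] [Algebra R F2]

/-- a ring hom into `F2` with values in the image of the injection `R → F2` lifts to `R`. -/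
theorem s36g_exists_lift (hRinj : Function.Injective (algebraMap R F2)) (φ : R1 →+* F2)
    (h : ∀ r : R1, ∃ r' : R, algebraMap R F2 r' = φ r) :
    ∃ ρ : R1 →+* R, ∀ r : R1, algebraMap R F2 (ρ r) = φ r := by
  classical
  choose f hf using h
  refine ⟨{ toFun := f, map_one' := ?_, map_mul' := ?_, map_zero' := ?_, map_add' := ?_ }, hf⟩
  · apply hRinj; rw [hf, map_one, map_one]
  · intro a b; apply hRinj; rw [hf, map_mul, map_mul, hf, hf]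
  · apply hRinj; rw [hf, map_zero, map_zero]
  · intro a b; apply hRinj; rw [hf, map_add, map_add, hf, hf]

/-- restriction of the maximal ideal: `W ∩ F1 = W0` along `j` ⟹ `𝔪(W) ∩ F1 = 𝔪(W0)`. -/
theorem s36g_nonunits_restrict (j : F1 →+* F2) {W : ValuationSubring F2}
    {W0 : ValuationSubring F1} (r : ∀ y : F1, j y ∈ W ↔ y ∈ W0) (y : F1) :
    j y ∈ W.nonunits ↔ y ∈ W0.nonunits := by
  rw [ValuationSubring.mem_nonunits_iff_or, ValuationSubring.mem_nonunits_iff_or, map_eq_zero,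
    ← map_inv₀, r]

/-- **ONE SIDE, SURJECTIVITY.** -/
theorem s36g_surj_of_val [IsDomain R1] (hRinj : Function.Injective (algebraMap R F2))
    (j : F1 →+* F2)
    (hR1 : ∀ r : R1, ∃ r' : R, algebraMap R F2 r' = j (algebraMap R1 F1 r))
    (hint : ∀ x : R, (j.comp (algebraMap R1 F1)).IsIntegralElem (algebraMap R F2 x))
    (𝔭 : Ideal R1) [𝔭.IsPrime] [IsIntegrallyClosed (R1 ⧸ 𝔭)] (𝔓 : Ideal R) [𝔓.IsPrime]
    (VF : ValuationSubring F1) (VA : ValuationSubring F2)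
    (hmem1 : ∀ r : R1, r ∈ 𝔭 ↔ algebraMap R1 F1 r ∈ VF.nonunits)
    (hloc1 : ∀ y ∈ VF, ∃ r1 r2 : R1, r2 ∉ 𝔭 ∧ y * algebraMap R1 F1 r2 = algebraMap R1 F1 r1)
    (hle : ∀ r : R, algebraMap R F2 r ∈ VA)
    (hmem : ∀ r : R, r ∈ 𝔓 ↔ algebraMap R F2 r ∈ VA.nonunits)
    (rA : ∀ y : F1, j y ∈ VA ↔ y ∈ VF)
    (res : ∀ x ∈ VA, ∃ y ∈ VF, x - j y ∈ VA.nonunits) (s : R) :
    ∃ (r1 : R1) (r : R), algebraMap R F2 r = j (algebraMap R1 F1 r1) ∧ s - r ∈ 𝔓 := by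
  obtain ⟨ρ, hρ⟩ := s36g_exists_lift hRinj (j.comp (algebraMap R1 F1)) hR1
  have hρ' : ∀ r : R1, algebraMap R F2 (ρ r) = j (algebraMap R1 F1 r) := hρ
  letI : Algebra R1 R := ρ.toAlgebra
  have halg : ∀ r : R1, algebraMap R1 R r = ρ r := fun r => rfl
  haveI : Algebra.IsIntegral R1 R := by
    refine ⟨fun x => ?_⟩
    obtain ⟨P, hP, hPx⟩ := hint x
    refine ⟨P, hP, ?_⟩
    apply hRinj
    rw [map_zero, Polynomial.hom_eval₂]
    have : (algebraMap R F2).comp (algebraMap R1 R) = j.comp (algebraMap R1 F1) :=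
      RingHom.ext fun r => hρ' r
    rw [this]
    exact hPx
  haveI : 𝔓.LiesOver 𝔭 := by
    refine ⟨?_⟩
    ext r
    rw [Ideal.under_def, Ideal.mem_comap, halg, hmem, hρ', s36g_nonunits_restrict j rA, hmem1]
  have hbir : ∀ s : R, ∃ r1 r2 : R1, r2 ∉ 𝔭 ∧
      algebraMap R1 R r2 * s - algebraMap R1 R r1 ∈ 𝔓 := by
    intro s
    obtain ⟨y, hy, hxy⟩ := res _ (hle s)
    obtain ⟨r1, r2, hr2, h12⟩ := hloc1 y hy
    refine ⟨r1, r2, hr2, ?_⟩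
    rw [hmem, halg, halg, map_sub, map_mul, hρ', hρ', ← h12, map_mul]
    have e : j (algebraMap R1 F1 r2) * algebraMap R F2 s - j y * j (algebraMap R1 F1 r2) =
        (algebraMap R F2 s - j y) * j (algebraMap R1 F1 r2) := by ring
    rw [e]
    have h2 : j (algebraMap R1 F1 r2) ∈ VA := by rw [← hρ']; exact hle _
    exact s36g_nonunits_mul_mem VA hxy h2
  obtain ⟨r, hr⟩ := s36g_surj_of_birational 𝔭 𝔓 hbir s
  exact ⟨r, algebraMap R1 R r, hρ' r, hr⟩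

/-- **ONE SIDE, NORMS OF UNITS.** -/
theorem s36g_norm_unit_of_int [IsDomain R1] [IsIntegrallyClosed R1] [IsFractionRing R1 F1]
    [Algebra F1 F2] (hRinj : Function.Injective (algebraMap R F2))
    (hR1 : ∀ r : R1, ∃ r' : R, algebraMap R F2 r' = algebraMap F1 F2 (algebraMap R1 F1 r))
    (hint : ∀ x : R,
      ((algebraMap F1 F2).comp (algebraMap R1 F1)).IsIntegralElem (algebraMap R F2 x))
    (N : F2 →* F2) (hN : ∀ x : F2, N x = algebraMap F1 F2 (Algebra.norm F1 x)) (ω : Rˣ) :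
    ∃ υ : Rˣ, N (algebraMap R F2 (ω : R)) = algebraMap R F2 (υ : R) := by
  letI : Algebra R1 F2 := ((algebraMap F1 F2).comp (algebraMap R1 F1)).toAlgebra
  haveI : IsScalarTower R1 F1 F2 := IsScalarTower.of_algebraMap_eq fun _ => rfl
  obtain ⟨υ, hυ⟩ := s36g_norm_unit (R1 := R1) (K1 := F1) (F := F2) (R := R) hRinj
    (fun r => hR1 r) (fun x => hint x) ω
  exact ⟨υ, by rw [hN, hυ]⟩

/-- **ONE SIDE, NORMS OF UNITS, explicit embedding**: `j : F1 →+* F2` explicit, the norm being taken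
to a field `K'` (with `[Algebra K' F2]`) identified with `F1` by `w : F1 ≃+* K'`, `K' → F2` being
`j ∘ w⁻¹` (e.g. `F1 = E₁`, `j = W₂ ∘ inclusion`, `K' = β E₁ ⊆ E₂`). -/
theorem s36g_norm_unit_of_equiv [IsDomain R1] [IsIntegrallyClosed R1] [IsFractionRing R1 F1]
    (hRinj : Function.Injective (algebraMap R F2)) (j : F1 →+* F2)
    {K' : Type*} [Field K'] [Algebra K' F2] (w : F1 ≃+* K')
    (hw : ∀ y : F1, algebraMap K' F2 (w y) = j y)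
    (hR1 : ∀ r : R1, ∃ r' : R, algebraMap R F2 r' = j (algebraMap R1 F1 r))
    (hint : ∀ x : R, (j.comp (algebraMap R1 F1)).IsIntegralElem (algebraMap R F2 x))
    (N : F2 →* F2) (hN : ∀ x : F2, N x = algebraMap K' F2 (Algebra.norm K' x)) (ω : Rˣ) :
    ∃ υ : Rˣ, N (algebraMap R F2 (ω : R)) = algebraMap R F2 (υ : R) := by
  letI : Algebra F1 F2 := j.toAlgebra
  have hj : ∀ y : F1, algebraMap F1 F2 y = j y := fun y => rfl
  refine s36g_norm_unit_of_int (R1 := R1) (F1 := F1) (R := R) (F2 := F2) hRinj hR1 hint N ?_ ω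
  intro x
  have he : RingHom.comp (algebraMap K' F2) (w : F1 →+* K') =
      RingHom.comp ((RingEquiv.refl F2 : F2 ≃+* F2) : F2 →+* F2) (algebraMap F1 F2) :=
    RingHom.ext fun y => hw y
  have h1 := Algebra.norm_eq_of_equiv_equiv w (RingEquiv.refl F2) he x
  rw [hN, h1, hj, ← hw, RingEquiv.apply_symm_apply]
  rfl

end Side

section OfChart

variable {B1 : Type*} [CommRing B1] [IsDomain B1] {F1 : Type*} [Field F1] [Algebra B1 F1]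
  [IsFractionRing B1 F1]
  {B2 : Type*} [CommRing B2] [IsDomain B2] {F2 : Type*} [Field F2] [Algebra B2 F2]
  [IsFractionRing B2 F2]

/-- `j` maps the local ring `(B₁)_𝔫` into the local ring `(B₂)_{𝔫P}` for `𝔫P` over `𝔫`. -/
theorem s36g_lift_of_chart (ι : B1 →+* B2) (j : F1 →+* F2)
    (hcomm : ∀ b : B1, algebraMap B2 F2 (ι b) = j (algebraMap B1 F1 b))
    (𝔫 : Ideal B1) [𝔫.IsPrime] (𝔫P : Ideal B2) [𝔫P.IsPrime] (hcomap : 𝔫P.comap ι = 𝔫)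
    (r : ssl_locSub F1 𝔫) :
    ∃ r' : ssl_locSub F2 𝔫P, algebraMap (ssl_locSub F2 𝔫P) F2 r' =
      j (algebraMap (ssl_locSub F1 𝔫) F1 r) := by
  obtain ⟨a, s, hs, has⟩ := (ssl_mem_locSub 𝔫 (r : F1)).1 r.2
  have hmem : j (r : F1) ∈ ssl_locSub F2 𝔫P := by
    rw [ssl_mem_locSub]
    refine ⟨ι a, ι s, fun h => hs ?_, ?_⟩
    · rw [← hcomap]; exact h
    · rw [hcomm, hcomm, ← map_mul, has]
  exact ⟨⟨j (r : F1), hmem⟩, rfl⟩

/-- the local ring `(B₂)_{𝔫P}` is integral over `(B₁)_𝔫`, when `B₂` is integral over `B₁` and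
`(B₂)_{𝔫P} = B₂[ι(B₁ ∖ 𝔫)⁻¹]` (the third clause of `s36tr_ChartHyp.chart`). -/
theorem s36g_int_of_chart (ι : B1 →+* B2) (j : F1 →+* F2)
    (hcomm : ∀ b : B1, algebraMap B2 F2 (ι b) = j (algebraMap B1 F1 b)) (hint : ι.IsIntegral)
    (𝔫 : Ideal B1) [𝔫.IsPrime] (𝔫P : Ideal B2) [𝔫P.IsPrime]
    (hloc : ∀ z : F2, z ∈ ssl_locSub F2 𝔫P → ∃ (s : B1) (b : B2), s ∉ 𝔫 ∧
      algebraMap B2 F2 (ι s) * z = algebraMap B2 F2 b)
    (x : ssl_locSub F2 𝔫P) :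
    (j.comp (algebraMap (ssl_locSub F1 𝔫) F1)).IsIntegralElem
      (algebraMap (ssl_locSub F2 𝔫P) F2 x) := by
  obtain ⟨s, b, hs, hsb⟩ := hloc (x : F2) x.2
  have hs0 : algebraMap B1 F1 s ≠ 0 := by
    intro h0
    apply hs
    have : s = 0 := IsFractionRing.injective B1 F1 (by rw [h0, map_zero])
    rw [this]; exact 𝔫.zero_mem
  -- `b` is integral
  have hb : (j.comp (algebraMap (ssl_locSub F1 𝔫) F1)).IsIntegralElem (algebraMap B2 F2 b) := by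
    obtain ⟨P, hP, hPb⟩ := hint b
    refine ⟨P.map (algebraMap B1 (ssl_locSub F1 𝔫)), hP.map _, ?_⟩
    rw [Polynomial.eval₂_map]
    have e1 : (j.comp (algebraMap (ssl_locSub F1 𝔫) F1)).comp
        (algebraMap B1 (ssl_locSub F1 𝔫)) = (algebraMap B2 F2).comp ι :=
      RingHom.ext fun c => (hcomm c).symm
    rw [e1, ← Polynomial.hom_eval₂, hPb, map_zero]
  -- the inverse of `ι s`
  have hsinv : (algebraMap B1 F1 s)⁻¹ ∈ ssl_locSub F1 𝔫 := by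
    rw [ssl_mem_locSub]
    exact ⟨1, s, hs, by rw [inv_mul_cancel₀ hs0, map_one]⟩
  have hinv : (j.comp (algebraMap (ssl_locSub F1 𝔫) F1)).IsIntegralElem
      (j (algebraMap B1 F1 s)⁻¹) :=
    (j.comp (algebraMap (ssl_locSub F1 𝔫) F1)).isIntegralElem_map
      (x := (⟨(algebraMap B1 F1 s)⁻¹, hsinv⟩ : ssl_locSub F1 𝔫))
  have hx : algebraMap (ssl_locSub F2 𝔫P) F2 x =
      algebraMap B2 F2 b * j (algebraMap B1 F1 s)⁻¹ := by
    have h1 : j (algebraMap B1 F1 s) ≠ 0 := (map_ne_zero j).2 hs0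
    rw [← hsb, hcomm, map_inv₀]
    show (x : F2) = j (algebraMap B1 F1 s) * (x : F2) * (j (algebraMap B1 F1 s))⁻¹
    field_simp
  rw [hx]
  exact RingHom.IsIntegralElem.mul _ hb hinv

end OfChart

section LinkMap

variable {A0 : Type*} [CommRing A0] {F0 : Type v} [Field F0] [Algebra A0 F0]
  {B : Subalgebra A0 F0} [IsFractionRing B F0] [IsNoetherianRing B] [IsIntegrallyClosed B]

/-- the link `(B_𝔫)_(u) = V` from the fields `hPF` / `hPV` of `s36tr_ChartHyp` (the output of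
`s35l_node_ring`): `(u) = P B_𝔫`, `P = 𝔪(V) ∩ B ⊆ 𝔫`, `B_P = V`. -/
theorem s36g_link_of_map (𝔫 : Ideal B) [𝔫.IsPrime] (V : ValuationSubring F0) (P : Ideal B)
    [hPp : P.IsPrime] (hP𝔫 : P ≤ 𝔫) (hBV : ∀ b : B, (b : F0) ∈ V)
    (hP : ∀ b : B, b ∈ P ↔ (b : F0) ∈ V.nonunits)
    (hV : ∀ z ∈ V, ∃ t : B, t ∉ P ∧ (t : F0) * z ∈ B)
    (u : ssl_locSub F0 𝔫) (hu : Prime u)
    (hmap : Ideal.span {u} = P.map (algebraMap B (ssl_locSub F0 𝔫))) :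
    s36g_Link (F := F0) u V := by
  refine s36g_link_of_comap 𝔫 V P hBV hP hV u hu ?_
  rw [hmap]
  have hdisj : Disjoint (𝔫.primeCompl : Set B) (P : Set B) := by
    rw [Set.disjoint_left]
    intro x hx hxP
    exact hx (hP𝔫 hxP)
  exact IsLocalization.comap_map_of_isPrime_disjoint 𝔫.primeCompl (ssl_locSub F0 𝔫) hPp hdisj

end LinkMap

section SideChart

variable {B1 : Type*} [CommRing B1] [IsDomain B1] [IsNoetherianRing B1] {F1 : Type*} [Field F1]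
  [Algebra B1 F1] [IsFractionRing B1 F1]
  {A0 : Type*} [CommRing A0] {F0 : Type v} [Field F0] [Algebra A0 F0]
  {B : Subalgebra A0 F0} [IsFractionRing B F0]

/-- the local ring `B_𝔫` lies in `V`, and `P B_𝔫 = 𝔪(V) ∩ B_𝔫`, for a prime `P = 𝔪(V) ∩ B`
inside `𝔫`. -/
theorem s36g_mem_map_iff (𝔫 : Ideal B) [𝔫.IsPrime] (V : ValuationSubring F0) (P : Ideal B)
    (hP𝔫 : P ≤ 𝔫) (hBV : ∀ b : B, (b : F0) ∈ V)
    (hP : ∀ b : B, b ∈ P ↔ (b : F0) ∈ V.nonunits) :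
    (∀ r : ssl_locSub F0 𝔫, (r : F0) ∈ V) ∧
      ∀ r : ssl_locSub F0 𝔫, r ∈ P.map (algebraMap B (ssl_locSub F0 𝔫)) ↔
        (r : F0) ∈ V.nonunits := by
  have hunit : ∀ s : B, s ∉ 𝔫 → (s : F0) ≠ 0 ∧ ((s : F0))⁻¹ ∈ V := by
    intro s hs
    have h1 : (s : F0) ∉ V.nonunits := fun hc => hs (hP𝔫 ((hP s).2 hc))
    rw [ValuationSubring.mem_nonunits_iff_or] at h1
    push Not at h1
    exact h1
  have hrepr : ∀ r : ssl_locSub F0 𝔫, ∃ a s : B, s ∉ 𝔫 ∧ (r : F0) * (s : F0) = (a : F0) :=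
    fun r => (ssl_mem_locSub 𝔫 (r : F0)).1 r.2
  have hle : ∀ r : ssl_locSub F0 𝔫, (r : F0) ∈ V := by
    intro r
    obtain ⟨a, s, hs, has⟩ := hrepr r
    obtain ⟨hs0, hsinv⟩ := hunit s hs
    have hr : (r : F0) = (a : F0) * ((s : F0))⁻¹ := by
      rw [← has, mul_assoc, mul_inv_cancel₀ hs0, mul_one]
    rw [hr]
    exact V.mul_mem _ _ (hBV a) hsinv
  refine ⟨hle, fun r => ?_⟩
  constructor
  · intro hr
    obtain ⟨⟨a, s⟩, has⟩ :=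
      (IsLocalization.mem_map_algebraMap_iff 𝔫.primeCompl (ssl_locSub F0 𝔫)).1 hr
    have hs : (s : B) ∉ 𝔫 := s.2
    obtain ⟨hs0, hsinv⟩ := hunit s hs
    have has' : (r : F0) * ((s : B) : F0) = ((a : B) : F0) := congrArg Subtype.val has
    have hr' : (r : F0) = ((a : B) : F0) * (((s : B) : F0))⁻¹ := by
      rw [← has', mul_assoc, mul_inv_cancel₀ hs0, mul_one]
    rw [hr']
    exact s36g_nonunits_mul_mem V ((hP a).1 a.2) hsinv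
  · intro hr
    obtain ⟨a, s, hs, has⟩ := hrepr r
    have ha : a ∈ P := by
      rw [hP, ← has]
      exact s36g_nonunits_mul_mem V hr (hBV s)
    rw [IsLocalization.mem_map_algebraMap_iff 𝔫.primeCompl (ssl_locSub F0 𝔫)]
    exact ⟨(⟨a, ha⟩, ⟨s, hs⟩), Subtype.ext has⟩

/-- **ONE SIDE, ONE BRANCH, CHART FORM**: every element of the local ring `R = B_𝔫` of the top chart
at the triple point is congruent modulo the branch `P_X R` to an element of `R ∩ K`, `K ⊇ j(F₁)`.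
Inputs: the output of helper10's `s36tr_ChartHyp.chart` (`hcomap`, `hloc`), the node data
`(u, v)` of the lower chart with the link `(R₁)_(u) = VF`, the chart package of the branch
(`P_X = 𝔪(V_X) ∩ B`), `V_X ∩ F₁ = VF` and `κ(V_X) = κ(VF)`. -/
theorem s36g_side_of_chart (ι : B1 →+* B) (j : F1 →+* F0)
    (hcomm : ∀ b : B1, algebraMap B F0 (ι b) = j (algebraMap B1 F1 b)) (hint : ι.IsIntegral)
    (𝔫1 : Ideal B1) [𝔫1.IsPrime] (𝔫 : Ideal B) [𝔫.IsPrime] (hcomap : 𝔫.comap ι = 𝔫1)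
    (hloc : ∀ z : F0, z ∈ ssl_locSub F0 𝔫 → ∃ (s : B1) (b : B), s ∉ 𝔫1 ∧
      algebraMap B F0 (ι s) * z = algebraMap B F0 b)
    {u v : ssl_locSub F1 𝔫1} (hu : Prime u)
    (hmax : 𝔫1.map (algebraMap B1 (ssl_locSub F1 𝔫1)) = Ideal.span {u, v})
    (VF : ValuationSubring F1) (lF : s36g_Link (F := F1) u VF)
    (K : Subfield F0) (hK : ∀ y : F1, j y ∈ K)
    (VX : ValuationSubring F0) (PX : Ideal B) [hPXp : PX.IsPrime] (hX𝔫 : PX ≤ 𝔫)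
    (hBX : ∀ b : B, (b : F0) ∈ VX) (hPX : ∀ b : B, b ∈ PX ↔ (b : F0) ∈ VX.nonunits)
    (rX : ∀ y : F1, j y ∈ VX ↔ y ∈ VF)
    (resX : ∀ x ∈ VX, ∃ y ∈ VF, x - j y ∈ VX.nonunits) (s : ssl_locSub F0 𝔫) :
    ∃ r : ssl_locSub F0 𝔫, (r : F0) ∈ K ∧
      s - r ∈ PX.map (algebraMap B (ssl_locSub F0 𝔫)) := by
  haveI : IsLocalRing (ssl_locSub F1 𝔫1) := IsLocalization.AtPrime.isLocalRing _ 𝔫1
  haveI : IsNoetherianRing (ssl_locSub F1 𝔫1) :=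
    IsLocalization.isNoetherianRing 𝔫1.primeCompl _ inferInstance
  have hmax' : IsLocalRing.maximalIdeal (ssl_locSub F1 𝔫1) = Ideal.span {u, v} := by
    rw [← hmax]
    exact (IsLocalization.AtPrime.map_eq_maximalIdeal 𝔫1 (ssl_locSub F1 𝔫1)).symm
  haveI hic : IsIntegrallyClosed (ssl_locSub F1 𝔫1 ⧸ Ideal.span {u}) :=
    s36g_ic_quot_of_span_pair hu hmax'
  haveI hup : (Ideal.span {u} : Ideal (ssl_locSub F1 𝔫1)).IsPrime :=
    (Ideal.span_singleton_prime hu.ne_zero).2 hu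
  obtain ⟨hle, hmem⟩ := s36g_mem_map_iff 𝔫 VX PX hX𝔫 hBX hPX
  haveI h𝔓 : (PX.map (algebraMap B (ssl_locSub F0 𝔫))).IsPrime := by
    have hdisj : Disjoint (𝔫.primeCompl : Set B) (PX : Set B) := by
      rw [Set.disjoint_left]
      intro x hx hxP
      exact hx (hX𝔫 hxP)
    exact IsLocalization.isPrime_of_isPrime_disjoint 𝔫.primeCompl (ssl_locSub F0 𝔫) PX hPXp hdisj
  obtain ⟨r1, r, hr, hsr⟩ := s36g_surj_of_val (R1 := ssl_locSub F1 𝔫1) (F1 := F1)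
    (R := ssl_locSub F0 𝔫) (F2 := F0) Subtype.val_injective j
    (s36g_lift_of_chart ι j hcomm 𝔫1 𝔫 hcomap)
    (s36g_int_of_chart ι j hcomm hint 𝔫1 𝔫 hloc)
    (Ideal.span {u}) (PX.map (algebraMap B (ssl_locSub F0 𝔫))) VF VX lF.mem
    (fun y hy => by
      obtain ⟨r, s, hs, hrs⟩ := lF.loc y hy
      exact ⟨r, s, hs, hrs⟩)
    hle hmem rX resX s
  refine ⟨r, ?_, hsr⟩
  have : (r : F0) = j (algebraMap (ssl_locSub F1 𝔫1) F1 r1) := hr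
  rw [this]
  exact hK _

/-- **ONE SIDE, NORMS OF UNITS, CHART FORM.** -/
theorem s36g_normU_of_chart [IsIntegrallyClosed B1] [Algebra F1 F0] (ι : B1 →+* B)
    (hcomm : ∀ b : B1, algebraMap B F0 (ι b) = algebraMap F1 F0 (algebraMap B1 F1 b))
    (hint : ι.IsIntegral)
    (𝔫1 : Ideal B1) [𝔫1.IsPrime] (𝔫 : Ideal B) [𝔫.IsPrime] (hcomap : 𝔫.comap ι = 𝔫1)
    (hloc : ∀ z : F0, z ∈ ssl_locSub F0 𝔫 → ∃ (s : B1) (b : B), s ∉ 𝔫1 ∧
      algebraMap B F0 (ι s) * z = algebraMap B F0 b)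
    (N : F0 →* F0) (hN : ∀ x : F0, N x = algebraMap F1 F0 (Algebra.norm F1 x))
    (ω : (ssl_locSub F0 𝔫)ˣ) :
    ∃ υ : (ssl_locSub F0 𝔫)ˣ,
      N ((ω : ssl_locSub F0 𝔫) : F0) = ((υ : ssl_locSub F0 𝔫) : F0) := by
  haveI : IsIntegrallyClosed (ssl_locSub F1 𝔫1) :=
    isIntegrallyClosed_of_isLocalization _ 𝔫1.primeCompl 𝔫1.primeCompl_le_nonZeroDivisors
  exact s36g_norm_unit_of_int (R1 := ssl_locSub F1 𝔫1) (F1 := F1) (R := ssl_locSub F0 𝔫)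
    (F2 := F0) Subtype.val_injective
    (s36g_lift_of_chart ι (algebraMap F1 F0) hcomm 𝔫1 𝔫 hcomap)
    (s36g_int_of_chart ι (algebraMap F1 F0) hcomm hint 𝔫1 𝔫 hloc) N hN ω

/-- **ONE SIDE, NORMS OF UNITS, CHART FORM, explicit embedding** (see `s36g_norm_unit_of_equiv`). -/
theorem s36g_normU_of_chart' [IsIntegrallyClosed B1] (ι : B1 →+* B) (j : F1 →+* F0)
    (hcomm : ∀ b : B1, algebraMap B F0 (ι b) = j (algebraMap B1 F1 b))
    (hint : ι.IsIntegral)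
    (𝔫1 : Ideal B1) [𝔫1.IsPrime] (𝔫 : Ideal B) [𝔫.IsPrime] (hcomap : 𝔫.comap ι = 𝔫1)
    (hloc : ∀ z : F0, z ∈ ssl_locSub F0 𝔫 → ∃ (s : B1) (b : B), s ∉ 𝔫1 ∧
      algebraMap B F0 (ι s) * z = algebraMap B F0 b)
    {K' : Type*} [Field K'] [Algebra K' F0] (w : F1 ≃+* K')
    (hw : ∀ y : F1, algebraMap K' F0 (w y) = j y)
    (N : F0 →* F0) (hN : ∀ x : F0, N x = algebraMap K' F0 (Algebra.norm K' x))
    (ω : (ssl_locSub F0 𝔫)ˣ) :
    ∃ υ : (ssl_locSub F0 𝔫)ˣ,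
      N ((ω : ssl_locSub F0 𝔫) : F0) = ((υ : ssl_locSub F0 𝔫) : F0) := by
  haveI : IsIntegrallyClosed (ssl_locSub F1 𝔫1) :=
    isIntegrallyClosed_of_isLocalization _ 𝔫1.primeCompl 𝔫1.primeCompl_le_nonZeroDivisors
  exact s36g_norm_unit_of_equiv (R1 := ssl_locSub F1 𝔫1) (F1 := F1) (R := ssl_locSub F0 𝔫)
    (F2 := F0) Subtype.val_injective j w hw
    (s36g_lift_of_chart ι j hcomm 𝔫1 𝔫 hcomap)
    (s36g_int_of_chart ι j hcomm hint 𝔫1 𝔫 hloc) N hN ω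

end SideChart

section Assembly

variable {A0 : Type*} [CommRing A0] {F0 : Type v} [Field F0] [Algebra A0 F0]
  {B : Subalgebra A0 F0} [IsFractionRing B F0]

/-- **THE TRIPLE-POINT CLAUSE** from helper10's two-sided conclusion `s36tr_Concl3` at the point
and the six side clauses (norms of units; surjectivity modulo the branches, in ideal form). -/
theorem s36g_ptTri_of_concl3 (π : A0) {p : ℕ} {N1 N2 : F0 →* F0} {K1 K2 : Subfield F0}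
    {PA PB PC 𝔫 : Ideal B} [h𝔫 : 𝔫.IsPrime] [hPA : PA.IsPrime] [hPB : PB.IsPrime]
    [hPC : PC.IsPrime] (hA𝔫 : PA ≤ 𝔫) (hB𝔫 : PB ≤ 𝔫) (hC𝔫 : PC ≤ 𝔫)
    (h3 : s36tr_Concl3 (p + 1) (algebraMap A0 B π) 𝔫 PA PB PC (ssl_locSub F0 𝔫))
    (hN1 : ∀ ω : (ssl_locSub F0 𝔫)ˣ, ∃ υ : (ssl_locSub F0 𝔫)ˣ,
      N1 ((ω : ssl_locSub F0 𝔫) : F0) = ((υ : ssl_locSub F0 𝔫) : F0))
    (hN2 : ∀ ω : (ssl_locSub F0 𝔫)ˣ, ∃ υ : (ssl_locSub F0 𝔫)ˣ,
      N2 ((ω : ssl_locSub F0 𝔫) : F0) = ((υ : ssl_locSub F0 𝔫) : F0))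
    (hsA1 : ∀ s : ssl_locSub F0 𝔫, ∃ r : ssl_locSub F0 𝔫, (r : F0) ∈ K1 ∧
      s - r ∈ PA.map (algebraMap B (ssl_locSub F0 𝔫)))
    (hsC1 : ∀ s : ssl_locSub F0 𝔫, ∃ r : ssl_locSub F0 𝔫, (r : F0) ∈ K1 ∧
      s - r ∈ PC.map (algebraMap B (ssl_locSub F0 𝔫)))
    (hsB2 : ∀ s : ssl_locSub F0 𝔫, ∃ r : ssl_locSub F0 𝔫, (r : F0) ∈ K2 ∧
      s - r ∈ PB.map (algebraMap B (ssl_locSub F0 𝔫)))
    (hsC2 : ∀ s : ssl_locSub F0 𝔫, ∃ r : ssl_locSub F0 𝔫, (r : F0) ∈ K2 ∧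
      s - r ∈ PC.map (algebraMap B (ssl_locSub F0 𝔫))) :
    s36g_PtTri π p N1 N2 K1 K2 B PA PB PC 𝔫 := by
  obtain ⟨hufd, a, b, c, w, ha, hb, hc, hPAa, hPBb, hPCc, hfac, hab, hac, hbc⟩ := h3
  have hdisj : ∀ {P : Ideal B}, P ≤ 𝔫 → Disjoint (𝔫.primeCompl : Set B) (P : Set B) := by
    intro P hP
    rw [Set.disjoint_left]
    intro x hx hxP
    exact hx (hP hxP)
  have hcomap : ∀ {P : Ideal B} [P.IsPrime], P ≤ 𝔫 →
      (P.map (algebraMap B (ssl_locSub F0 𝔫))).comap (algebraMap B (ssl_locSub F0 𝔫)) = P :=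
    fun {P} hPp hP =>
      IsLocalization.comap_map_of_isPrime_disjoint 𝔫.primeCompl (ssl_locSub F0 𝔫) hPp (hdisj hP)
  refine ⟨hufd, a, b, c, ha, hb, hc, ?_, hab, hac, hbc, ?_, ?_, ?_, hN1, hN2, ?_, ?_, ?_, ?_⟩
  · refine ⟨w⁻¹, ?_⟩
    rw [hfac, Nat.add_sub_cancel]
    have : (w : ssl_locSub F0 𝔫) * a * b * c ^ p * ((w⁻¹ : (ssl_locSub F0 𝔫)ˣ) : ssl_locSub F0 𝔫) =
        a * b * c ^ p * ((w : ssl_locSub F0 𝔫) * ((w⁻¹ : (ssl_locSub F0 𝔫)ˣ) : ssl_locSub F0 𝔫)) := by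
      ring
    rw [this, Units.mul_inv, mul_one]
  · rw [← hPAa]; exact hcomap hA𝔫
  · rw [← hPBb]; exact hcomap hB𝔫
  · rw [← hPCc]; exact hcomap hC𝔫
  · rw [← hPAa]; exact hsA1
  · rw [← hPCc]; exact hsC1
  · rw [← hPBb]; exact hsB2
  · rw [← hPCc]; exact hsC2

end Assembly

section TwoSides

variable {B1 : Type*} [CommRing B1] [IsDomain B1] [IsNoetherianRing B1] [IsIntegrallyClosed B1]
  {F1 : Type*} [Field F1] [Algebra B1 F1] [IsFractionRing B1 F1]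
  {B1' : Type*} [CommRing B1'] [IsDomain B1'] [IsNoetherianRing B1'] [IsIntegrallyClosed B1']
  {F1' : Type*} [Field F1'] [Algebra B1' F1'] [IsFractionRing B1' F1']
  {A0 : Type*} [CommRing A0] {F0 : Type v} [Field F0] [Algebra A0 F0]
  {B : Subalgebra A0 F0} [IsFractionRing B F0] [Algebra F1 F0] [Algebra F1' F0]

/-- **THE TRIPLE-POINT CLAUSE, ONE CALL**: helper10's two-sided conclusion `s36tr_Concl3` at the
point `𝔫` of the top chart `B`, the chart package of the three branches (`P i = 𝔪(V i) ∩ B`), and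
on each side (the `α`-side: lower chart `B₁ ⊆ F₁ → F0`, branches `A`, `C`, norm `N₁`; the mirror
side: `B₁' ⊆ F₁' → F0`, branches `B`, `C`, norm `N₂`) the output `hcomap`, `hloc` of
`s36tr_ChartHyp.chart`, the node data `(u, v)` with the link `(R₁)_(u) = VF`, the restrictions
`V_X ∩ F₁ = VF` and the residue equalities `κ(V_X) = κ(VF)`. -/
theorem s36g_ptTri_of_sides (π : A0) {p : ℕ} {N1 N2 : F0 →* F0} {K1 K2 : Subfield F0}
    (V : Fin 3 → ValuationSubring F0) (P : Fin 3 → Ideal B) (𝔫 : Ideal B) [h𝔫 : 𝔫.IsPrime]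
    (hPp : ∀ i, (P i).IsPrime) (hP𝔫 : ∀ i, P i ≤ 𝔫) (hBV : ∀ i (b : B), (b : F0) ∈ V i)
    (hP : ∀ i (b : B), b ∈ P i ↔ (b : F0) ∈ (V i).nonunits)
    (h3 : s36tr_Concl3 (p + 1) (algebraMap A0 B π) 𝔫 (P 0) (P 1) (P 2) (ssl_locSub F0 𝔫))
    -- side 1
    (ι : B1 →+* B)
    (hcomm : ∀ b : B1, algebraMap B F0 (ι b) = algebraMap F1 F0 (algebraMap B1 F1 b))
    (hint : ι.IsIntegral) (𝔫1 : Ideal B1) [𝔫1.IsPrime] (hcomap : 𝔫.comap ι = 𝔫1)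
    (hloc : ∀ z : F0, z ∈ ssl_locSub F0 𝔫 → ∃ (s : B1) (b : B), s ∉ 𝔫1 ∧
      algebraMap B F0 (ι s) * z = algebraMap B F0 b)
    {u v : ssl_locSub F1 𝔫1} (hu : Prime u)
    (hmax : 𝔫1.map (algebraMap B1 (ssl_locSub F1 𝔫1)) = Ideal.span {u, v})
    (VF : ValuationSubring F1) (lF : s36g_Link (F := F1) u VF)
    (hK1 : ∀ y : F1, algebraMap F1 F0 y ∈ K1)
    (hN1 : ∀ x : F0, N1 x = algebraMap F1 F0 (Algebra.norm F1 x))
    (rA : ∀ y : F1, algebraMap F1 F0 y ∈ V 0 ↔ y ∈ VF)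
    (rC : ∀ y : F1, algebraMap F1 F0 y ∈ V 2 ↔ y ∈ VF)
    (resA : ∀ x ∈ V 0, ∃ y ∈ VF, x - algebraMap F1 F0 y ∈ (V 0).nonunits)
    (resC : ∀ x ∈ V 2, ∃ y ∈ VF, x - algebraMap F1 F0 y ∈ (V 2).nonunits)
    -- side 2 (the mirror)
    (ι' : B1' →+* B)
    (hcomm' : ∀ b : B1', algebraMap B F0 (ι' b) = algebraMap F1' F0 (algebraMap B1' F1' b))
    (hint' : ι'.IsIntegral) (𝔫1' : Ideal B1') [𝔫1'.IsPrime] (hcomap' : 𝔫.comap ι' = 𝔫1')
    (hloc' : ∀ z : F0, z ∈ ssl_locSub F0 𝔫 → ∃ (s : B1') (b : B), s ∉ 𝔫1' ∧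
      algebraMap B F0 (ι' s) * z = algebraMap B F0 b)
    {u' v' : ssl_locSub F1' 𝔫1'} (hu' : Prime u')
    (hmax' : 𝔫1'.map (algebraMap B1' (ssl_locSub F1' 𝔫1')) = Ideal.span {u', v'})
    (VF' : ValuationSubring F1') (lF' : s36g_Link (F := F1') u' VF')
    (hK2 : ∀ y : F1', algebraMap F1' F0 y ∈ K2)
    (hN2 : ∀ x : F0, N2 x = algebraMap F1' F0 (Algebra.norm F1' x))
    (rB' : ∀ y : F1', algebraMap F1' F0 y ∈ V 1 ↔ y ∈ VF')
    (rC' : ∀ y : F1', algebraMap F1' F0 y ∈ V 2 ↔ y ∈ VF')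
    (resB' : ∀ x ∈ V 1, ∃ y ∈ VF', x - algebraMap F1' F0 y ∈ (V 1).nonunits)
    (resC' : ∀ x ∈ V 2, ∃ y ∈ VF', x - algebraMap F1' F0 y ∈ (V 2).nonunits) :
    s36g_PtTri π p N1 N2 K1 K2 B (P 0) (P 1) (P 2) 𝔫 := by
  haveI := hPp 0
  haveI := hPp 1
  haveI := hPp 2
  exact s36g_ptTri_of_concl3 π (hP𝔫 0) (hP𝔫 1) (hP𝔫 2) h3
    (s36g_normU_of_chart ι hcomm hint 𝔫1 𝔫 hcomap hloc N1 hN1)
    (s36g_normU_of_chart ι' hcomm' hint' 𝔫1' 𝔫 hcomap' hloc' N2 hN2)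
    (s36g_side_of_chart ι (algebraMap F1 F0) hcomm hint 𝔫1 𝔫 hcomap hloc hu hmax VF lF K1 hK1
      (V 0) (P 0) (hP𝔫 0) (hBV 0) (hP 0) rA resA)
    (s36g_side_of_chart ι (algebraMap F1 F0) hcomm hint 𝔫1 𝔫 hcomap hloc hu hmax VF lF K1 hK1
      (V 2) (P 2) (hP𝔫 2) (hBV 2) (hP 2) rC resC)
    (s36g_side_of_chart ι' (algebraMap F1' F0) hcomm' hint' 𝔫1' 𝔫 hcomap' hloc' hu' hmax' VF' lF'
      K2 hK2 (V 1) (P 1) (hP𝔫 1) (hBV 1) (hP 1) rB' resB')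
    (s36g_side_of_chart ι' (algebraMap F1' F0) hcomm' hint' 𝔫1' 𝔫 hcomap' hloc' hu' hmax' VF' lF'
      K2 hK2 (V 2) (P 2) (hP𝔫 2) (hBV 2) (hP 2) rC' resC')

/-- **THE TRIPLE-POINT CLAUSE, ONE CALL, explicit embeddings**: as `s36g_ptTri_of_sides`, with
`j : F₁ →+* F0`, `j' : F₁' →+* F0` explicit (no `Algebra` instance: the two sides may use the SAME
lower field `F₁ = F₁'`, e.g. `j = inclusion`, `j' = W₂ ∘ inclusion`), the norms `N₁`, `N₂` being the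
norms to fields `K₁'`, `K₂' ⊆ F0` identified with `F₁`, `F₁'` by `w`, `w'`. -/
theorem s36g_ptTri_of_sides' {F0' : Type v} [Field F0'] [Algebra A0 F0'] {B' : Subalgebra A0 F0'}
    [IsFractionRing B' F0'] (π : A0) {p : ℕ} {N1 N2 : F0' →* F0'} {K1 K2 : Subfield F0'}
    (V : Fin 3 → ValuationSubring F0') (P : Fin 3 → Ideal B') (𝔫 : Ideal B') [h𝔫 : 𝔫.IsPrime]
    (hPp : ∀ i, (P i).IsPrime) (hP𝔫 : ∀ i, P i ≤ 𝔫) (hBV : ∀ i (b : B'), (b : F0') ∈ V i)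
    (hP : ∀ i (b : B'), b ∈ P i ↔ (b : F0') ∈ (V i).nonunits)
    (h3 : s36tr_Concl3 (p + 1) (algebraMap A0 B' π) 𝔫 (P 0) (P 1) (P 2) (ssl_locSub F0' 𝔫))
    -- side 1
    (ι : B1 →+* B') (j : F1 →+* F0')
    (hcomm : ∀ b : B1, algebraMap B' F0' (ι b) = j (algebraMap B1 F1 b))
    (hint : ι.IsIntegral) (𝔫1 : Ideal B1) [𝔫1.IsPrime] (hcomap : 𝔫.comap ι = 𝔫1)
    (hloc : ∀ z : F0', z ∈ ssl_locSub F0' 𝔫 → ∃ (s : B1) (b : B'), s ∉ 𝔫1 ∧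
      algebraMap B' F0' (ι s) * z = algebraMap B' F0' b)
    {u v : ssl_locSub F1 𝔫1} (hu : Prime u)
    (hmax : 𝔫1.map (algebraMap B1 (ssl_locSub F1 𝔫1)) = Ideal.span {u, v})
    (VF : ValuationSubring F1) (lF : s36g_Link (F := F1) u VF)
    (hK1 : ∀ y : F1, j y ∈ K1)
    {K1' : Type*} [Field K1'] [Algebra K1' F0'] (w : F1 ≃+* K1')
    (hw : ∀ y : F1, algebraMap K1' F0' (w y) = j y)
    (hN1 : ∀ x : F0', N1 x = algebraMap K1' F0' (Algebra.norm K1' x))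
    (rA : ∀ y : F1, j y ∈ V 0 ↔ y ∈ VF) (rC : ∀ y : F1, j y ∈ V 2 ↔ y ∈ VF)
    (resA : ∀ x ∈ V 0, ∃ y ∈ VF, x - j y ∈ (V 0).nonunits)
    (resC : ∀ x ∈ V 2, ∃ y ∈ VF, x - j y ∈ (V 2).nonunits)
    -- side 2 (the mirror)
    (ι' : B1' →+* B') (j' : F1' →+* F0')
    (hcomm' : ∀ b : B1', algebraMap B' F0' (ι' b) = j' (algebraMap B1' F1' b))
    (hint' : ι'.IsIntegral) (𝔫1' : Ideal B1') [𝔫1'.IsPrime] (hcomap' : 𝔫.comap ι' = 𝔫1')
    (hloc' : ∀ z : F0', z ∈ ssl_locSub F0' 𝔫 → ∃ (s : B1') (b : B'), s ∉ 𝔫1' ∧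
      algebraMap B' F0' (ι' s) * z = algebraMap B' F0' b)
    {u' v' : ssl_locSub F1' 𝔫1'} (hu' : Prime u')
    (hmax' : 𝔫1'.map (algebraMap B1' (ssl_locSub F1' 𝔫1')) = Ideal.span {u', v'})
    (VF' : ValuationSubring F1') (lF' : s36g_Link (F := F1') u' VF')
    (hK2 : ∀ y : F1', j' y ∈ K2)
    {K2' : Type*} [Field K2'] [Algebra K2' F0'] (w' : F1' ≃+* K2')
    (hw' : ∀ y : F1', algebraMap K2' F0' (w' y) = j' y)
    (hN2 : ∀ x : F0', N2 x = algebraMap K2' F0' (Algebra.norm K2' x))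
    (rB' : ∀ y : F1', j' y ∈ V 1 ↔ y ∈ VF') (rC' : ∀ y : F1', j' y ∈ V 2 ↔ y ∈ VF')
    (resB' : ∀ x ∈ V 1, ∃ y ∈ VF', x - j' y ∈ (V 1).nonunits)
    (resC' : ∀ x ∈ V 2, ∃ y ∈ VF', x - j' y ∈ (V 2).nonunits) :
    s36g_PtTri π p N1 N2 K1 K2 B' (P 0) (P 1) (P 2) 𝔫 := by
  haveI := hPp 0
  haveI := hPp 1
  haveI := hPp 2
  exact s36g_ptTri_of_concl3 π (hP𝔫 0) (hP𝔫 1) (hP𝔫 2) h3
    (s36g_normU_of_chart' ι j hcomm hint 𝔫1 𝔫 hcomap hloc w hw N1 hN1)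
    (s36g_normU_of_chart' ι' j' hcomm' hint' 𝔫1' 𝔫 hcomap' hloc' w' hw' N2 hN2)
    (s36g_side_of_chart ι j hcomm hint 𝔫1 𝔫 hcomap hloc hu hmax VF lF K1 hK1
      (V 0) (P 0) (hP𝔫 0) (hBV 0) (hP 0) rA resA)
    (s36g_side_of_chart ι j hcomm hint 𝔫1 𝔫 hcomap hloc hu hmax VF lF K1 hK1
      (V 2) (P 2) (hP𝔫 2) (hBV 2) (hP 2) rC resC)
    (s36g_side_of_chart ι' j' hcomm' hint' 𝔫1' 𝔫 hcomap' hloc' hu' hmax' VF' lF'
      K2 hK2 (V 1) (P 1) (hP𝔫 1) (hBV 1) (hP 1) rB' resB')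
    (s36g_side_of_chart ι' j' hcomm' hint' 𝔫1' 𝔫 hcomap' hloc' hu' hmax' VF' lF'
      K2 hK2 (V 2) (P 2) (hP𝔫 2) (hBV 2) (hP 2) rC' resC')

end TwoSides

end Fermat.Agent.S36
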