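/-
Project S36 (Carayol), [L4] sub-assembly (helper24): THE POINT DISPATCH in helper1's spelling.

`s36gd_asm_pts` : helper1's `s36asm_Pts O hπ N' q hq2 hqN' VC D1` (= item (P) of the Legendre
burn-down list of `Model/AsmLegGlue.lean`) from `H : s36tp_Hyp … ![VA, VB, VC] ![1, 1, q - 1]`,
the `W₂`-stability of the two charts, and the producers at the C-only points ([L3b], [L3c]) and
at the points on two components ([L3d]); the A-only / B-only points are helper17's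
`s36cp_nf_one`.  [NF2-CTX].  Prefix `s36gd_`.
-/
import Mathlib
import Fermat.Agent.S36.Glue.DispatchLeg
import Fermat.Agent.S36.Model.AsmLegGlue

set_option autoImplicit false
set_option linter.unusedSectionVars false
set_option linter.unusedVariables false
set_option linter.style.haveILetI false

noncomputable section

open ModularCurve AlgebraicCurve IntermediateField IsLocalRing
open Fermat.Agent.JT3 Fermat.Agent.SS Fermat.Agent.S35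

namespace Fermat.Agent.S36

section NF

variable (L : Type) [Field L] [NumberField L] [Algebra L (AlgebraicClosure ℚ)]
  (O : ValuationSubring L) [IsDiscreteValuationRing O] {π : O} (hπ : Irreducible π)
variable (N' q : ℕ) [NeZero N'] [NeZero q] [hq : Fact q.Prime] [CharP (ResidueField O) q]
  (hq2 : ¬ 2 ∣ q) (hqN' : ¬ q ∣ N') (ζ : L) (hζ : IsPrimitiveRoot ζ N')

include hζ in
set_option synthInstance.maxHeartbeats 200000 in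
set_option maxHeartbeats 1600000 in
/-- **Item (P) of the Legendre burn-down list** from the C-only and two-component producers. -/
theorem s36gd_asm_pts {VC : ValuationSubring ↥(lg_E L (N' * q * q))}
    (H : s36tp_Hyp
      (algebraMap ↥O (Algebra.adjoin ↥O ({lg_lamE (N' * q * q)} : Set ↥(lg_E L (N' * q * q)))) π)
      ![s36i_VA O hπ (N' * q) q, s36i_VB O hπ N' q hq2 hqN', VC] ![1, 1, q - 1])
    (hWB1 : ∀ b ∈ fc_chart ↥O ({lg_lamE (N' * q * q)} : Set ↥(lg_E L (N' * q * q))),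
      s36i_W2 L N' q hq2 hqN' b ∈
        fc_chart ↥O ({lg_lamE (N' * q * q)} : Set ↥(lg_E L (N' * q * q))))
    (hWB2 : ∀ b ∈ fc_chart ↥O ({(lg_lamE (N' * q * q))⁻¹} : Set ↥(lg_E L (N' * q * q))),
      s36i_W2 L N' q hq2 hqN' b ∈
        fc_chart ↥O ({(lg_lamE (N' * q * q))⁻¹} : Set ↥(lg_E L (N' * q * q))))
    (D1 : ℕ)
    (hC1 : ∀ (𝔫 : Ideal (fc_chart ↥O ({lg_lamE (N' * q * q)} : Set ↥(lg_E L (N' * q * q))))) (h𝔫 : 𝔫.IsMaximal),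
      algebraMap ↥O (fc_chart ↥O ({lg_lamE (N' * q * q)} : Set ↥(lg_E L (N' * q * q)))) π ∈ 𝔫 →
      ssm_tp_P (fc_chart ↥O ({lg_lamE (N' * q * q)} : Set ↥(lg_E L (N' * q * q)))) VC ≤ 𝔫 →
      ¬ ssm_tp_P (fc_chart ↥O ({lg_lamE (N' * q * q)} : Set ↥(lg_E L (N' * q * q)))) (s36i_VA O hπ (N' * q) q) ≤ 𝔫 →
      ¬ ssm_tp_P (fc_chart ↥O ({lg_lamE (N' * q * q)} : Set ↥(lg_E L (N' * q * q)))) (s36i_VB O hπ N' q hq2 hqN') ≤ 𝔫 →
      (haveI := s36cp_chart_isFractionRing O (N' * q * q)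
       haveI := h𝔫.isPrime
       s36g_PtOne π q (fc_chart ↥O ({lg_lamE (N' * q * q)} : Set ↥(lg_E L (N' * q * q)))) 𝔫 ∨
       s36g_PtWeak π q D1 (fc_chart ↥O ({lg_lamE (N' * q * q)} : Set ↥(lg_E L (N' * q * q)))) 𝔫))
    (hT1 : ∀ (𝔫 : Ideal (fc_chart ↥O ({lg_lamE (N' * q * q)} : Set ↥(lg_E L (N' * q * q))))) (h𝔫 : 𝔫.IsMaximal),
      algebraMap ↥O (fc_chart ↥O ({lg_lamE (N' * q * q)} : Set ↥(lg_E L (N' * q * q)))) π ∈ 𝔫 →
      ((ssm_tp_P (fc_chart ↥O ({lg_lamE (N' * q * q)} : Set ↥(lg_E L (N' * q * q)))) (s36i_VA O hπ (N' * q) q) ≤ 𝔫 ∧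
          ssm_tp_P (fc_chart ↥O ({lg_lamE (N' * q * q)} : Set ↥(lg_E L (N' * q * q)))) (s36i_VB O hπ N' q hq2 hqN') ≤ 𝔫) ∨
        (ssm_tp_P (fc_chart ↥O ({lg_lamE (N' * q * q)} : Set ↥(lg_E L (N' * q * q)))) (s36i_VA O hπ (N' * q) q) ≤ 𝔫 ∧
          ssm_tp_P (fc_chart ↥O ({lg_lamE (N' * q * q)} : Set ↥(lg_E L (N' * q * q)))) VC ≤ 𝔫) ∨
        (ssm_tp_P (fc_chart ↥O ({lg_lamE (N' * q * q)} : Set ↥(lg_E L (N' * q * q)))) (s36i_VB O hπ N' q hq2 hqN') ≤ 𝔫 ∧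
          ssm_tp_P (fc_chart ↥O ({lg_lamE (N' * q * q)} : Set ↥(lg_E L (N' * q * q)))) VC ≤ 𝔫)) →
      (haveI := s36cp_chart_isFractionRing O (N' * q * q)
       haveI := h𝔫.isPrime
       letI := ssm_gi_algebra (ssm_al_E_le L (N' * q) q)
       letI := ssm_gi_algebra (ssm_al_E_beta_le L (N' * q) q hq2)
       s36g_PtTri π (q - 1) (s36at_N ↥(lg_E L (N' * q)))
        (s36at_N ↥((lg_E L (N' * q)).map (qExpandAlgHomC L q)))
        (algebraMap ↥(lg_E L (N' * q)) ↥(lg_E L (N' * q * q))).fieldRange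
        (algebraMap ↥((lg_E L (N' * q)).map (qExpandAlgHomC L q)) ↥(lg_E L (N' * q * q))).fieldRange
        (fc_chart ↥O ({lg_lamE (N' * q * q)} : Set ↥(lg_E L (N' * q * q))))
        (ssm_tp_P (fc_chart ↥O ({lg_lamE (N' * q * q)} : Set ↥(lg_E L (N' * q * q)))) (s36i_VA O hπ (N' * q) q))
        (ssm_tp_P (fc_chart ↥O ({lg_lamE (N' * q * q)} : Set ↥(lg_E L (N' * q * q)))) (s36i_VB O hπ N' q hq2 hqN'))
        (ssm_tp_P (fc_chart ↥O ({lg_lamE (N' * q * q)} : Set ↥(lg_E L (N' * q * q)))) VC) 𝔫))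
    (hC2 : ∀ (𝔫 : Ideal (fc_chart ↥O ({(lg_lamE (N' * q * q))⁻¹} : Set ↥(lg_E L (N' * q * q))))) (h𝔫 : 𝔫.IsMaximal),
      algebraMap ↥O (fc_chart ↥O ({(lg_lamE (N' * q * q))⁻¹} : Set ↥(lg_E L (N' * q * q)))) π ∈ 𝔫 →
      (⟨(lg_lamE (N' * q * q))⁻¹, fc_x_mem_chart (lg_lamE (N' * q * q))⁻¹⟩ : fc_chart ↥O ({(lg_lamE (N' * q * q))⁻¹} : Set ↥(lg_E L (N' * q * q)))) ∈ 𝔫 →
      ssm_tp_P (fc_chart ↥O ({(lg_lamE (N' * q * q))⁻¹} : Set ↥(lg_E L (N' * q * q)))) VC ≤ 𝔫 →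
      ¬ ssm_tp_P (fc_chart ↥O ({(lg_lamE (N' * q * q))⁻¹} : Set ↥(lg_E L (N' * q * q)))) (s36i_VA O hπ (N' * q) q) ≤ 𝔫 →
      ¬ ssm_tp_P (fc_chart ↥O ({(lg_lamE (N' * q * q))⁻¹} : Set ↥(lg_E L (N' * q * q)))) (s36i_VB O hπ N' q hq2 hqN') ≤ 𝔫 →
      (haveI := s36cp_chart_inv_isFractionRing O (N' * q * q)
       haveI := h𝔫.isPrime
       s36g_PtOne π q (fc_chart ↥O ({(lg_lamE (N' * q * q))⁻¹} : Set ↥(lg_E L (N' * q * q)))) 𝔫 ∨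
       s36g_PtWeak π q D1 (fc_chart ↥O ({(lg_lamE (N' * q * q))⁻¹} : Set ↥(lg_E L (N' * q * q)))) 𝔫))
    (hT2 : ∀ (𝔫 : Ideal (fc_chart ↥O ({(lg_lamE (N' * q * q))⁻¹} : Set ↥(lg_E L (N' * q * q))))) (h𝔫 : 𝔫.IsMaximal),
      algebraMap ↥O (fc_chart ↥O ({(lg_lamE (N' * q * q))⁻¹} : Set ↥(lg_E L (N' * q * q)))) π ∈ 𝔫 →
      (⟨(lg_lamE (N' * q * q))⁻¹, fc_x_mem_chart (lg_lamE (N' * q * q))⁻¹⟩ : fc_chart ↥O ({(lg_lamE (N' * q * q))⁻¹} : Set ↥(lg_E L (N' * q * q)))) ∈ 𝔫 →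
      ((ssm_tp_P (fc_chart ↥O ({(lg_lamE (N' * q * q))⁻¹} : Set ↥(lg_E L (N' * q * q)))) (s36i_VA O hπ (N' * q) q) ≤ 𝔫 ∧
          ssm_tp_P (fc_chart ↥O ({(lg_lamE (N' * q * q))⁻¹} : Set ↥(lg_E L (N' * q * q)))) (s36i_VB O hπ N' q hq2 hqN') ≤ 𝔫) ∨
        (ssm_tp_P (fc_chart ↥O ({(lg_lamE (N' * q * q))⁻¹} : Set ↥(lg_E L (N' * q * q)))) (s36i_VA O hπ (N' * q) q) ≤ 𝔫 ∧
          ssm_tp_P (fc_chart ↥O ({(lg_lamE (N' * q * q))⁻¹} : Set ↥(lg_E L (N' * q * q)))) VC ≤ 𝔫) ∨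
        (ssm_tp_P (fc_chart ↥O ({(lg_lamE (N' * q * q))⁻¹} : Set ↥(lg_E L (N' * q * q)))) (s36i_VB O hπ N' q hq2 hqN') ≤ 𝔫 ∧
          ssm_tp_P (fc_chart ↥O ({(lg_lamE (N' * q * q))⁻¹} : Set ↥(lg_E L (N' * q * q)))) VC ≤ 𝔫)) →
      (haveI := s36cp_chart_inv_isFractionRing O (N' * q * q)
       haveI := h𝔫.isPrime
       letI := ssm_gi_algebra (ssm_al_E_le L (N' * q) q)
       letI := ssm_gi_algebra (ssm_al_E_beta_le L (N' * q) q hq2)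
       s36g_PtTri π (q - 1) (s36at_N ↥(lg_E L (N' * q)))
        (s36at_N ↥((lg_E L (N' * q)).map (qExpandAlgHomC L q)))
        (algebraMap ↥(lg_E L (N' * q)) ↥(lg_E L (N' * q * q))).fieldRange
        (algebraMap ↥((lg_E L (N' * q)).map (qExpandAlgHomC L q)) ↥(lg_E L (N' * q * q))).fieldRange
        (fc_chart ↥O ({(lg_lamE (N' * q * q))⁻¹} : Set ↥(lg_E L (N' * q * q))))
        (ssm_tp_P (fc_chart ↥O ({(lg_lamE (N' * q * q))⁻¹} : Set ↥(lg_E L (N' * q * q)))) (s36i_VA O hπ (N' * q) q))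
        (ssm_tp_P (fc_chart ↥O ({(lg_lamE (N' * q * q))⁻¹} : Set ↥(lg_E L (N' * q * q)))) (s36i_VB O hπ N' q hq2 hqN'))
        (ssm_tp_P (fc_chart ↥O ({(lg_lamE (N' * q * q))⁻¹} : Set ↥(lg_E L (N' * q * q)))) VC) 𝔫))
    :
    s36asm_Pts O hπ N' q hq2 hqN' VC D1 := by
  letI := ssm_gi_algebra (ssm_al_E_le L (N' * q) q)
  letI := ssm_gi_algebra (ssm_al_E_beta_le L (N' * q) q hq2)
  exact s36gd_leg L O hπ N' q hq2 hqN' ζ hζ H rfl rfl hWB1 hWB2 D1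
    (s36at_N ↥(lg_E L (N' * q))) (s36at_N ↥((lg_E L (N' * q)).map (qExpandAlgHomC L q)))
    (algebraMap ↥(lg_E L (N' * q)) ↥(lg_E L (N' * q * q))).fieldRange
    (algebraMap ↥((lg_E L (N' * q)).map (qExpandAlgHomC L q)) ↥(lg_E L (N' * q * q))).fieldRange
    hC1 hT1 hC2 hT2

end NF

end Fermat.Agent.S36
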