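/-
Project S36 (Carayol), cell [GLUE-MAIN] (helper3): THE CONGRUENCE (h4a) AT ONE VERTICAL VALUATION
(prefix `s36g_`).

`V` a valuation subring of `F`, `ϖ ∈ F` with `ϖ ∣ q` in `V` and `𝔪(V)^e ⊆ ϖ V`
(`e = 1` at the reduced components `A`, `B`; `e = q - 1` at `C`).  If `y ≡ 1 mod 𝔪(V)` then
`y ^ (q ^ k) ≡ 1 mod ϖ V` as soon as `e ≤ q ^ k`.
-/
import Mathlib
import Fermat.Agent.S36.Glue.Crt

set_option autoImplicit false
set_option linter.unusedSectionVars false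

namespace Fermat.Agent.S36

section H4a

variable {F : Type*} [Field F]

/-- `y ≡ 1 mod 𝔪(V)`, `ϖ ∣ q` in `V`, `𝔪(V)^e ⊆ ϖ V`, `e ≤ q^k` ⟹ `y^(q^k) ≡ 1 mod ϖ V`. -/
theorem s36g_pow_sub_one_mem (V : ValuationSubring F) {q : ℕ} (hq : q.Prime) {ϖ : F}
    (hqϖ : ϖ⁻¹ * (q : F) ∈ V) {e : ℕ} (hram : ∀ z ∈ V.nonunits, ϖ⁻¹ * z ^ e ∈ V) {k : ℕ}
    (hek : e ≤ q ^ k) {y : F} (hy : y - 1 ∈ V.nonunits) : ϖ⁻¹ * (y ^ q ^ k - 1) ∈ V := by
  have hzV : y - 1 ∈ V := ValuationSubring.nonunits_subset hy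
  obtain ⟨r, hr⟩ := s36g_add_pow_prime_pow hq (1 : V) (⟨y - 1, hzV⟩ : V) k
  have hr' := congrArg (fun t : V => (t : F)) hr
  simp only [SubmonoidClass.coe_pow, AddMemClass.coe_add, MulMemClass.coe_mul,
    OneMemClass.coe_one, one_pow, SubringClass.coe_natCast] at hr'
  have e1 : y ^ q ^ k - 1 = (y - 1) ^ q ^ k + (q : F) * (r : F) := by
    have : (1 : F) + (y - 1) = y := by ring
    rw [this] at hr'
    rw [hr']; ring
  have e2 : (y - 1) ^ q ^ k = (y - 1) ^ e * (y - 1) ^ (q ^ k - e) := by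
    rw [← pow_add, Nat.add_sub_cancel' hek]
  rw [e1, e2, mul_add, ← mul_assoc, ← mul_assoc]
  exact V.add_mem _ _ (V.mul_mem _ _ (hram _ hy) (V.pow_mem hzV _)) (V.mul_mem _ _ hqϖ r.2)

/-- a product of elements `≡ 1 mod 𝔪(V)` is `≡ 1`. -/
theorem s36g_mul_sub_one_mem (V : ValuationSubring F) {y z : F} (hy : y - 1 ∈ V.nonunits)
    (hz : z - 1 ∈ V.nonunits) : y * z - 1 ∈ V.nonunits := by
  have hzV : z ∈ V := by
    have : z = (z - 1) + 1 := by ring
    rw [this]; exact V.add_mem _ _ (ValuationSubring.nonunits_subset hz) V.one_mem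
  have e : y * z - 1 = (y - 1) * z + (z - 1) := by ring
  rw [e]
  have h1 : (y - 1) * z ∈ V.nonunits := by
    rw [ValuationSubring.mem_nonunits_iff] at hy ⊢
    rw [map_mul]
    have hb' : V.valuation z ≤ 1 := (V.valuation_le_one_iff z).mpr hzV
    calc V.valuation (y - 1) * V.valuation z ≤ V.valuation (y - 1) * 1 := mul_le_mul_right hb' _
      _ = V.valuation (y - 1) := mul_one _
      _ < 1 := hy
  rw [ValuationSubring.mem_nonunits_iff] at h1 hz ⊢
  exact lt_of_le_of_lt (Valuation.map_add _ _ _) (max_lt h1 hz)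

/-- a power of an element `≡ 1 mod 𝔪(V)` is `≡ 1`. -/
theorem s36g_pow_sub_one_mem_nonunits (V : ValuationSubring F) {y : F} (hy : y - 1 ∈ V.nonunits)
    (n : ℕ) : y ^ n - 1 ∈ V.nonunits := by
  induction n with
  | zero =>
    rw [pow_zero, sub_self, ValuationSubring.mem_nonunits_iff, map_zero]
    exact zero_lt_one
  | succ n ih => rw [pow_succ]; exact s36g_mul_sub_one_mem V ih hy

end H4a

end Fermat.Agent.S36
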