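/-
Project S36 (Carayol), cell [GLUE] / [L3] (helper3): THE LOCAL HYPOTHESIS OF `sfc_main` AT A CLOSED
POINT LYING ON ONE VERTICAL COMPONENT ONLY, OF ARBITRARY MULTIPLICITY (prefix `s36g_`).

`R = B_𝔫` factorial, `ϖ ~ u ^ e` with `u` prime (`e = 1`: smooth point of the reduced components
`A`, `B`; `e = q - 1`: point of the middle component `C`), `R / (u)` integrally closed, `f ≡ 1` along
the branch and `m ∣` all horizontal orders of `f`.  Then the local hypothesis of `sfc_main` holds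
for `f ^ (q ^ k)` as soon as `e ≤ q ^ k`: NO gluing condition.
-/
import Mathlib
import Fermat.Agent.S36.Glue.Rel
import Fermat.Agent.S36.Glue.Hloc

set_option autoImplicit false
set_option linter.unusedSectionVars false

namespace Fermat.Agent.S36

open Fermat.Agent.SS

universe v

section One

variable {A0 : Type*} [CommRing A0] {F0 : Type v} [Field F0] [Algebra A0 F0]
variable {B : Subalgebra A0 F0} [IsFractionRing B F0] [IsNoetherianRing B] [IsIntegrallyClosed B]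

/-- **[L3] at a point of one component.** -/
theorem s36g_hloc_one (π : A0) (hϖ0 : algebraMap A0 F0 π ≠ 0) (𝔫 : Ideal B) [h𝔫 : 𝔫.IsPrime]
    (hπ𝔫 : algebraMap A0 B π ∈ 𝔫) [UniqueFactorizationMonoid (ssl_locSub F0 𝔫)]
    {q : ℕ} (hq : q.Prime)
    (hqπ : algebraMap B (ssl_locSub F0 𝔫) (algebraMap A0 B π) ∣ (q : ssl_locSub F0 𝔫))
    (u : ssl_locSub F0 𝔫) (e : ℕ) (he : e ≠ 0) (hu : Prime u)
    (hπ : Associated (algebraMap B (ssl_locSub F0 𝔫) (algebraMap A0 B π)) (u ^ e))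
    (hsm : IsIntegrallyClosed (ssl_locSub F0 𝔫 ⧸ Ideal.span {u}))
    (m : ℕ) (hm : 0 < m) {f : F0} (hf : f ≠ 0)
    (hdiv : ∀ 𝔮 : Ideal (ssl_locSub F0 𝔫),
      ssl_Horiz (algebraMap B (ssl_locSub F0 𝔫) (algebraMap A0 B π)) 𝔮 →
        ∃ G : F0, G ≠ 0 ∧ ssl_UnitAt F0 𝔮 (f / G ^ m))
    (hf1 : s36g_MemM (Ideal.span {u}) (f - 1)) (k : ℕ) (hek : e ≤ q ^ k) :
    ∃ (b1 : B) (h : F0), b1 ∉ 𝔫 ∧ h ^ m * f ^ q ^ k ∈ B ∧
      h - (b1 : F0) ∈ sfc_piO B.toSubring (algebraMap A0 F0 π) := by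
  have : IsNoetherianRing (ssl_locSub F0 𝔫) := ssl_loc_isNoetherianRing 𝔫
  have : IsIntegrallyClosed (ssl_locSub F0 𝔫) := ssl_loc_isIntegrallyClosed 𝔫
  have hπ' : Associated (algebraMap B (ssl_locSub F0 𝔫) (algebraMap A0 B π))
      (∏ j : Unit, (fun _ : Unit => u) j ^ (fun _ : Unit => e) j) := by
    simpa using hπ
  obtain ⟨ω, g, a, hfg, hgu, hga, -⟩ :=
    s36g_local_data (F := F0) _ (fun _ : Unit => u) (fun _ : Unit => e) (fun _ => hu) (fun _ => he)
      hπ' (fun _ => hsm) m hm hf hdiv (fun _ => hf1)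
  refine s36g_hloc π hϖ0 𝔫 hπ𝔫 hq hqπ (fun _ : Unit => u) (fun _ : Unit => e) (fun _ => hu)
    (fun i j hij => absurd (Subsingleton.elim i j) hij) hπ'
    (fun i j hij => absurd (Subsingleton.elim i j) hij) m hm.ne' ω hfg hgu a (a ()) hga
    (fun j => by
      have : j = () := rfl
      rw [this, sub_self]; exact Ideal.zero_mem _) k (fun j => ?_) (fun _ => hek)
  have : (Finset.univ : Finset Unit).erase j = ∅ := by
    ext i
    simp
  rw [this, Finset.sum_empty, mul_zero]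
  exact Nat.zero_le _

end One

end Fermat.Agent.S36
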